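import Mathlib
import Fermat.Agent.S51.TorsCommon

/-!
# S05, package P1: exact identities for `x(P₁ + P₂)` and `x(P₁ - P₂)`
-/

set_option autoImplicit false
set_option linter.unusedSectionVars false

namespace Fermat.Agent.S05

open WeierstrassCurve Fermat.Agent.S51

variable {K : Type*} [Field K] [DecidableEq K] {W : WeierstrassCurve.Affine K}

/-- If `x₁ ≠ x₂` then `P₁ + P₂` is affine, with explicit `X`-coordinate. -/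
lemma S05_isX_add {x₁ y₁ x₂ y₂ : K} (h₁ : W.Nonsingular x₁ y₁) (h₂ : W.Nonsingular x₂ y₂)
    (hne : x₁ ≠ x₂) :
    S51_c_IsX (Affine.Point.some x₁ y₁ h₁ + Affine.Point.some x₂ y₂ h₂)
      (W.addX x₁ x₂ ((y₁ - y₂) / (x₁ - x₂))) := by
  rw [Affine.Point.add_of_X_ne hne]
  have := Affine.slope_of_X_ne (W := W) (y₁ := y₁) (y₂ := y₂) hne
  rw [← this]
  exact ⟨_, _, rfl⟩

/-- If `x₁ ≠ x₂` then `P₁ - P₂` is affine, with explicit `X`-coordinate. -/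
lemma S05_isX_sub {x₁ y₁ x₂ y₂ : K} (h₁ : W.Nonsingular x₁ y₁) (h₂ : W.Nonsingular x₂ y₂)
    (hne : x₁ ≠ x₂) :
    S51_c_IsX (Affine.Point.some x₁ y₁ h₁ - Affine.Point.some x₂ y₂ h₂)
      (W.addX x₁ x₂ ((y₁ - W.negY x₂ y₂) / (x₁ - x₂))) := by
  rw [sub_eq_add_neg, Affine.Point.neg_some]
  exact S05_isX_add h₁ _ hne

/-- Product identity `(Π)`. -/
theorem S05_mul_identity {P₁ P₂ : W.Point} {x₁ x₂ xs xd : K}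
    (h₁ : S51_c_IsX P₁ x₁) (h₂ : S51_c_IsX P₂ x₂) (hne : x₁ ≠ x₂)
    (hs : S51_c_IsX (P₁ + P₂) xs) (hd : S51_c_IsX (P₁ - P₂) xd) :
    xs * xd * (x₁ - x₂) ^ 2 =
      x₁ ^ 2 * x₂ ^ 2 - W.b₄ * x₁ * x₂ - W.b₆ * (x₁ + x₂) - W.b₈ := by
  obtain ⟨y₁, n₁, rfl⟩ := h₁
  obtain ⟨y₂, n₂, rfl⟩ := h₂
  have es := (S05_isX_add n₁ n₂ hne).unique hs
  have ed := (S05_isX_sub n₁ n₂ hne).unique hd
  rw [← es, ← ed]
  have hx : x₁ - x₂ ≠ 0 := sub_ne_zero.mpr hne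
  have e₁ := (Affine.equation_iff _ _).mp n₁.1
  have e₂ := (Affine.equation_iff _ _).mp n₂.1
  simp only [Affine.addX, Affine.negY, WeierstrassCurve.b₄, WeierstrassCurve.b₆,
    WeierstrassCurve.b₈]
  field_simp
  grind


/-- Sum identity `(Σ)`. -/
theorem S05_add_identity {P₁ P₂ : W.Point} {x₁ x₂ xs xd : K}
    (h₁ : S51_c_IsX P₁ x₁) (h₂ : S51_c_IsX P₂ x₂) (hne : x₁ ≠ x₂)
    (hs : S51_c_IsX (P₁ + P₂) xs) (hd : S51_c_IsX (P₁ - P₂) xd) :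
    (xs + xd) * (x₁ - x₂) ^ 2 =
      2 * x₁ * x₂ * (x₁ + x₂) + W.b₂ * x₁ * x₂ + W.b₄ * (x₁ + x₂) + W.b₆ := by
  obtain ⟨y₁, n₁, rfl⟩ := h₁
  obtain ⟨y₂, n₂, rfl⟩ := h₂
  have es := (S05_isX_add n₁ n₂ hne).unique hs
  have ed := (S05_isX_sub n₁ n₂ hne).unique hd
  rw [← es, ← ed]
  have hx : x₁ - x₂ ≠ 0 := sub_ne_zero.mpr hne
  have e₁ := (Affine.equation_iff _ _).mp n₁.1
  have e₂ := (Affine.equation_iff _ _).mp n₂.1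
  simp only [Affine.addX, Affine.negY, WeierstrassCurve.b₂, WeierstrassCurve.b₄,
    WeierstrassCurve.b₆]
  field_simp
  grind

/-- If `x₁ ≠ x₂` both `P₁ + P₂` and `P₁ - P₂` are affine. -/
lemma S05_exists_isX_add_sub {P₁ P₂ : W.Point} {x₁ x₂ : K}
    (h₁ : S51_c_IsX P₁ x₁) (h₂ : S51_c_IsX P₂ x₂) (hne : x₁ ≠ x₂) :
    ∃ xs xd, S51_c_IsX (P₁ + P₂) xs ∧ S51_c_IsX (P₁ - P₂) xd := by
  obtain ⟨y₁, n₁, rfl⟩ := h₁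
  obtain ⟨y₂, n₂, rfl⟩ := h₂
  exact ⟨_, _, S05_isX_add n₁ n₂ hne, S05_isX_sub n₁ n₂ hne⟩

/-- The value of `Ψ₂Sq` in terms of the `b`-invariants. -/
lemma S05_eval_Ψ₂Sq (W : WeierstrassCurve.Affine K) (x : K) :
    W.Ψ₂Sq.eval x = 4 * x ^ 3 + W.b₂ * x ^ 2 + 2 * W.b₄ * x + W.b₆ := by
  simp [WeierstrassCurve.Ψ₂Sq]

/-- The value of `Φ 2` in terms of the `b`-invariants. -/
lemma S05_eval_Φ_two (W : WeierstrassCurve.Affine K) (x : K) :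
    (W.Φ 2).eval x = x ^ 4 - W.b₄ * x ^ 2 - 2 * W.b₆ * x - W.b₈ := by
  simp [WeierstrassCurve.Φ_two]

/-- Shifted product identity `(Π')` at a `2`-torsion abscissa `x₀`. -/
theorem S05_mul_identity_shift {P₁ P₂ : W.Point} {x₁ x₂ xs xd : K}
    (h₁ : S51_c_IsX P₁ x₁) (h₂ : S51_c_IsX P₂ x₂) (hne : x₁ ≠ x₂)
    (hs : S51_c_IsX (P₁ + P₂) xs) (hd : S51_c_IsX (P₁ - P₂) xd)
    {x₀ : K} (hx₀ : W.Ψ₂Sq.eval x₀ = 0) :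
    4 * ((xs - x₀) * (xd - x₀)) * (x₁ - x₂) ^ 2 =
      (2 * ((x₁ - x₀) * (x₂ - x₀)) - (W.b₄ + W.b₂ * x₀ + 6 * x₀ ^ 2)) ^ 2 := by
  have hm := S05_mul_identity h₁ h₂ hne hs hd
  have ha := S05_add_identity h₁ h₂ hne hs hd
  rw [S05_eval_Ψ₂Sq] at hx₀
  have hb := W.b_relation
  grind

/-- Shifted sum identity `(Σ')` at a `2`-torsion abscissa `x₀`. -/
theorem S05_add_identity_shift {P₁ P₂ : W.Point} {x₁ x₂ xs xd : K}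
    (h₁ : S51_c_IsX P₁ x₁) (h₂ : S51_c_IsX P₂ x₂) (hne : x₁ ≠ x₂)
    (hs : S51_c_IsX (P₁ + P₂) xs) (hd : S51_c_IsX (P₁ - P₂) xd)
    {x₀ : K} (hx₀ : W.Ψ₂Sq.eval x₀ = 0) :
    ((xs - x₀) + (xd - x₀)) * (x₁ - x₂) ^ 2 =
      ((x₁ - x₀) + (x₂ - x₀)) *
          (2 * ((x₁ - x₀) * (x₂ - x₀)) + (W.b₄ + W.b₂ * x₀ + 6 * x₀ ^ 2)) +
        (W.b₂ + 12 * x₀) * ((x₁ - x₀) * (x₂ - x₀)) := by
  have ha := S05_add_identity h₁ h₂ hne hs hd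
  rw [S05_eval_Ψ₂Sq] at hx₀
  grind

/-- Shifted form of `Ψ₂Sq` at a `2`-torsion abscissa `x₀`. -/
theorem S05_eval_Ψ₂Sq_shift (W : WeierstrassCurve.Affine K) {x₀ : K}
    (hx₀ : W.Ψ₂Sq.eval x₀ = 0) (x : K) :
    W.Ψ₂Sq.eval x = (x - x₀) *
      (4 * (x - x₀) ^ 2 + (W.b₂ + 12 * x₀) * (x - x₀) +
        2 * (W.b₄ + W.b₂ * x₀ + 6 * x₀ ^ 2)) := by
  rw [S05_eval_Ψ₂Sq] at hx₀ ⊢
  grind

/-- Shifted duplication identity `(D')` at a `2`-torsion abscissa `x₀`. -/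
theorem S05_dup_identity_shift {P : W.Point} {x x₂ : K} (hP : S51_c_IsX P x)
    (h2 : S51_c_IsX (P + P) x₂) {x₀ : K} (hx₀ : W.Ψ₂Sq.eval x₀ = 0) :
    4 * ((x₂ - x₀) * W.Ψ₂Sq.eval x) =
      (2 * (x - x₀) ^ 2 - (W.b₄ + W.b₂ * x₀ + 6 * x₀ ^ 2)) ^ 2 := by
  have h := hP.add_self_mul h2
  rw [S05_eval_Φ_two] at h
  have hΨ := S05_eval_Ψ₂Sq W x
  rw [S05_eval_Ψ₂Sq] at hx₀
  have hb := W.b_relation
  grind

end Fermat.Agent.S05
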