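import Mathlib
import Fermat.Agent.S51.TorsCommon

/-!
# S05: basic definitions (integral Weierstrass curves over a valuation ring, kernel of reduction)
-/

set_option autoImplicit false

namespace Fermat.Agent.S05

open WeierstrassCurve Fermat.Agent.S51

variable {K : Type*} [Field K]

lemma S05_ofNat_mem (A : ValuationSubring K) (n : ℕ) : (n : K) ∈ A := natCast_mem A n

lemma S05_two_mem (A : ValuationSubring K) : (2 : K) ∈ A := by
  exact_mod_cast natCast_mem A 2

lemma S05_four_mem (A : ValuationSubring K) : (4 : K) ∈ A := by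
  exact_mod_cast natCast_mem A 4

/-- All coefficients of `W` lie in the valuation ring `A`. -/
structure S05_Integral (W : WeierstrassCurve.Affine K) (A : ValuationSubring K) : Prop where
  a₁ : W.a₁ ∈ A
  a₂ : W.a₂ ∈ A
  a₃ : W.a₃ ∈ A
  a₄ : W.a₄ ∈ A
  a₆ : W.a₆ ∈ A

namespace S05_Integral

variable {W : WeierstrassCurve.Affine K} {A : ValuationSubring K}

lemma b₂ (h : S05_Integral W A) : W.b₂ ∈ A := by
  simp only [WeierstrassCurve.b₂]
  exact add_mem (pow_mem h.a₁ 2) (mul_mem (S05_four_mem A) h.a₂)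

lemma b₄ (h : S05_Integral W A) : W.b₄ ∈ A := by
  simp only [WeierstrassCurve.b₄]
  exact add_mem (mul_mem (S05_two_mem A) h.a₄) (mul_mem h.a₁ h.a₃)

lemma b₆ (h : S05_Integral W A) : W.b₆ ∈ A := by
  simp only [WeierstrassCurve.b₆]
  exact add_mem (pow_mem h.a₃ 2) (mul_mem (S05_four_mem A) h.a₆)

lemma b₈ (h : S05_Integral W A) : W.b₈ ∈ A := by
  simp only [WeierstrassCurve.b₈]
  refine sub_mem (add_mem (sub_mem (add_mem ?_ ?_) ?_) ?_) ?_
  · exact mul_mem (pow_mem h.a₁ 2) h.a₆
  · exact mul_mem (mul_mem (S05_four_mem A) h.a₂) h.a₆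
  · exact mul_mem (mul_mem h.a₁ h.a₃) h.a₄
  · exact mul_mem h.a₂ (pow_mem h.a₃ 2)
  · exact pow_mem h.a₄ 2

end S05_Integral

/-- `P` lies in the kernel of reduction: `P = 0` or the `X`-coordinate of `P` is not in `A`. -/
def S05_InE1 {W : WeierstrassCurve.Affine K} (A : ValuationSubring K) (P : W.Point) : Prop :=
  P = 0 ∨ ∃ x, S51_c_IsX P x ∧ x ∉ A

end Fermat.Agent.S05
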