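/-
S05 package P4 (helper12): the unit-derivative case.

Setting: `K` a field, `A` a valuation subring, `W` a Weierstrass curve over `K` with `a₁ a₂ a₃ ∈ A`.
If `P = (x, y)` and `P' = (x', y')` are integral points with `x' ≡ x`, `y' ≡ y` modulo the maximal
ideal, and `2y + a₁x + a₃` is a unit, then `P' = P` or `P' - P` is a point whose `X`-coordinate is
not in `A`.

* `S05_val_addX_gt_one`        : the valuation computation
* `S05_sub_isX_not_mem`        : the statement above
* `S05_inertia_mem`, `S05_inertia_sub_mem_nonunits` : what membership in the inertia group means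
* `S05_inertia_smul_eq_or`     : for `σ` in the inertia group at `A`, `σ • P = P` or
                                 `σ • P - P` has non-integral `X`-coordinate
* `S05_sub_isX_not_mem_of_val_lt` : general form (only `v (x' - x) < v (y' - negY x y)` needed)
* `S05_y_mem`                  : `x ∈ A ⇒ y ∈ A` on an integral model
* `S05_bezout_two`             : `U Φ₂ + V Ψ₂² = Δ`
* `S05_unit_of_double_integral`: halving trick (unit discriminant)
* `S05_good_case`              : inertia acts trivially on `E[p]` in the good reduction case,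
                                 assuming P3 (nonzero `p`-torsion points are integral)
-/
import Mathlib
import Fermat.Prelude.Def_FLTPrelim_Ramification
import Fermat.Agent.S51.TorsCommon

set_option autoImplicit false

open WeierstrassCurve Polynomial

namespace Fermat.Agent.S05

open Fermat.Agent.S51

section Val

variable {K : Type*} [Field K] {Γ : Type*} [LinearOrderedCommGroupWithZero Γ] (v : Valuation K Γ)

/-- If `v d < v N ≤ 1`-type domination holds (`v d < v N`, `d ≠ 0`) and everything else is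
integral, then the `X`-coordinate `λ² + a₁ λ - a₂ - x' - x` with `λ = N / d` has valuation `> 1`. -/
theorem S05_val_addX_gt_one' {a₁ a₂ x x' N d : K} (h1 : v a₁ ≤ 1) (h2 : v a₂ ≤ 1)
    (hx : v x ≤ 1) (hx' : v x' ≤ 1) (hNd : v d < v N) (hd0 : d ≠ 0) :
    1 < v ((N / d) ^ 2 + a₁ * (N / d) - a₂ - x' - x) := by
  have hvd0 : v d ≠ 0 := (Valuation.ne_zero_iff v).mpr hd0
  have hvd0' : 0 < v d := zero_lt_iff.mpr hvd0
  set l : K := N / d with hl
  have hvl : v l = v N / v d := by
    rw [hl, map_div₀]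
  have hl1 : 1 < v l := by
    rw [hvl]
    exact (lt_div_iff₀ hvd0').mpr (by rwa [one_mul])
  have hla : v (l + a₁) = v l := Valuation.map_add_eq_of_lt_left v (lt_of_le_of_lt h1 hl1)
  have hprod : v (l ^ 2 + a₁ * l) = v l * v l := by
    have : l ^ 2 + a₁ * l = l * (l + a₁) := by ring
    rw [this, map_mul, hla]
  have hll : 1 < v l * v l := one_lt_mul_of_lt_of_le hl1 hl1.le
  have hrest : v (a₂ + x' + x) ≤ 1 := Valuation.map_add_le v (Valuation.map_add_le v h2 hx') hx
  have heq : l ^ 2 + a₁ * l - a₂ - x' - x = (l ^ 2 + a₁ * l) - (a₂ + x' + x) := by ring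
  rw [heq, Valuation.map_sub_eq_of_lt_left v (by rw [hprod]; exact lt_of_le_of_lt hrest hll), hprod]
  exact hll

/-- If `v N = 1`, `0 < v d < 1` and everything else is integral, then the `X`-coordinate
`λ² + a₁ λ - a₂ - x' - x` with `λ = N / d` has valuation `> 1`. -/
theorem S05_val_addX_gt_one {a₁ a₂ x x' N d : K} (h1 : v a₁ ≤ 1) (h2 : v a₂ ≤ 1)
    (hx : v x ≤ 1) (hx' : v x' ≤ 1) (hN : v N = 1) (hd : v d < 1) (hd0 : d ≠ 0) :
    1 < v ((N / d) ^ 2 + a₁ * (N / d) - a₂ - x' - x) :=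
  S05_val_addX_gt_one' v h1 h2 hx hx' (by rw [hN]; exact hd) hd0

/-- Integrality of the `Y`-coordinate: if `y² + a₁xy + a₃y = x³ + a₂x² + a₄x + a₆` with
`a_i, x` integral then `y` is integral. -/
theorem S05_val_y_le_one {a₁ a₂ a₃ a₄ a₆ x y : K} (h1 : v a₁ ≤ 1) (h2 : v a₂ ≤ 1)
    (h3 : v a₃ ≤ 1) (h4 : v a₄ ≤ 1) (h6 : v a₆ ≤ 1) (hx : v x ≤ 1)
    (h : y ^ 2 + a₁ * x * y + a₃ * y = x ^ 3 + a₂ * x ^ 2 + a₄ * x + a₆) : v y ≤ 1 := by
  by_contra hy
  rw [not_le] at hy
  have hc : v (a₁ * x + a₃) ≤ 1 := by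
    refine Valuation.map_add_le v ?_ h3
    rw [map_mul]
    exact mul_le_one' h1 hx
  have hya : v (y + (a₁ * x + a₃)) = v y :=
    Valuation.map_add_eq_of_lt_left v (lt_of_le_of_lt hc hy)
  have hL : v (y ^ 2 + a₁ * x * y + a₃ * y) = v y * v y := by
    have : y ^ 2 + a₁ * x * y + a₃ * y = y * (y + (a₁ * x + a₃)) := by ring
    rw [this, map_mul, hya]
  have hR : v (x ^ 3 + a₂ * x ^ 2 + a₄ * x + a₆) ≤ 1 := by
    refine Valuation.map_add_le v (Valuation.map_add_le v (Valuation.map_add_le v ?_ ?_) ?_) h6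
    · rw [map_pow]
      exact pow_le_one' hx 3
    · rw [map_mul, map_pow]
      exact mul_le_one' h2 (pow_le_one' hx 2)
    · rw [map_mul]
      exact mul_le_one' h4 hx
  rw [h] at hL
  rw [hL] at hR
  exact absurd hR (not_le.mpr (one_lt_mul_of_lt_of_le hy hy.le))

end Val

section Core

variable {K : Type*} [Field K] [DecidableEq K] (A : ValuationSubring K)
  {W : WeierstrassCurve.Affine K}

/-- **P4, general form.** Two points with integral `X`-coordinates, `x' ≠ x`, such that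
`v (x' - x) < v (y' - negY x y)`, differ by a point with non-integral `X`-coordinate. -/
theorem S05_sub_isX_not_mem_of_val_lt (h1 : W.a₁ ∈ A) (h2 : W.a₂ ∈ A)
    {x y x' y' : K} (h : W.Nonsingular x y) (h' : W.Nonsingular x' y')
    (hx : x ∈ A) (hx' : x' ∈ A) (hxe : x' ≠ x)
    (hlt : A.valuation (x' - x) < A.valuation (y' - W.negY x y)) :
    ∃ x'', S51_c_IsX ((Affine.Point.some x' y' h' : W.Point) - Affine.Point.some x y h) x'' ∧
      x'' ∉ A := by
  have hneg : -(Affine.Point.some x y h : W.Point) =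
      Affine.Point.some x (W.negY x y) ((Affine.nonsingular_neg ..).mpr h) :=
    Affine.Point.neg_some h
  have hxy : ¬(x' = x ∧ y' = W.negY x (W.negY x y)) := fun hh => hxe hh.1
  rw [sub_eq_add_neg, hneg, Affine.Point.add_some hxy]
  refine ⟨_, ⟨_, _, rfl⟩, ?_⟩
  rw [Affine.slope_of_X_ne hxe]
  have key := S05_val_addX_gt_one' A.valuation ((A.valuation_le_one_iff _).mpr h1)
    ((A.valuation_le_one_iff _).mpr h2) ((A.valuation_le_one_iff _).mpr hx)
    ((A.valuation_le_one_iff _).mpr hx') hlt (sub_ne_zero.mpr hxe)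
  intro hmem
  have := (A.valuation_le_one_iff _).mpr hmem
  simp only [Affine.addX] at this
  exact absurd this (not_le.mpr key)

omit [DecidableEq K] in
/-- Integrality of the `Y`-coordinate of a point with integral `X`-coordinate. -/
theorem S05_y_mem (h1 : W.a₁ ∈ A) (h2 : W.a₂ ∈ A) (h3 : W.a₃ ∈ A) (h4 : W.a₄ ∈ A)
    (h6 : W.a₆ ∈ A) {x y : K} (h : W.Equation x y) (hx : x ∈ A) : y ∈ A := by
  rw [Affine.equation_iff] at h
  exact (A.valuation_le_one_iff _).mp (S05_val_y_le_one A.valuation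
    ((A.valuation_le_one_iff _).mpr h1) ((A.valuation_le_one_iff _).mpr h2)
    ((A.valuation_le_one_iff _).mpr h3) ((A.valuation_le_one_iff _).mpr h4)
    ((A.valuation_le_one_iff _).mpr h6) ((A.valuation_le_one_iff _).mpr hx) h)

/-- **P4, core.** Two integral points congruent modulo the maximal ideal, at a point where
`2y + a₁x + a₃` is a unit, are equal or differ by a point with non-integral `X`-coordinate. -/
theorem S05_sub_isX_not_mem (h1 : W.a₁ ∈ A) (h2 : W.a₂ ∈ A) (h3 : W.a₃ ∈ A)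
    {x y x' y' : K} (h : W.Nonsingular x y) (h' : W.Nonsingular x' y')
    (hx : x ∈ A) (hy : y ∈ A) (hx' : x' ∈ A)
    (hxx : x' - x ∈ A.nonunits) (hyy : y' - y ∈ A.nonunits)
    (hD : 2 * y + W.a₁ * x + W.a₃ ∉ A.nonunits) :
    (Affine.Point.some x' y' h' : W.Point) = Affine.Point.some x y h ∨
      ∃ x'', S51_c_IsX ((Affine.Point.some x' y' h' : W.Point) - Affine.Point.some x y h) x'' ∧
        x'' ∉ A := by
  have hDA : 2 * y + W.a₁ * x + W.a₃ ∈ A :=
    add_mem (add_mem (mul_mem (by exact_mod_cast natCast_mem A 2) hy) (mul_mem h1 hx)) h3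
  have hvD : A.valuation (2 * y + W.a₁ * x + W.a₃) = 1 := by
    have hle := (A.valuation_le_one_iff _).mpr hDA
    rw [A.mem_nonunits_iff, not_lt] at hD
    exact le_antisymm hle hD
  by_cases hxe : x' = x
  · subst hxe
    left
    rcases Affine.Y_eq_of_X_eq h'.1 h.1 rfl with hyy' | hyy'
    · subst hyy'
      rfl
    · exfalso
      apply hD
      have : 2 * y + W.a₁ * x' + W.a₃ = -(y' - y) := by
        rw [hyy']
        simp only [Affine.negY]
        ring
      rw [this]
      exact A.nonunits.neg_mem hyy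
  · right
    have hneg : -(Affine.Point.some x y h : W.Point) =
        Affine.Point.some x (W.negY x y) ((Affine.nonsingular_neg ..).mpr h) :=
      Affine.Point.neg_some h
    have hxy : ¬(x' = x ∧ y' = W.negY x (W.negY x y)) := fun hh => hxe hh.1
    rw [sub_eq_add_neg, hneg, Affine.Point.add_some hxy]
    refine ⟨_, ⟨_, _, rfl⟩, ?_⟩
    rw [Affine.slope_of_X_ne hxe]
    have hN : y' - W.negY x y = (2 * y + W.a₁ * x + W.a₃) + (y' - y) := by
      simp only [Affine.negY]
      ring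
    have hvN : A.valuation (y' - W.negY x y) = 1 := by
      rw [hN, Valuation.map_add_eq_of_lt_left]
      · exact hvD
      · rw [hvD]
        exact A.mem_nonunits_iff.mp hyy
    have key := S05_val_addX_gt_one A.valuation ((A.valuation_le_one_iff _).mpr h1)
      ((A.valuation_le_one_iff _).mpr h2) ((A.valuation_le_one_iff _).mpr hx)
      ((A.valuation_le_one_iff _).mpr hx') hvN (A.mem_nonunits_iff.mp hxx)
      (sub_ne_zero.mpr hxe)
    intro hmem
    have := (A.valuation_le_one_iff _).mpr hmem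
    simp only [Affine.addX] at this
    exact absurd this (not_le.mpr key)

/-- **Bézout identity** between `Φ₂` and `Ψ₂²`: `Δ` lies in the ideal they generate. -/
theorem S05_bezout_two {R : Type*} [CommRing R] (W : WeierstrassCurve R) (x : R) :
    (-48 * x ^ 2 - 8 * W.b₂ * x + W.b₂ ^ 2 - 32 * W.b₄) * (W.Φ 2).eval x +
      (12 * x ^ 3 - W.b₂ * x ^ 2 - 10 * W.b₄ * x + W.b₂ * W.b₄ - 27 * W.b₆) * W.Ψ₂Sq.eval x =
      W.Δ := by
  simp only [Φ_two, Ψ₂Sq, WeierstrassCurve.Δ, eval_sub, eval_add, eval_mul, eval_pow, eval_C,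
    eval_X]
  linear_combination (12 * x ^ 2 + 2 * W.b₂ * x + 8 * W.b₄) * W.b_relation

omit [DecidableEq K] in
theorem S05_b_mem (h1 : W.a₁ ∈ A) (h2 : W.a₂ ∈ A) (h3 : W.a₃ ∈ A) (h4 : W.a₄ ∈ A)
    (h6 : W.a₆ ∈ A) : W.b₂ ∈ A ∧ W.b₄ ∈ A ∧ W.b₆ ∈ A := by
  refine ⟨?_, ?_, ?_⟩
  · simp only [WeierstrassCurve.b₂]
    exact add_mem (pow_mem h1 2) (mul_mem (ofNat_mem A 4) h2)
  · simp only [WeierstrassCurve.b₄]
    exact add_mem (mul_mem (ofNat_mem A 2) h4) (mul_mem h1 h3)
  · simp only [WeierstrassCurve.b₆]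
    exact add_mem (pow_mem h3 2) (mul_mem (ofNat_mem A 4) h6)

/-- **Halving trick.** If the model is integral with unit discriminant, `P'` is an integral point
and `2P'` is a point with integral `X`-coordinate, then `2y' + a₁x' + a₃` is a unit. -/
theorem S05_unit_of_double_integral (h1 : W.a₁ ∈ A) (h2 : W.a₂ ∈ A) (h3 : W.a₃ ∈ A)
    (h4 : W.a₄ ∈ A) (h6 : W.a₆ ∈ A) (hΔ : W.Δ ∉ A.nonunits)
    {x y : K} (h : W.Nonsingular x y) (hx : x ∈ A) {x₂ : K}
    (hd : S51_c_IsX ((Affine.Point.some x y h : W.Point) + Affine.Point.some x y h) x₂)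
    (hx₂ : x₂ ∈ A) :
    2 * y + W.a₁ * x + W.a₃ ∉ A.nonunits := by
  intro hD
  apply hΔ
  obtain ⟨hb2, hb4, hb6⟩ := S05_b_mem A h1 h2 h3 h4 h6
  have hPsi : W.Ψ₂Sq.eval x = (2 * y + W.a₁ * x + W.a₃) ^ 2 := by
    rw [S51_c_eval_Ψ₂Sq_eq h.1]
    simp only [Affine.negY]
    ring
  have hPsiN : W.Ψ₂Sq.eval x ∈ A.nonunits := by
    rw [hPsi, pow_two]
    exact A.nonunits.mul_mem hD hD
  have hmul := S51_c_IsX.add_self_mul (P := Affine.Point.some x y h) ⟨y, h, rfl⟩ hd
  have hPhiN : (W.Φ 2).eval x ∈ A.nonunits := by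
    rw [← hmul, A.mem_nonunits_iff, map_mul]
    exact lt_of_le_of_lt (mul_le_of_le_one_left' ((A.valuation_le_one_iff _).mpr hx₂))
      (A.mem_nonunits_iff.mp hPsiN)
  have hU : -48 * x ^ 2 - 8 * W.b₂ * x + W.b₂ ^ 2 - 32 * W.b₄ ∈ A := by
    refine sub_mem (add_mem (sub_mem ?_ ?_) (pow_mem hb2 2)) (mul_mem (ofNat_mem A 32) hb4)
    · exact mul_mem (neg_mem (ofNat_mem A 48)) (pow_mem hx 2)
    · exact mul_mem (mul_mem (ofNat_mem A 8) hb2) hx
  have hV : 12 * x ^ 3 - W.b₂ * x ^ 2 - 10 * W.b₄ * x + W.b₂ * W.b₄ - 27 * W.b₆ ∈ A := by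
    refine sub_mem (add_mem (sub_mem (sub_mem ?_ ?_) ?_) (mul_mem hb2 hb4))
      (mul_mem (ofNat_mem A 27) hb6)
    · exact mul_mem (ofNat_mem A 12) (pow_mem hx 3)
    · exact mul_mem hb2 (pow_mem hx 2)
    · exact mul_mem (mul_mem (ofNat_mem A 10) hb4) hx
  have hmem : ∀ {u z : K}, u ∈ A → z ∈ A.nonunits → u * z ∈ A.nonunits := by
    intro u z hu hz
    rw [A.mem_nonunits_iff, map_mul]
    exact lt_of_le_of_lt (mul_le_of_le_one_left' ((A.valuation_le_one_iff _).mpr hu))
      (A.mem_nonunits_iff.mp hz)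
  rw [← S05_bezout_two W x]
  exact A.nonunits.add_mem (hmem hU hPhiN) (hmem hV hPsiN)

end Core

section Inertia

variable {S : Type*} {K : Type*} [Field S] [Field K] [Algebra S K] (A : ValuationSubring K)

/-- An element of the inertia group maps `A` into `A`. -/
theorem S05_inertia_mem {σ : K ≃ₐ[S] K} (hσ : σ ∈ A.inertiaSubgroupIn S) {x : K} (hx : x ∈ A) :
    σ x ∈ A := by
  obtain ⟨g, -, rfl⟩ := hσ
  exact (g • (⟨x, hx⟩ : A)).2

/-- An element of the inertia group acts trivially modulo the maximal ideal. -/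
theorem S05_inertia_sub_mem_nonunits {σ : K ≃ₐ[S] K} (hσ : σ ∈ A.inertiaSubgroupIn S) {x : K}
    (hx : x ∈ A) : σ x - x ∈ A.nonunits := by
  obtain ⟨g, hg, rfl⟩ := hσ
  have hg' : MulSemiringAction.toRingAut (A.decompositionSubgroup S)
      (IsLocalRing.ResidueField A) g = 1 := hg
  have h1 : g • (IsLocalRing.residue A ⟨x, hx⟩) = IsLocalRing.residue A ⟨x, hx⟩ := by
    have := congrArg (fun f => f (IsLocalRing.residue A ⟨x, hx⟩)) hg'
    simpa using this
  rw [← IsLocalRing.ResidueField.residue_smul] at h1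
  have h2 : IsLocalRing.residue A (g • (⟨x, hx⟩ : A) - ⟨x, hx⟩) = 0 := by
    rw [map_sub, h1, sub_self]
  rw [IsLocalRing.residue_eq_zero_iff] at h2
  have h3 := ValuationSubring.coe_mem_nonunits_iff.mpr h2
  exact h3

end Inertia

section Galois

open WeierstrassCurve.Affine WeierstrassCurve.Affine.Point

variable {R : Type*} {S : Type*} {K : Type*} [CommRing R] [Field S] [Field K]
  [DecidableEq K] {W' : WeierstrassCurve.Affine R} [Algebra R S] [Algebra R K] [Algebra S K]
  [IsScalarTower R S K] (A : ValuationSubring K)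

/-- **P4.** For `σ` in the inertia group at `A` and an integral point `P = (x, y)` with
`2y + a₁x + a₃` a unit: `σ • P = P`, or `σ • P - P` has non-integral `X`-coordinate. -/
theorem S05_inertia_smul_eq_or {σ : K ≃ₐ[S] K} (hσ : σ ∈ A.inertiaSubgroupIn S)
    (h1 : (W'⁄K).a₁ ∈ A) (h2 : (W'⁄K).a₂ ∈ A) (h3 : (W'⁄K).a₃ ∈ A)
    {x y : K} (h : (W'⁄K).Nonsingular x y) (hx : x ∈ A) (hy : y ∈ A)
    (hD : 2 * y + (W'⁄K).a₁ * x + (W'⁄K).a₃ ∉ A.nonunits) :
    σ • (Affine.Point.some x y h : (W'⁄K).Point) = Affine.Point.some x y h ∨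
      ∃ x'', S51_c_IsX (σ • (Affine.Point.some x y h : (W'⁄K).Point) - Affine.Point.some x y h) x''
        ∧ x'' ∉ A := by
  rw [S51_c_smul_some σ h]
  exact S05_sub_isX_not_mem A h1 h2 h3 h _ hx hy (S05_inertia_mem A hσ hx)
    (S05_inertia_sub_mem_nonunits A hσ hx) (S05_inertia_sub_mem_nonunits A hσ hy) hD

/-- **Good reduction case (modulo P3).** Suppose the model is integral at `A` with unit
discriminant, `p` is odd, and every nonzero `p`-torsion point has integral `X`-coordinate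
(this is package P3). Then the inertia group at `A` acts trivially on the `p`-torsion. -/
theorem S05_good_case {σ : K ≃ₐ[S] K} (hσ : σ ∈ A.inertiaSubgroupIn S)
    (h1 : (W'⁄K).a₁ ∈ A) (h2 : (W'⁄K).a₂ ∈ A) (h3 : (W'⁄K).a₃ ∈ A) (h4 : (W'⁄K).a₄ ∈ A)
    (h6 : (W'⁄K).a₆ ∈ A) (hΔ : (W'⁄K).Δ ∉ A.nonunits) {p : ℕ} (hp : Odd p)
    (hint : ∀ Q : (W'⁄K).Point, p • Q = 0 → ∀ x, S51_c_IsX Q x → x ∈ A)
    (P : (W'⁄K).Point) (hP : p • P = 0) : σ • P = P := by
  by_cases hP0 : P = 0
  · subst hP0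
    rfl
  obtain ⟨m, hm⟩ := hp
  -- `P' = (m + 1) • P` is a half of `P`
  set P' : (W'⁄K).Point := (m + 1) • P with hP'
  have hdouble : P' + P' = P := by
    rw [hP', ← add_nsmul]
    have : m + 1 + (m + 1) = p + 1 := by omega
    rw [this, add_nsmul, hP, zero_add, one_nsmul]
  have hpP' : p • P' = 0 := by
    rw [hP', smul_comm, hP, smul_zero]
  have hP'0 : P' ≠ 0 := by
    intro h0
    rw [h0, add_zero] at hdouble
    exact hP0 hdouble.symm
  obtain ⟨x', y', h', hx'⟩ := S51_c_exists_isX_of_ne_zero hP'0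
  have hx'A : x' ∈ A := hint P' hpP' x' ⟨y', h', hx'⟩
  have hy'A : y' ∈ A := S05_y_mem A h1 h2 h3 h4 h6 h'.1 hx'A
  obtain ⟨x, hxP⟩ := S51_c_exists_isX_of_ne_zero hP0
  have hxA : x ∈ A := hint P hP x hxP
  have hd : S51_c_IsX ((Affine.Point.some x' y' h' : (W'⁄K).Point) + Affine.Point.some x' y' h') x := by
    rw [← hx', hdouble]
    exact hxP
  have hD := S05_unit_of_double_integral A h1 h2 h3 h4 h6 hΔ h' hx'A hd hxA
  have hfix : σ • P' = P' := by
    rcases S05_inertia_smul_eq_or A hσ h1 h2 h3 h' hx'A hy'A hD with hfix | ⟨x'', hx'', hx''A⟩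
    · rw [hx']
      exact hfix
    · exfalso
      apply hx''A
      refine hint _ ?_ x'' hx''
      rw [← hx', smul_sub, ← S51_c_smul_nsmul, hpP']
      simp
  rw [← hdouble, S51_c_smul_add, hfix]

end Galois

end Fermat.Agent.S05
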