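/-
S05 package P6a (helper12): arithmetic of the Frey curve at a valuation ring over an odd prime `q`.

* `S05_intCast_mem`, `S05_intCast_not_mem_nonunits`, `S05_intCast_div_mem` : integers in `A`
* `S05_frey_Δ`, `S05_frey_c₄`, `S05_frey_b₂`, `S05_frey_b₄`, `S05_frey_b₆`, `S05_frey_b₈` : invariants (over `ℚ`)
* `S05_frey_integral`   : the Frey curve is integral at `A` (for `q` odd)
* `S05_frey_Δ_not_mem_nonunits` : `q ∤ abc`, `q` odd ⇒ `Δ` is a unit at `A`
* `S05_frey_good`       : good reduction case of S05, assuming P3 (integrality of `p`-torsion)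
-/
import Mathlib
import Fermat.Prelude.Def_FLTPrelim_FreyPackage
import Fermat.Prelude.Def_FLTPrelim_Ramification
import Fermat.Agent.S05.Defs
import Fermat.Agent.S05.UnitDeriv

set_option autoImplicit false
set_option linter.unusedSectionVars false

open WeierstrassCurve

namespace Fermat.Agent.S05

open Fermat.Agent.S51

section Ints

variable {K : Type*} [Field K] (A : ValuationSubring K)

theorem S05_intCast_mem (n : ℤ) : (n : K) ∈ A := intCast_mem A n

/-- An integer prime to `q` is a unit at a valuation ring over `q`. -/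
theorem S05_intCast_not_mem_nonunits {q : ℕ} (hq : q.Prime) (hA : (q : K) ∈ A.nonunits) {n : ℤ}
    (hn : ¬ (q : ℤ) ∣ n) : (n : K) ∉ A.nonunits := by
  intro hmem
  have hcop : IsCoprime n (q : ℤ) := by
    rw [isCoprime_comm]
    exact (Int.prime_iff_natAbs_prime.mpr (by simpa using hq)).coprime_iff_not_dvd.mpr hn
  obtain ⟨u, w, huw⟩ := hcop
  have h1 : (u : K) * (n : K) + (w : K) * (q : K) = 1 := by
    have := congrArg (fun z : ℤ => (z : K)) huw
    push_cast at this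
    exact this
  have hmul : ∀ {c z : K}, c ∈ A → z ∈ A.nonunits → c * z ∈ A.nonunits := by
    intro c z hc hz
    rw [A.mem_nonunits_iff, map_mul]
    exact lt_of_le_of_lt (mul_le_of_le_one_left' ((A.valuation_le_one_iff _).mpr hc))
      (A.mem_nonunits_iff.mp hz)
  have h2 : (1 : K) ∈ A.nonunits := by
    rw [← h1]
    exact A.nonunits.add_mem (hmul (S05_intCast_mem A u) hmem) (hmul (S05_intCast_mem A w) hA)
  rw [A.mem_nonunits_iff, map_one] at h2
  exact lt_irrefl _ h2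

theorem S05_valuation_intCast_eq_one {q : ℕ} (hq : q.Prime) (hA : (q : K) ∈ A.nonunits) {n : ℤ}
    (hn : ¬ (q : ℤ) ∣ n) : A.valuation (n : K) = 1 := by
  have h1 := (A.valuation_le_one_iff _).mpr (S05_intCast_mem A n)
  have h2 := S05_intCast_not_mem_nonunits A hq hA hn
  rw [A.mem_nonunits_iff, not_lt] at h2
  exact le_antisymm h1 h2

/-- A fraction of integers with denominator prime to `q` is integral at `A`. -/
theorem S05_intCast_div_mem {q : ℕ} (hq : q.Prime) (hA : (q : K) ∈ A.nonunits) (n : ℤ) {d : ℤ}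
    (hd : ¬ (q : ℤ) ∣ d) : (n : K) / (d : K) ∈ A := by
  rw [← A.valuation_le_one_iff, map_div₀, S05_valuation_intCast_eq_one A hq hA hd, div_one]
  exact (A.valuation_le_one_iff _).mpr (S05_intCast_mem A n)

/-- A valuation ring over an odd prime: `q ∤ 2 ^ k`. -/
theorem S05_not_dvd_two_pow {q : ℕ} (hq : q.Prime) (hq2 : q ≠ 2) (k : ℕ) :
    ¬ (q : ℤ) ∣ (2 : ℤ) ^ k := by
  intro h
  have h' : q ∣ 2 ^ k := by exact_mod_cast h
  have := (Nat.prime_dvd_prime_iff_eq hq Nat.prime_two).mp (hq.dvd_of_dvd_pow h')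
  exact hq2 this

end Ints

section Invariants

variable (P : FreyPackage)

theorem S05_frey_b₂ : P.freyCurve.b₂ = (P.b : ℚ) ^ P.p - (P.a : ℚ) ^ P.p := by
  simp only [WeierstrassCurve.b₂, FreyPackage.freyCurve]
  ring

theorem S05_frey_b₄ : P.freyCurve.b₄ = -((P.a : ℚ) ^ P.p * (P.b : ℚ) ^ P.p) / 8 := by
  simp only [WeierstrassCurve.b₄, FreyPackage.freyCurve]
  ring

theorem S05_frey_b₆ : P.freyCurve.b₆ = 0 := by
  simp only [WeierstrassCurve.b₆, FreyPackage.freyCurve]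
  ring

theorem S05_frey_b₈ : P.freyCurve.b₈ = -((P.a : ℚ) ^ P.p * (P.b : ℚ) ^ P.p) ^ 2 / 256 := by
  simp only [WeierstrassCurve.b₈, FreyPackage.freyCurve]
  ring

theorem S05_frey_hFLT : (P.a : ℚ) ^ P.p + (P.b : ℚ) ^ P.p = (P.c : ℚ) ^ P.p := by
  exact_mod_cast P.hFLT

theorem S05_frey_Δ : P.freyCurve.Δ = (((P.a * P.b * P.c : ℤ) : ℚ) ^ P.p) ^ 2 / 256 := by
  have h := S05_frey_hFLT P
  simp only [WeierstrassCurve.Δ, S05_frey_b₂, S05_frey_b₄, S05_frey_b₆, S05_frey_b₈]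
  push_cast
  rw [mul_pow, mul_pow, ← h]
  ring

theorem S05_frey_c₄ : P.freyCurve.c₄ =
    ((P.a : ℚ) ^ P.p) ^ 2 + (P.a : ℚ) ^ P.p * (P.b : ℚ) ^ P.p + ((P.b : ℚ) ^ P.p) ^ 2 := by
  simp only [WeierstrassCurve.c₄, S05_frey_b₂, S05_frey_b₄]
  ring

end Invariants

section BaseChange

variable {K : Type*} [Field K] [Algebra ℚ K] [CharZero K] (A : ValuationSubring K)
  (P : FreyPackage)

theorem S05_frey_a₁ : (P.freyCurve⁄K).a₁ = 1 := by
  simp [FreyPackage.freyCurve]

theorem S05_frey_a₃ : (P.freyCurve⁄K).a₃ = 0 := by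
  simp [FreyPackage.freyCurve]

theorem S05_frey_a₆ : (P.freyCurve⁄K).a₆ = 0 := by
  simp [FreyPackage.freyCurve]

theorem S05_frey_a₂ : (P.freyCurve⁄K).a₂ =
    ((P.b ^ P.p - 1 - P.a ^ P.p : ℤ) : K) / ((4 : ℤ) : K) := by
  simp [FreyPackage.freyCurve]

theorem S05_frey_a₄ : (P.freyCurve⁄K).a₄ =
    ((-(P.a ^ P.p) * (P.b ^ P.p) : ℤ) : K) / ((16 : ℤ) : K) := by
  simp [FreyPackage.freyCurve]

theorem S05_frey_Δ_map : (P.freyCurve⁄K).Δ =
    (((P.a * P.b * P.c) ^ (2 * P.p) : ℤ) : K) / ((256 : ℤ) : K) := by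
  rw [WeierstrassCurve.baseChange, WeierstrassCurve.map_Δ, S05_frey_Δ]
  simp
  ring

/-- The Frey curve is integral at a valuation ring over an odd prime. -/
theorem S05_frey_integral {q : ℕ} (hq : q.Prime) (hq2 : q ≠ 2) (hA : (q : K) ∈ A.nonunits) :
    S05_Integral (P.freyCurve⁄K) A where
  a₁ := by rw [S05_frey_a₁]; exact one_mem A
  a₂ := by
    rw [S05_frey_a₂]
    exact S05_intCast_div_mem A hq hA _ (by simpa using S05_not_dvd_two_pow hq hq2 2)
  a₃ := by rw [S05_frey_a₃]; exact zero_mem A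
  a₄ := by
    rw [S05_frey_a₄]
    exact S05_intCast_div_mem A hq hA _ (by simpa using S05_not_dvd_two_pow hq hq2 4)
  a₆ := by rw [S05_frey_a₆]; exact zero_mem A

/-- If `q` is odd and `q ∤ abc` then the discriminant of the Frey curve is a unit at `A`. -/
theorem S05_frey_Δ_not_mem_nonunits {q : ℕ} (hq : q.Prime) (hq2 : q ≠ 2)
    (hA : (q : K) ∈ A.nonunits) (habc : ¬ (q : ℤ) ∣ P.a * P.b * P.c) :
    (P.freyCurve⁄K).Δ ∉ A.nonunits := by
  rw [S05_frey_Δ_map, A.mem_nonunits_iff, not_lt, map_div₀]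
  have hqZ : Prime (q : ℤ) := Int.prime_iff_natAbs_prime.mpr (by simpa using hq)
  have h1 : A.valuation (((P.a * P.b * P.c) ^ (2 * P.p) : ℤ) : K) = 1 :=
    S05_valuation_intCast_eq_one A hq hA (fun h => habc (hqZ.dvd_of_dvd_pow h))
  have h2 : A.valuation (((256 : ℤ) : K)) = 1 :=
    S05_valuation_intCast_eq_one A hq hA (by simpa using S05_not_dvd_two_pow hq hq2 8)
  rw [h1, h2, div_one]

end BaseChange

section Good

open WeierstrassCurve.Affine WeierstrassCurve.Affine.Point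

variable (P : FreyPackage)

/-- **Good reduction case of S05, modulo P3.** -/
theorem S05_frey_good {q : ℕ} (hq : q.Prime) (hq2 : q ≠ 2)
    (A : ValuationSubring (AlgebraicClosure ℚ)) (hA : A.LiesOverPrime q)
    (habc : ¬ (q : ℤ) ∣ P.a * P.b * P.c)
    (hint : ∀ Q : (P.freyCurve⁄(AlgebraicClosure ℚ)).Point, P.p • Q = 0 →
      ∀ x, S51_c_IsX Q x → x ∈ A)
    {σ : AlgebraicClosure ℚ ≃ₐ[ℚ] AlgebraicClosure ℚ} (hσ : σ ∈ A.inertiaSubgroupIn ℚ)
    (x : Submodule.torsionBy ℤ (P.freyCurve⁄(AlgebraicClosure ℚ)).Point P.p) : σ • x = x := by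
  have hI := S05_frey_integral A P hq hq2 hA
  have hΔ := S05_frey_Δ_not_mem_nonunits A P hq hq2 hA habc
  apply Subtype.ext
  rw [S51_c_coe_smul_torsionBy]
  have hx : P.p • (x : (P.freyCurve⁄(AlgebraicClosure ℚ)).Point) = 0 := by
    have := x.2
    rw [Submodule.mem_torsionBy_iff] at this
    exact_mod_cast this
  exact S05_good_case A hσ hI.a₁ hI.a₂ hI.a₃ hI.a₄ hI.a₆ hΔ P.hp_odd hint _ hx

end Good

end Fermat.Agent.S05
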