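import Mathlib
import Fermat.Prelude.Def_FLTPrelim_Ramification
import Fermat.Agent.S05.Defs
import Fermat.Agent.S05.UnitDeriv
import Fermat.Agent.S05.Frey

/-!
# S05 interface: inertia, Galois action on points, Frey curve data

This file unfolds the Prelude/Mathlib definitions used in statement S05 into elementary facts.
-/

set_option autoImplicit false

namespace Fermat.Agent.S05

open WeierstrassCurve WeierstrassCurve.Affine WeierstrassCurve.Affine.Point
open scoped Pointwise

section inertia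

variable {K L : Type*} [Field K] [Field L] [Algebra K L]

/-- Elements of the decomposition group stabilise the valuation subring. -/
theorem S05_mem_of_mem_decomposition (A : ValuationSubring L) (σ : L ≃ₐ[K] L)
    (hσ : σ ∈ A.decompositionSubgroup K) {x : L} (hx : x ∈ A) : σ x ∈ A := by
  have h : σ • A = A := hσ
  rw [← h]
  exact ⟨x, hx, rfl⟩

/-- Elements of the decomposition group stabilise the valuation subring (iff version). -/
theorem S05_mem_iff_of_mem_decomposition (A : ValuationSubring L) (σ : L ≃ₐ[K] L)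
    (hσ : σ ∈ A.decompositionSubgroup K) (x : L) : σ x ∈ A ↔ x ∈ A := by
  constructor
  · intro hx
    have h' : σ⁻¹ ∈ A.decompositionSubgroup K := inv_mem hσ
    have := S05_mem_of_mem_decomposition A σ⁻¹ h' hx
    simpa using this
  · exact S05_mem_of_mem_decomposition A σ hσ

/-- Elements of the inertia group lie in the decomposition group. -/
theorem S05_inertia_le_decomposition (A : ValuationSubring L) (σ : L ≃ₐ[K] L)
    (hσ : σ ∈ A.inertiaSubgroupIn K) : σ ∈ A.decompositionSubgroup K := by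
  obtain ⟨τ, -, rfl⟩ := hσ
  exact τ.2

end inertia


section points

variable {R : Type*} {S : Type*} {K : Type*} [CommRing R] [CommRing S] [Field K]
  [DecidableEq K] {W' : Affine R} [Algebra R S] [Algebra R K] [Algebra S K]
  [IsScalarTower R S K]

/-- The Galois action on an affine point is coordinatewise. -/
theorem S05_smul_some (σ : K ≃ₐ[S] K) {x y : K} (h : (W'⁄K).Nonsingular x y) :
    σ • (Point.some x y h : (W'⁄K).Point) =
      Point.some (σ x) (σ y) ((W'.baseChange_nonsingular σ.toAlgHom.injective ..).mpr h) :=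
  rfl

/-- The Galois action fixes the point at infinity. -/
theorem S05_smul_zero (σ : K ≃ₐ[S] K) : σ • (0 : (W'⁄K).Point) = 0 :=
  rfl

/-- The Galois action commutes with negation. -/
theorem S05_smul_neg (σ : K ≃ₐ[S] K) (P : (W'⁄K).Point) : σ • (-P) = -(σ • P) :=
  (Point.map σ.toAlgHom).map_neg P

/-- The Galois action commutes with subtraction. -/
theorem S05_smul_sub (σ : K ≃ₐ[S] K) (P Q : (W'⁄K).Point) : σ • (P - Q) = σ • P - σ • Q :=
  (Point.map σ.toAlgHom).map_sub P Q

/-- The Galois action commutes with multiplication by a natural number. -/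
theorem S05_smul_nsmul (σ : K ≃ₐ[S] K) (n : ℕ) (P : (W'⁄K).Point) : σ • (n • P) = n • (σ • P) :=
  (Point.map σ.toAlgHom).map_nsmul n P

/-- Membership in the `n`-torsion, in terms of `ℕ`-multiplication. -/
theorem S05_mem_torsionBy_iff (n : ℕ) (P : (W'⁄K).Point) :
    P ∈ Submodule.torsionBy ℤ (W'⁄K).Point n ↔ n • P = 0 := by
  rw [Submodule.mem_torsionBy_iff, Nat.cast_smul_eq_nsmul]

end points


section integers

variable {K : Type*} [Field K] (A : ValuationSubring K)

/-- Natural numbers lie in every valuation subring. -/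
theorem S05_natCast_mem (n : ℕ) : (n : K) ∈ A := natCast_mem A n

/-- The maximal ideal is closed under addition. -/
theorem S05_add_mem_nonunits {x y : K} (hx : x ∈ A.nonunits) (hy : y ∈ A.nonunits) :
    x + y ∈ A.nonunits := by
  rw [ValuationSubring.mem_nonunits_iff] at *
  exact lt_of_le_of_lt (Valuation.map_add _ x y) (max_lt hx hy)

/-- The maximal ideal is closed under subtraction. -/
theorem S05_sub_mem_nonunits {x y : K} (hx : x ∈ A.nonunits) (hy : y ∈ A.nonunits) :
    x - y ∈ A.nonunits := by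
  rw [ValuationSubring.mem_nonunits_iff] at *
  exact lt_of_le_of_lt (Valuation.map_sub _ x y) (max_lt hx hy)

/-- The maximal ideal is an ideal. -/
theorem S05_mul_mem_nonunits {x y : K} (hx : x ∈ A) (hy : y ∈ A.nonunits) :
    x * y ∈ A.nonunits := by
  rw [ValuationSubring.mem_nonunits_iff] at *
  rw [map_mul]
  exact mul_lt_one_of_nonneg_of_lt_one_right ((A.valuation_le_one_iff x).mpr hx) zero_le hy

/-- The maximal ideal is an ideal. -/
theorem S05_mul_mem_nonunits' {x y : K} (hx : x ∈ A.nonunits) (hy : y ∈ A) :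
    x * y ∈ A.nonunits := by
  rw [mul_comm]
  exact S05_mul_mem_nonunits A hy hx

theorem S05_one_notMem_nonunits : (1 : K) ∉ A.nonunits := by
  rw [ValuationSubring.mem_nonunits_iff, map_one]
  exact lt_irrefl _

/-- An element of `A` outside the maximal ideal has valuation `1`. -/
theorem S05_valuation_eq_one {x : K} (hx : x ∈ A) (hx' : x ∉ A.nonunits) :
    A.valuation x = 1 := by
  rw [ValuationSubring.mem_nonunits_iff, not_lt] at hx'
  exact le_antisymm ((A.valuation_le_one_iff x).mpr hx) hx'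

variable {A} {q : ℕ}

/-- An integer lies in the maximal ideal of a valuation ring over `q` iff `q` divides it. -/
theorem S05_intCast_mem_nonunits_iff (hq : q.Prime) (hA : (q : K) ∈ A.nonunits) (n : ℤ) :
    (n : K) ∈ A.nonunits ↔ (q : ℤ) ∣ n := by
  constructor
  · intro hn
    by_contra hdvd
    have hcop : IsCoprime n (q : ℤ) :=
      (((Int.prime_iff_natAbs_prime.mpr (by simpa using hq)).coprime_iff_not_dvd).mpr hdvd).symm
    obtain ⟨u, v, huv⟩ := hcop
    have h1 : ((u * n + v * q : ℤ) : K) = 1 := by rw [huv]; simp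
    have h2 : ((u * n + v * q : ℤ) : K) ∈ A.nonunits := by
      push_cast
      exact S05_add_mem_nonunits A (S05_mul_mem_nonunits A (S05_intCast_mem A u) hn)
        (S05_mul_mem_nonunits A (S05_intCast_mem A v) hA)
    rw [h1] at h2
    exact S05_one_notMem_nonunits A h2
  · rintro ⟨m, rfl⟩
    push_cast
    exact S05_mul_mem_nonunits' A hA (S05_intCast_mem A m)

/-- A natural number prime to `q` is a unit of a valuation ring over `q`. -/
theorem S05_valuation_natCast_eq_one (hq : q.Prime) (hA : (q : K) ∈ A.nonunits) {n : ℕ}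
    (hn : ¬ q ∣ n) : A.valuation (n : K) = 1 := by
  have := S05_valuation_intCast_eq_one A hq hA (n := (n : ℤ))
    (by rwa [Int.natCast_dvd_natCast])
  simpa using this

/-- `2` is a unit of a valuation ring over an odd prime. -/
theorem S05_valuation_two (hq : q.Prime) (hq2 : q ≠ 2) (hA : (q : K) ∈ A.nonunits) :
    A.valuation (2 : K) = 1 := by
  have := S05_valuation_natCast_eq_one (K := K) hq hA (n := 2)
    (fun h => hq2 ((Nat.prime_dvd_prime_iff_eq hq Nat.prime_two).mp h))
  simpa using this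

/-- A prime `p ≠ q` is a unit of a valuation ring over `q`. -/
theorem S05_valuation_prime (hq : q.Prime) (hA : (q : K) ∈ A.nonunits) {p : ℕ} (hp : p.Prime)
    (hqp : q ≠ p) : A.valuation (p : K) = 1 :=
  S05_valuation_natCast_eq_one hq hA (fun h => hqp ((Nat.prime_dvd_prime_iff_eq hq hp).mp h))

end integers


section frey

local notation "ℚbar" => AlgebraicClosure ℚ

/-- **Reduction of S05 to a statement about points**: it suffices to show that an automorphism
stabilising `A` and acting trivially on its residue field fixes every `p`-torsion point. -/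
theorem S05_unramified_of_core (P : FreyPackage) (q : ℕ)
    (core : ∀ (A : ValuationSubring ℚbar), (q : ℚbar) ∈ A.nonunits →
      ∀ σ : ℚbar ≃ₐ[ℚ] ℚbar, (∀ x, σ x ∈ A ↔ x ∈ A) → (∀ x ∈ A, σ x - x ∈ A.nonunits) →
        ∀ Q : (P.freyCurve⁄ℚbar).Point, P.p • Q = 0 → σ • Q = Q) :
    P.GaloisRepUnramifiedAt q := by
  intro A hA σ hσ x
  apply Subtype.ext
  show σ • x.1 = x.1
  exact core A hA σ (S05_mem_iff_of_mem_decomposition A σ (S05_inertia_le_decomposition A σ hσ))
    (fun y hy => S05_inertia_sub_mem_nonunits A hσ hy) x.1 ((S05_mem_torsionBy_iff _ _).mp x.2)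

variable (P : FreyPackage)

theorem S05_freyQbar_a₂ : (P.freyCurve⁄ℚbar).a₂ =
    ((P.b : ℚbar) ^ P.p - 1 - (P.a : ℚbar) ^ P.p) / 4 := by
  simp [FreyPackage.freyCurve, WeierstrassCurve.baseChange]

theorem S05_freyQbar_a₄ : (P.freyCurve⁄ℚbar).a₄ =
    -((P.a : ℚbar) ^ P.p * (P.b : ℚbar) ^ P.p) / 16 := by
  simp [FreyPackage.freyCurve, WeierstrassCurve.baseChange]

/-- The Fermat equation in `ℚbar`. -/
theorem S05_frey_eq : (P.a : ℚbar) ^ P.p + (P.b : ℚbar) ^ P.p = (P.c : ℚbar) ^ P.p := by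
  exact_mod_cast congrArg (fun n : ℤ => (n : ℚbar)) P.hFLT

theorem S05_freyQbar_b₂ : (P.freyCurve⁄ℚbar).b₂ = (P.b : ℚbar) ^ P.p - (P.a : ℚbar) ^ P.p := by
  rw [WeierstrassCurve.b₂, S05_frey_a₁, S05_freyQbar_a₂]
  ring

theorem S05_freyQbar_b₄ : (P.freyCurve⁄ℚbar).b₄ =
    -((P.a : ℚbar) ^ P.p * (P.b : ℚbar) ^ P.p) / 8 := by
  rw [WeierstrassCurve.b₄, S05_frey_a₁, S05_frey_a₃, S05_freyQbar_a₄]
  ring

theorem S05_freyQbar_b₆ : (P.freyCurve⁄ℚbar).b₆ = 0 := by
  rw [WeierstrassCurve.b₆, S05_frey_a₃, S05_frey_a₆]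
  ring

theorem S05_freyQbar_b₈ : (P.freyCurve⁄ℚbar).b₈ =
    -((P.a : ℚbar) ^ P.p * (P.b : ℚbar) ^ P.p) ^ 2 / 256 := by
  rw [WeierstrassCurve.b₈, S05_frey_a₁, S05_frey_a₃, S05_frey_a₆, S05_freyQbar_a₄]
  ring

theorem S05_freyQbar_c₄ : (P.freyCurve⁄ℚbar).c₄ =
    ((P.a : ℚbar) ^ P.p) ^ 2 + (P.a : ℚbar) ^ P.p * (P.b : ℚbar) ^ P.p +
      ((P.b : ℚbar) ^ P.p) ^ 2 := by
  rw [WeierstrassCurve.c₄, S05_freyQbar_b₂, S05_freyQbar_b₄]
  ring

theorem S05_freyQbar_Δ : (P.freyCurve⁄ℚbar).Δ =
    ((P.a : ℚbar) ^ P.p * (P.b : ℚbar) ^ P.p * (P.c : ℚbar) ^ P.p) ^ 2 / 256 := by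
  rw [WeierstrassCurve.Δ, S05_freyQbar_b₂, S05_freyQbar_b₄, S05_freyQbar_b₆, S05_freyQbar_b₈, ← S05_frey_eq]
  ring

variable {P} {q : ℕ} {A : ValuationSubring ℚbar}

/-- At most one of `a`, `b` lies in the maximal ideal. -/
theorem S05_frey_not_both_ab (hq : q.Prime) (hA : (q : ℚbar) ∈ A.nonunits)
    (ha : (P.a : ℚbar) ∈ A.nonunits) : (P.b : ℚbar) ∉ A.nonunits := by
  intro hb
  rw [S05_intCast_mem_nonunits_iff hq hA] at ha hb
  have h1 : (q : ℤ) ∣ gcd P.a P.b := dvd_gcd ha hb
  rw [P.hgcdab] at h1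
  exact hq.one_lt.ne' (by exact_mod_cast Int.eq_one_of_dvd_one (by positivity) h1)

/-- At most one of `a`, `c` lies in the maximal ideal. -/
theorem S05_frey_not_both_ac (hq : q.Prime) (hA : (q : ℚbar) ∈ A.nonunits)
    (ha : (P.a : ℚbar) ∈ A.nonunits) : (P.c : ℚbar) ∉ A.nonunits := by
  intro hc
  rw [S05_intCast_mem_nonunits_iff hq hA] at ha hc
  have h1 : (q : ℤ) ∣ gcd P.a P.c := dvd_gcd ha hc
  rw [P.hgcdac] at h1
  exact hq.one_lt.ne' (by exact_mod_cast Int.eq_one_of_dvd_one (by positivity) h1)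

/-- At most one of `b`, `c` lies in the maximal ideal. -/
theorem S05_frey_not_both_bc (hq : q.Prime) (hA : (q : ℚbar) ∈ A.nonunits)
    (hb : (P.b : ℚbar) ∈ A.nonunits) : (P.c : ℚbar) ∉ A.nonunits := by
  intro hc
  rw [S05_intCast_mem_nonunits_iff hq hA] at hb hc
  have h1 : (q : ℤ) ∣ gcd P.b P.c := dvd_gcd hb hc
  rw [P.hgcdbc] at h1
  exact hq.one_lt.ne' (by exact_mod_cast Int.eq_one_of_dvd_one (by positivity) h1)

/-- An element of valuation `1` has its inverse in `A`. -/
theorem S05_inv_mem_of_valuation_eq_one {x : ℚbar} (hx : A.valuation x = 1) : x⁻¹ ∈ A := by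
  rw [← ValuationSubring.valuation_le_one_iff, map_inv₀, hx, inv_one]

/-- The Frey curve has coefficients in every valuation ring over an odd prime. -/
theorem S05_freyQbar_integral (hq : q.Prime) (hq2 : q ≠ 2) (hA : (q : ℚbar) ∈ A.nonunits) :
    S05_Integral (P.freyCurve⁄ℚbar) A := by
  have h2 : ¬ q ∣ 2 := fun h => hq2 ((Nat.prime_dvd_prime_iff_eq hq Nat.prime_two).mp h)
  have h4 : A.valuation ((4 : ℕ) : ℚbar) = 1 :=
    S05_valuation_natCast_eq_one hq hA (fun h => h2 (hq.dvd_of_dvd_pow (n := 2) (by simpa using h)))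
  have h16 : A.valuation ((16 : ℕ) : ℚbar) = 1 :=
    S05_valuation_natCast_eq_one hq hA (fun h => h2 (hq.dvd_of_dvd_pow (n := 4) (by simpa using h)))
  have h4' : ((4 : ℚbar))⁻¹ ∈ A := by
    have := S05_inv_mem_of_valuation_eq_one h4
    simpa using this
  have h16' : ((16 : ℚbar))⁻¹ ∈ A := by
    have := S05_inv_mem_of_valuation_eq_one h16
    simpa using this
  have ha : (P.a : ℚbar) ^ P.p ∈ A := pow_mem (S05_intCast_mem A P.a) _
  have hb : (P.b : ℚbar) ^ P.p ∈ A := pow_mem (S05_intCast_mem A P.b) _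
  refine ⟨?_, ?_, ?_, ?_, ?_⟩
  · rw [S05_frey_a₁]; exact one_mem A
  · rw [S05_freyQbar_a₂, div_eq_mul_inv]
    exact mul_mem (sub_mem (sub_mem hb (one_mem A)) ha) h4'
  · rw [S05_frey_a₃]; exact zero_mem A
  · rw [S05_freyQbar_a₄, div_eq_mul_inv]
    exact mul_mem (neg_mem (mul_mem ha hb)) h16'
  · rw [S05_frey_a₆]; exact zero_mem A

theorem S05_frey_a_ne_zero : (P.a : ℚbar) ≠ 0 := by exact_mod_cast P.ha0

theorem S05_frey_b_ne_zero : (P.b : ℚbar) ≠ 0 := by exact_mod_cast P.hb0

theorem S05_frey_c_ne_zero : (P.c : ℚbar) ≠ 0 := by exact_mod_cast P.hc0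

end frey

end Fermat.Agent.S05
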