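import Mathlib
import Fermat.Agent.S51.TorsCommon
import Fermat.Agent.S05.Defs
import Fermat.Agent.S05.Identities
import Fermat.Agent.S05.UnitDeriv

/-!
# S05, package P3: the kernel of reduction has no torsion prime to the residue characteristic

`W` an integral Weierstrass curve over a valuation ring `A ⊂ K` in which `2` is a unit.
If `P` is a point with `x(P) ∉ A` and `t = x(P)⁻¹`, then for every `j` the point `j • P` is `0` or
has `x(j • P)⁻¹ = c_j * t` with `c_j ∈ A`, and `c_j ≡ j² mod 𝔪` (with `c_j = 0` if `j • P = 0`).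
Only the product identity and the duplication formula are used.
-/

set_option autoImplicit false
set_option linter.unusedSectionVars false
set_option linter.unusedVariables false

namespace Fermat.Agent.S05

open WeierstrassCurve Fermat.Agent.S51

variable {K : Type*} [Field K] [DecidableEq K] {W : WeierstrassCurve.Affine K}
  (A : ValuationSubring K)

local notation "v" => ValuationSubring.valuation A

/-! ### small valuation lemmas -/

lemma S05_v_mul_lt_of_le_of_lt {a b : K} (ha : v a ≤ 1) (hb : v b < 1) : v (a * b) < 1 := by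
  rw [map_mul]
  calc v a * v b ≤ 1 * v b := mul_le_mul_left ha _
    _ = v b := one_mul _
    _ < 1 := hb

lemma S05_v_mul_lt_of_lt_of_le {a b : K} (ha : v a < 1) (hb : v b ≤ 1) : v (a * b) < 1 := by
  rw [mul_comm]; exact S05_v_mul_lt_of_le_of_lt A hb ha

lemma S05_v_mul_le {a b : K} (ha : v a ≤ 1) (hb : v b ≤ 1) : v (a * b) ≤ 1 := by
  rw [map_mul]; exact mul_le_one' ha hb

lemma S05_v_add_lt {a b : K} (ha : v a < 1) (hb : v b < 1) : v (a + b) < 1 :=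
  Valuation.map_add_lt _ ha hb

lemma S05_v_sub_lt {a b : K} (ha : v a < 1) (hb : v b < 1) : v (a - b) < 1 :=
  Valuation.map_sub_lt _ ha hb

lemma S05_v_add_le {a b : K} (ha : v a ≤ 1) (hb : v b ≤ 1) : v (a + b) ≤ 1 :=
  Valuation.map_add_le _ ha hb

lemma S05_v_sub_le {a b : K} (ha : v a ≤ 1) (hb : v b ≤ 1) : v (a - b) ≤ 1 :=
  Valuation.map_sub_le _ ha hb

lemma S05_v_pow_le {a : K} (ha : v a ≤ 1) (n : ℕ) : v (a ^ n) ≤ 1 := by
  rw [map_pow]; exact pow_le_one' ha n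

lemma S05_v_pow_lt {a : K} (ha : v a < 1) {n : ℕ} (hn : n ≠ 0) : v (a ^ n) < 1 := by
  rw [map_pow]; exact pow_lt_one' ha hn

/-- `a ≡ b mod 𝔪` and `v b = 1` imply `v a = 1`. -/
lemma S05_v_eq_one_of_sub_lt {a b : K} (h : v (a - b) < 1) (hb : v b = 1) : v a = 1 := by
  have : a = b + (a - b) := by ring
  rw [this, Valuation.map_add_eq_of_lt_left _ (by rw [hb]; exact h), hb]

lemma S05_v_natCast_le (n : ℕ) : v (n : K) ≤ 1 :=
  (A.valuation_le_one_iff _).2 (natCast_mem A n)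


/-! ### the relative parameter -/

/-- `c` is the parameter of `Q` relative to `t`: `c ∈ A`, and either `Q = 0` and `c = 0`, or
`x(Q) * (c * t) = 1`. -/
def S05_Par (t : K) (Q : W.Point) (c : K) : Prop :=
  v c ≤ 1 ∧ ((Q = 0 ∧ c = 0) ∨ ∃ xq, S51_c_IsX Q xq ∧ xq * (c * t) = 1)

variable {A}

lemma S05_Par.zero (t : K) : S05_Par A t (0 : W.Point) 0 :=
  ⟨by simp, Or.inl ⟨rfl, rfl⟩⟩

lemma S05_Par.self {P : W.Point} {x : K} (hP : S51_c_IsX P x) (hx : x ≠ 0) :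
    S05_Par A x⁻¹ P 1 :=
  ⟨by simp, Or.inr ⟨x, hP, by field_simp⟩⟩

lemma S05_Par.neg {t : K} {Q : W.Point} {c : K} (h : S05_Par A t Q c) : S05_Par A t (-Q) c := by
  obtain ⟨hc, h | ⟨xq, hq, he⟩⟩ := h
  · exact ⟨hc, Or.inl ⟨by rw [h.1, neg_zero], h.2⟩⟩
  · exact ⟨hc, Or.inr ⟨xq, hq.neg, he⟩⟩

lemma S05_Par.unique {t : K} {Q : W.Point} {c c' : K} (h : S05_Par A t Q c)
    (h' : S05_Par A t Q c') : c = c' := by
  obtain ⟨-, h | ⟨xq, hq, he⟩⟩ := h <;> obtain ⟨-, h' | ⟨xq', hq', he'⟩⟩ := h'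
  · rw [h.2, h'.2]
  · exact absurd h.1 hq'.ne_zero
  · exact absurd h'.1 hq.ne_zero
  · have hx := hq.unique hq'
    subst hx
    have hxq : xq ≠ 0 := by rintro rfl; simp at he
    have ht : t ≠ 0 := by rintro rfl; simp at he
    have : xq * (c * t) = xq * (c' * t) := by rw [he, he']
    have := mul_left_cancel₀ hxq this
    exact mul_right_cancel₀ ht this

lemma S05_Par.eq_zero_iff {t : K} {Q : W.Point} {c : K} (h : S05_Par A t Q c) :
    Q = 0 ↔ c = 0 := by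
  obtain ⟨-, h | ⟨xq, hq, he⟩⟩ := h
  · simp [h.1, h.2]
  · constructor
    · intro h0; exact absurd h0 hq.ne_zero
    · rintro rfl; simp at he

/-- the key step: from parameters of `Q₁`, `Q₂`, `Q₁ - Q₂` (the last one a unit) to `Q₁ + Q₂`. -/
lemma S05_Par.step (hW : S05_Integral W A) {t : K} (ht : v t < 1) {Q₁ Q₂ : W.Point}
    {c₁ c₂ cd : K} (h₁ : S05_Par A t Q₁ c₁) (h₂ : S05_Par A t Q₂ c₂)
    (hd : S05_Par A t (Q₁ - Q₂) cd) (hcd : v cd = 1) :
    ∃ cs, S05_Par A t (Q₁ + Q₂) cs ∧ v (cs * cd - (c₁ - c₂) ^ 2) < 1 := by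
  have hcd0 : cd ≠ 0 := by rintro rfl; simp at hcd
  have hD0 : Q₁ - Q₂ ≠ 0 := fun h => hcd0 (hd.eq_zero_iff.1 h)
  obtain ⟨hc₁, h₁' | ⟨x₁, hq₁, he₁⟩⟩ := h₁
  · -- `Q₁ = 0`
    obtain ⟨rfl, rfl⟩ := h₁'
    rw [zero_sub] at hd
    have hd' : S05_Par A t Q₂ cd := by simpa using hd.neg
    have := hd'.unique h₂
    subst this
    refine ⟨cd, by simpa using h₂, ?_⟩
    have : cd * cd - (0 - cd) ^ 2 = 0 := by ring
    rw [this]; simp
  obtain ⟨hc₂, h₂' | ⟨x₂, hq₂, he₂⟩⟩ := h₂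
  · -- `Q₂ = 0`
    obtain ⟨rfl, rfl⟩ := h₂'
    rw [sub_zero] at hd
    have := hd.unique ⟨hc₁, Or.inr ⟨x₁, hq₁, he₁⟩⟩
    subst this
    refine ⟨cd, by simpa using hd, ?_⟩
    have : cd * cd - (cd - 0) ^ 2 = 0 := by ring
    rw [this]; simp
  by_cases hne : x₁ = x₂
  · -- `Q₁ = ± Q₂`
    subst hne
    have hcc : c₁ = c₂ :=
      S05_Par.unique (A := A) ⟨hc₁, Or.inr ⟨x₁, hq₁, he₁⟩⟩
        ⟨hc₂, Or.inr ⟨x₁, (S51_c_isX_of_eq_or_eq_neg hq₂ (hq₁.eq_or_eq_neg hq₂)), he₂⟩⟩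
    rcases hq₁.eq_or_eq_neg hq₂ with h | h
    · exact absurd (by rw [h, sub_self]) hD0
    · refine ⟨0, ⟨by simp, Or.inl ⟨by rw [h, neg_add_cancel], rfl⟩⟩, ?_⟩
      rw [hcc]; simp
  · obtain ⟨xs, xd, hs, hdd⟩ := S05_exists_isX_add_sub hq₁ hq₂ hne
    have hPi := S05_mul_identity hq₁ hq₂ hne hs hdd
    obtain ⟨-, hd' | ⟨xd', hqd, hed⟩⟩ := hd
    · exact absurd hd'.1 hD0
    have := hdd.unique hqd
    subst this
    have ht0 : t ≠ 0 := by rintro rfl; simp at he₁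
    -- the small quantity
    set ε : K := W.b₄ * c₁ * c₂ * t ^ 2 + W.b₆ * c₁ * c₂ * (c₁ + c₂) * t ^ 3 +
      W.b₈ * c₁ ^ 2 * c₂ ^ 2 * t ^ 4 with hε
    have hb₄ := (A.valuation_le_one_iff _).2 hW.b₄
    have hb₆ := (A.valuation_le_one_iff _).2 hW.b₆
    have hb₈ := (A.valuation_le_one_iff _).2 hW.b₈
    have hεlt : v ε < 1 := by
      refine S05_v_add_lt A (S05_v_add_lt A ?_ ?_) ?_
      · exact S05_v_mul_lt_of_le_of_lt A (S05_v_mul_le A (S05_v_mul_le A hb₄ hc₁) hc₂)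
          (S05_v_pow_lt A ht (by norm_num))
      · exact S05_v_mul_lt_of_le_of_lt A
          (S05_v_mul_le A (S05_v_mul_le A (S05_v_mul_le A hb₆ hc₁) hc₂) (S05_v_add_le A hc₁ hc₂))
          (S05_v_pow_lt A ht (by norm_num))
      · exact S05_v_mul_lt_of_le_of_lt A
          (S05_v_mul_le A (S05_v_mul_le A hb₈ (S05_v_pow_le A hc₁ 2)) (S05_v_pow_le A hc₂ 2))
          (S05_v_pow_lt A ht (by norm_num))
    have hu : v (1 - ε) = 1 := Valuation.map_one_sub_of_lt _ hεlt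
    have hu0 : 1 - ε ≠ 0 := by intro h; rw [h] at hu; simp at hu
    -- the key equation
    have hE : xs * (c₁ - c₂) ^ 2 * t = cd * (1 - ε) := by
      have e1 : xs * xd * ((c₁ - c₂) ^ 2 * t ^ 2) = 1 - ε := by
        have h1 : (x₁ - x₂) * (c₁ * c₂ * t ^ 2) = (c₂ - c₁) * t := by
          have : (x₁ - x₂) * (c₁ * c₂ * t ^ 2) =
              (x₁ * (c₁ * t)) * (c₂ * t) - (x₂ * (c₂ * t)) * (c₁ * t) := by ring
          rw [this, he₁, he₂]; ring
        have h2 : (x₁ ^ 2 * x₂ ^ 2 - W.b₄ * x₁ * x₂ - W.b₆ * (x₁ + x₂) - W.b₈) *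
            (c₁ * c₂ * t ^ 2) ^ 2 = 1 - ε := by
          have : (x₁ ^ 2 * x₂ ^ 2 - W.b₄ * x₁ * x₂ - W.b₆ * (x₁ + x₂) - W.b₈) *
              (c₁ * c₂ * t ^ 2) ^ 2 =
              (x₁ * (c₁ * t)) ^ 2 * (x₂ * (c₂ * t)) ^ 2
                - W.b₄ * (x₁ * (c₁ * t)) * (x₂ * (c₂ * t)) * c₁ * c₂ * t ^ 2
                - W.b₆ * ((x₁ * (c₁ * t)) * c₁ * c₂ ^ 2 * t ^ 3
                    + (x₂ * (c₂ * t)) * c₁ ^ 2 * c₂ * t ^ 3)
                - W.b₈ * c₁ ^ 2 * c₂ ^ 2 * t ^ 4 := by ring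
          rw [this, he₁, he₂, hε]; ring
        calc xs * xd * ((c₁ - c₂) ^ 2 * t ^ 2)
            = xs * xd * ((x₁ - x₂) * (c₁ * c₂ * t ^ 2)) ^ 2 := by rw [h1]; ring
          _ = (xs * xd * (x₁ - x₂) ^ 2) * (c₁ * c₂ * t ^ 2) ^ 2 := by ring
          _ = 1 - ε := by rw [hPi, h2]
      have e2 : cd * (xs * xd * ((c₁ - c₂) ^ 2 * t ^ 2)) =
          (xd * (cd * t)) * (xs * (c₁ - c₂) ^ 2 * t) := by ring
      rw [← e1, e2, hed, one_mul]
    refine ⟨(c₁ - c₂) ^ 2 * (cd * (1 - ε))⁻¹, ⟨?_, Or.inr ⟨xs, hs, ?_⟩⟩, ?_⟩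
    · rw [map_mul, map_inv₀, map_mul, hcd, hu, one_mul, inv_one, mul_one]
      exact S05_v_pow_le A (S05_v_sub_le A hc₁ hc₂) 2
    · have : xs * ((c₁ - c₂) ^ 2 * (cd * (1 - ε))⁻¹ * t) =
          (xs * (c₁ - c₂) ^ 2 * t) * (cd * (1 - ε))⁻¹ := by ring
      rw [this, hE]
      exact mul_inv_cancel₀ (mul_ne_zero hcd0 hu0)
    · have : (c₁ - c₂) ^ 2 * (cd * (1 - ε))⁻¹ * cd - (c₁ - c₂) ^ 2 =
          (c₁ - c₂) ^ 2 * (ε * (1 - ε)⁻¹) := by
        field_simp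
        ring
      rw [this]
      refine S05_v_mul_lt_of_le_of_lt A (S05_v_pow_le A (S05_v_sub_le A hc₁ hc₂) 2) ?_
      rw [map_mul, map_inv₀, hu, inv_one, mul_one]
      exact hεlt


/-- `x ∉ A` gives `x ≠ 0` and `v x⁻¹ < 1`. -/
lemma S05_inv_lt_of_not_mem {x : K} (hx : x ∉ A) : x ≠ 0 ∧ v x⁻¹ < 1 := by
  have h1 : 1 < v x := by
    rw [← not_le]; exact fun h => hx ((A.valuation_le_one_iff _).1 h)
  have hx0 : x ≠ 0 := by rintro rfl; simp at h1
  refine ⟨hx0, ?_⟩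
  rw [map_inv₀]
  exact (inv_lt_one₀ (lt_trans zero_lt_one h1)).2 h1

lemma S05_v_four (h2 : v (2 : K) = 1) : v (4 : K) = 1 := by
  have : (4 : K) = 2 * 2 := by norm_num
  rw [this, map_mul, h2, one_mul]

/-- a point with nonzero parameter relative to `t`, `v t < 1`, is in the kernel of reduction -/
lemma S05_Par.inE1 {t : K} (ht : v t < 1) {Q : W.Point} {c : K} (h : S05_Par A t Q c) :
    S05_InE1 A Q := by
  obtain ⟨hc, h | ⟨xq, hq, he⟩⟩ := h
  · exact Or.inl h.1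
  · refine Or.inr ⟨xq, hq, fun hmem => ?_⟩
    have hxq : v xq ≤ 1 := (A.valuation_le_one_iff _).2 hmem
    have : v (xq * (c * t)) < 1 :=
      S05_v_mul_lt_of_le_of_lt A hxq (S05_v_mul_lt_of_le_of_lt A hc ht)
    rw [he, map_one] at this
    exact lt_irrefl _ this

/-- duplication in the kernel of reduction. -/
lemma S05_Par.two (hW : S05_Integral W A) (h2 : v (2 : K) = 1) {P : W.Point} {x : K}
    (hP : S51_c_IsX P x) (hx : x ∉ A) :
    ∃ c, S05_Par A x⁻¹ (P + P) c ∧ v (c - 4) < 1 := by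
  obtain ⟨hx0, ht⟩ := S05_inv_lt_of_not_mem hx
  set t : K := x⁻¹ with htdef
  have hxt : x * t = 1 := mul_inv_cancel₀ hx0
  have ht0 : t ≠ 0 := inv_ne_zero hx0
  have hb₂ := (A.valuation_le_one_iff _).2 hW.b₂
  have hb₄ := (A.valuation_le_one_iff _).2 hW.b₄
  have hb₆ := (A.valuation_le_one_iff _).2 hW.b₆
  have hb₈ := (A.valuation_le_one_iff _).2 hW.b₈
  have h4 := S05_v_four h2
  have h2le : v (2 : K) ≤ 1 := h2.le
  set e₁ : K := W.b₂ * t + 2 * W.b₄ * t ^ 2 + W.b₆ * t ^ 3 with he₁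
  set e₂ : K := W.b₄ * t ^ 2 + 2 * W.b₆ * t ^ 3 + W.b₈ * t ^ 4 with he₂
  have he₁lt : v e₁ < 1 := by
    refine S05_v_add_lt A (S05_v_add_lt A ?_ ?_) ?_
    · exact S05_v_mul_lt_of_le_of_lt A hb₂ ht
    · exact S05_v_mul_lt_of_le_of_lt A (S05_v_mul_le A h2le hb₄) (S05_v_pow_lt A ht (by norm_num))
    · exact S05_v_mul_lt_of_le_of_lt A hb₆ (S05_v_pow_lt A ht (by norm_num))
  have he₂lt : v e₂ < 1 := by
    refine S05_v_add_lt A (S05_v_add_lt A ?_ ?_) ?_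
    · exact S05_v_mul_lt_of_le_of_lt A hb₄ (S05_v_pow_lt A ht (by norm_num))
    · exact S05_v_mul_lt_of_le_of_lt A (S05_v_mul_le A h2le hb₆) (S05_v_pow_lt A ht (by norm_num))
    · exact S05_v_mul_lt_of_le_of_lt A hb₈ (S05_v_pow_lt A ht (by norm_num))
  have hu₂ : v (1 - e₂) = 1 := Valuation.map_one_sub_of_lt _ he₂lt
  have hu₁ : v (4 + e₁) = 1 := by
    rw [Valuation.map_add_eq_of_lt_left _ (by rw [h4]; exact he₁lt), h4]
  have hu₁0 : 4 + e₁ ≠ 0 := by intro h; rw [h] at hu₁; simp at hu₁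
  have hu₂0 : 1 - e₂ ≠ 0 := by intro h; rw [h] at hu₂; simp at hu₂
  have hΨ : W.Ψ₂Sq.eval x * t ^ 3 = 4 + e₁ := by
    rw [S05_eval_Ψ₂Sq, he₁]
    have : (4 * x ^ 3 + W.b₂ * x ^ 2 + 2 * W.b₄ * x + W.b₆) * t ^ 3 =
        4 * (x * t) ^ 3 + W.b₂ * (x * t) ^ 2 * t + 2 * W.b₄ * (x * t) * t ^ 2 + W.b₆ * t ^ 3 := by
      ring
    rw [this, hxt]; ring
  have hΦ : (W.Φ 2).eval x * t ^ 4 = 1 - e₂ := by
    rw [S05_eval_Φ_two, he₂]
    have : (x ^ 4 - W.b₄ * x ^ 2 - 2 * W.b₆ * x - W.b₈) * t ^ 4 =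
        (x * t) ^ 4 - W.b₄ * (x * t) ^ 2 * t ^ 2 - 2 * W.b₆ * (x * t) * t ^ 3 - W.b₈ * t ^ 4 := by
      ring
    rw [this, hxt]; ring
  have hΨ0 : W.Ψ₂Sq.eval x ≠ 0 := by
    intro h; rw [h, zero_mul] at hΨ; exact hu₁0 hΨ.symm
  have h2P := hP.add_self hΨ0
  refine ⟨(4 + e₁) * (1 - e₂)⁻¹, ⟨?_, Or.inr ⟨_, h2P, ?_⟩⟩, ?_⟩
  · rw [map_mul, map_inv₀, hu₁, hu₂, inv_one, mul_one]
  · rw [← hΨ, ← hΦ]
    have hΦ0 : (W.Φ 2).eval x * t ^ 4 ≠ 0 := by rw [hΦ]; exact hu₂0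
    have hΦ0' : (W.Φ 2).eval x ≠ 0 := left_ne_zero_of_mul hΦ0
    field_simp
  · have : (4 + e₁) * (1 - e₂)⁻¹ - 4 = (e₁ + 4 * e₂) * (1 - e₂)⁻¹ := by
      field_simp
      ring
    rw [this, map_mul, map_inv₀, hu₂, inv_one, mul_one]
    exact S05_v_add_lt A he₁lt (S05_v_mul_lt_of_le_of_lt A h4.le he₂lt)

/-- **Parameters of multiples**: if `x(P) ∉ A` and `t = x(P)⁻¹` then `j • P` has a parameter
`c_j ∈ A` relative to `t` with `c_j ≡ j² mod 𝔪`. -/
theorem S05_par_nsmul (hW : S05_Integral W A) (h2 : v (2 : K) = 1) {P : W.Point} {x : K}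
    (hP : S51_c_IsX P x) (hx : x ∉ A) (j : ℕ) :
    ∃ c, S05_Par A x⁻¹ (j • P) c ∧ v (c - (j : K) ^ 2) < 1 := by
  obtain ⟨hx0, ht⟩ := S05_inv_lt_of_not_mem hx
  induction j using Nat.strong_induction_on with
  | _ j ih =>
    match j, ih with
    | 0, _ => exact ⟨0, by simpa using S05_Par.zero (A := A) (W := W) x⁻¹, by simp⟩
    | 1, _ => exact ⟨1, by simpa using S05_Par.self (A := A) hP hx0, by simp⟩
    | 2, _ =>
      obtain ⟨c, hc, hc4⟩ := S05_Par.two hW h2 hP hx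
      refine ⟨c, by simpa [two_nsmul] using hc, ?_⟩
      have : ((2 : ℕ) : K) ^ 2 = 4 := by norm_num
      rw [this]; exact hc4
    | n + 3, ih =>
      by_cases hn1 : v ((n + 1 : ℕ) : K) = 1
      · -- `(n+3)P = (n+2)P + P`, difference `(n+1)P`
        obtain ⟨c₁, hc₁, hc₁'⟩ := ih (n + 2) (by omega)
        obtain ⟨cd, hcd, hcd'⟩ := ih (n + 1) (by omega)
        have hpar1 : S05_Par A x⁻¹ P 1 := S05_Par.self (A := A) hP hx0
        have hvcd : v cd = 1 :=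
          S05_v_eq_one_of_sub_lt A hcd' (by rw [map_pow, hn1, one_pow])
        have hD : (n + 2) • P - P = (n + 1) • P := by
          rw [succ_nsmul P (n + 1)]; abel
        have hS : (n + 2) • P + P = (n + 3) • P := by
          rw [succ_nsmul P (n + 2)]
        obtain ⟨cs, hcs, hcs'⟩ := S05_Par.step hW ht hc₁ hpar1 (by rw [hD]; exact hcd) hvcd
        rw [hS] at hcs
        refine ⟨cs, hcs, ?_⟩
        have hc₁le := hc₁.1
        have hcdle := hcd.1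
        have key : cd * (cs - ((n + 3 : ℕ) : K) ^ 2) =
            (cs * cd - (c₁ - 1) ^ 2) +
              (c₁ - ((n + 2 : ℕ) : K) ^ 2) * (c₁ + ((n + 2 : ℕ) : K) ^ 2 - 2) -
              ((n + 3 : ℕ) : K) ^ 2 * (cd - ((n + 1 : ℕ) : K) ^ 2) := by
          push_cast; ring
        have hlt : v (cd * (cs - ((n + 3 : ℕ) : K) ^ 2)) < 1 := by
          rw [key]
          refine S05_v_sub_lt A (S05_v_add_lt A hcs' ?_) ?_
          · refine S05_v_mul_lt_of_lt_of_le A hc₁' ?_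
            exact S05_v_sub_le A (S05_v_add_le A hc₁le (S05_v_pow_le A (S05_v_natCast_le A _) 2))
              h2.le
          · exact S05_v_mul_lt_of_le_of_lt A (S05_v_pow_le A (S05_v_natCast_le A _) 2) hcd'
        rwa [map_mul, hvcd, one_mul] at hlt
      · -- `v (n+1) < 1`: then `n ≥ 2` and `v (n-1) = 1`
        match n, ih, hn1 with
        | 0, _, hn1 => exact absurd (by simp) hn1
        | 1, _, hn1 => exact absurd (by simpa using h2) hn1
        | m + 2, ih, hn1 =>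
          have hlt3 : v ((m + 2 + 1 : ℕ) : K) < 1 :=
            lt_of_le_of_ne (S05_v_natCast_le A _) hn1
          have hm1 : v ((m + 1 : ℕ) : K) = 1 := by
            have : ((m + 1 : ℕ) : K) = -2 + ((m + 2 + 1 : ℕ) : K) := by push_cast; ring
            rw [this, Valuation.map_add_eq_of_lt_left _ (by rw [Valuation.map_neg, h2]; exact hlt3),
              Valuation.map_neg, h2]
          obtain ⟨c₁, hc₁, hc₁'⟩ := ih (m + 3) (by omega)
          obtain ⟨c₂, hc₂, hc₂'⟩ := ih 2 (by omega)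
          obtain ⟨cd, hcd, hcd'⟩ := ih (m + 1) (by omega)
          have hvcd : v cd = 1 :=
            S05_v_eq_one_of_sub_lt A hcd' (by rw [map_pow, hm1, one_pow])
          have hD : (m + 3) • P - 2 • P = (m + 1) • P := by
            rw [show m + 3 = (m + 1) + 2 by omega, add_nsmul]; abel
          have hS : (m + 3) • P + 2 • P = (m + 2 + 3) • P := by
            rw [← add_nsmul]
          obtain ⟨cs, hcs, hcs'⟩ := S05_Par.step hW ht hc₁ hc₂ (by rw [hD]; exact hcd) hvcd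
          rw [hS] at hcs
          refine ⟨cs, hcs, ?_⟩
          have hc₁le := hc₁.1
          have hc₂le := hc₂.1
          have key : cd * (cs - ((m + 2 + 3 : ℕ) : K) ^ 2) =
              (cs * cd - (c₁ - c₂) ^ 2) +
                ((c₁ - ((m + 3 : ℕ) : K) ^ 2) - (c₂ - ((2 : ℕ) : K) ^ 2)) *
                  ((c₁ - c₂) + (((m + 3 : ℕ) : K) ^ 2 - 4)) -
                ((m + 2 + 3 : ℕ) : K) ^ 2 * (cd - ((m + 1 : ℕ) : K) ^ 2) := by
            push_cast; ring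
          have hlt : v (cd * (cs - ((m + 2 + 3 : ℕ) : K) ^ 2)) < 1 := by
            rw [key]
            refine S05_v_sub_lt A (S05_v_add_lt A hcs' ?_) ?_
            · refine S05_v_mul_lt_of_lt_of_le A (S05_v_sub_lt A hc₁' hc₂') ?_
              exact S05_v_add_le A (S05_v_sub_le A hc₁le hc₂le)
                (S05_v_sub_le A (S05_v_pow_le A (S05_v_natCast_le A _) 2) (S05_v_four h2).le)
            · exact S05_v_mul_lt_of_le_of_lt A (S05_v_pow_le A (S05_v_natCast_le A _) 2) hcd'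
          rwa [map_mul, hvcd, one_mul] at hlt

variable (A)

/-- `x(P) ∉ A`, `n` a unit of `A` ⇒ `n • P ≠ 0`. -/
theorem S05_nsmul_ne_zero (hW : S05_Integral W A) (h2 : A.valuation (2 : K) = 1)
    {P : W.Point} {x : K} (hP : S51_c_IsX P x) (hx : x ∉ A) {n : ℕ}
    (hn : A.valuation (n : K) = 1) : n • P ≠ 0 := by
  intro h0
  obtain ⟨c, hc, hc'⟩ := S05_par_nsmul hW h2 hP hx n
  have hc0 : c = 0 := hc.eq_zero_iff.1 h0
  rw [hc0, zero_sub, Valuation.map_neg, map_pow, hn, one_pow] at hc'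
  exact lt_irrefl _ hc'

/-- the kernel of reduction is stable under multiplication by `j`. -/
theorem S05_inE1_nsmul (hW : S05_Integral W A) (h2 : A.valuation (2 : K) = 1)
    {P : W.Point} (hP : S05_InE1 A P) (j : ℕ) : S05_InE1 A (j • P) := by
  rcases hP with rfl | ⟨x, hP, hx⟩
  · left; simp
  · obtain ⟨c, hc, -⟩ := S05_par_nsmul hW h2 hP hx j
    exact hc.inE1 (S05_inv_lt_of_not_mem hx).2

/-- the kernel of reduction is stable under doubling. -/
theorem S05_inE1_two_nsmul (hW : S05_Integral W A) (h2 : A.valuation (2 : K) = 1)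
    {P : W.Point} (hP : S05_InE1 A P) : S05_InE1 A (2 • P) :=
  S05_inE1_nsmul A hW h2 hP 2

/-- the kernel of reduction has no nonzero `n`-torsion for `n` a unit of `A`. -/
theorem S05_eq_zero_of_inE1 (hW : S05_Integral W A) (h2 : A.valuation (2 : K) = 1)
    {P : W.Point} (hP : S05_InE1 A P) {n : ℕ} (hn : A.valuation (n : K) = 1)
    (h : n • P = 0) : P = 0 := by
  rcases hP with rfl | ⟨x, hP, hx⟩
  · rfl
  · exact absurd h (S05_nsmul_ne_zero A hW h2 hP hx hn)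

/-- `X`-coordinates of torsion points of order prime to the residue characteristic are integral. -/
theorem S05_isX_mem_of_torsion (hW : S05_Integral W A) (h2 : A.valuation (2 : K) = 1)
    {P : W.Point} {n : ℕ} (hn : A.valuation (n : K) = 1) (hP : n • P = 0)
    {x : K} (hx : S51_c_IsX P x) : x ∈ A := by
  by_contra hxA
  exact S05_nsmul_ne_zero A hW h2 hx hxA hn hP

/-- torsion points of order prime to the residue characteristic are integral. -/
theorem S05_integral_of_torsion (hW : S05_Integral W A) (h2 : A.valuation (2 : K) = 1)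
    {x y : K} (h : W.Nonsingular x y) {n : ℕ} (hn : A.valuation (n : K) = 1)
    (hP : n • Affine.Point.some x y h = 0) : x ∈ A ∧ y ∈ A := by
  have hx : x ∈ A := S05_isX_mem_of_torsion A hW h2 hn hP ⟨y, h, rfl⟩
  exact ⟨hx, S05_y_mem A hW.a₁ hW.a₂ hW.a₃ hW.a₄ hW.a₆ h.1 hx⟩

end Fermat.Agent.S05
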