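import Mathlib
import Fermat.Agent.S51.TorsCommon
import Fermat.Agent.S05.Defs

/-!
# S05: definitions for the node case (shared by the packages P5a, P5b, P5c, P6)

* `S05_Node W A x₀` : the node datum (`x₀ ∈ A` a root of `Ψ₂Sq`, `β = b₄ + b₂x₀ + 6x₀²` a nonzero
  non-unit, `b₂ + 12 x₀` a unit, `2` a unit).
* `S05_lvl W A x₀ P` : clipped level of a point.
* `S05_Rel μ g h` : `h = g^{±1} μ^{2k}`.
-/

set_option autoImplicit false

namespace Fermat.Agent.S05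

open WeierstrassCurve Fermat.Agent.S51

variable {K : Type*} [Field K]

/-- the node datum -/
structure S05_Node (W : WeierstrassCurve.Affine K) (A : ValuationSubring K) (x₀ : K) : Prop where
  int : S05_Integral W A
  two : A.valuation (2 : K) = 1
  x₀_mem : x₀ ∈ A
  root : W.Ψ₂Sq.eval x₀ = 0
  β_ne : W.b₄ + W.b₂ * x₀ + 6 * x₀ ^ 2 ≠ 0
  β_lt : A.valuation (W.b₄ + W.b₂ * x₀ + 6 * x₀ ^ 2) < 1
  b₂_unit : A.valuation (W.b₂ + 12 * x₀) = 1

/-- clipped level of a point: `1` on `E₀` (and at `0`), `v β` if `v(x - x₀) ≤ v β`, else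
`v (x - x₀)`. -/
noncomputable def S05_lvl (W : WeierstrassCurve.Affine K) (A : ValuationSubring K) (x₀ : K) :
    W.Point → A.ValueGroup
  | .zero => 1
  | .some x _ _ =>
      max (A.valuation (W.b₄ + W.b₂ * x₀ + 6 * x₀ ^ 2)) (min 1 (A.valuation (x - x₀)))

/-- `g ~ h` : equal in `Γ / ⟨μ²⟩ / ±`. -/
def S05_Rel {Γ : Type*} [LinearOrderedCommGroupWithZero Γ] (μ g h : Γ) : Prop :=
  ∃ k : ℤ, h = g * μ ^ (2 * k) ∨ h = g⁻¹ * μ ^ (2 * k)

end Fermat.Agent.S05
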