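import Mathlib
import Fermat.Agent.S05.Kernel
import Fermat.Agent.S05.Interface
import Fermat.Agent.S05.NodeDefs

/-!
# S05, final assembly (general part)

`K/S` a field extension, `W'` a Weierstrass curve over `S`, `A ⊂ K` a valuation ring at which
`W'⁄K` is integral, `σ ∈ Aut(K/S)` with `σ A = A` acting trivially on the residue field.
We show that `σ` fixes every torsion point `Q` of order `p` (a unit of `A`, odd prime) in two
situations:

* `S05_fix_good`  : the discriminant is a unit of `A`;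
* `S05_fix_node`  : `W'⁄K` has a node at `x₀` (datum `S05_Node`) and `v β = v r ^ p` for some
  `σ`-fixed `r`.
-/

set_option autoImplicit false
set_option linter.unusedSectionVars false
set_option linter.unusedVariables false

namespace Fermat.Agent.S05

open WeierstrassCurve WeierstrassCurve.Affine WeierstrassCurve.Affine.Point Fermat.Agent.S51

section general

variable {R : Type*} {S : Type*} {K : Type*} [CommRing R] [CommRing S] [Field K]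
  [DecidableEq K] {W' : Affine R} [Algebra R S] [Algebra R K] [Algebra S K]
  [IsScalarTower R S K] (A : ValuationSubring K)

local notation "v" => ValuationSubring.valuation A

/-- if `σ Q - Q` lies in the kernel of reduction and `Q` is torsion of order a unit, `σ Q = Q`. -/
theorem S05_fix_of_inE1 (hW : S05_Integral (W'⁄K) A) (h2 : v (2 : K) = 1)
    {n : ℕ} (hn : v (n : K) = 1) (σ : K ≃ₐ[S] K) {Q : (W'⁄K).Point}
    (hQ : n • Q = 0) (h : S05_InE1 A (σ • Q - Q)) : σ • Q = Q := by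
  have h0 : n • (σ • Q - Q) = 0 := by
    rw [nsmul_sub, ← S05_smul_nsmul, hQ, S05_smul_zero, sub_zero]
  exact sub_eq_zero.1 (S05_eq_zero_of_inE1 A hW h2 h hn h0)

/-- unit derivative case: `σ Q - Q` lies in the kernel of reduction (no torsion hypothesis). -/
theorem S05_sub_inE1_of_unit (hW : S05_Integral (W'⁄K) A) (σ : K ≃ₐ[S] K)
    (hσ : ∀ x ∈ A, σ x - x ∈ A.nonunits) (hσA : ∀ x, σ x ∈ A ↔ x ∈ A)
    {x y : K} (h : (W'⁄K).Nonsingular x y) (hx : x ∈ A) (hy : y ∈ A)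
    (hD : 2 * y + (W'⁄K).a₁ * x + (W'⁄K).a₃ ∉ A.nonunits) :
    S05_InE1 A (σ • (Point.some x y h : (W'⁄K).Point) - Point.some x y h) := by
  rw [S05_smul_some]
  rcases S05_sub_isX_not_mem A hW.a₁ hW.a₂ hW.a₃ h
      ((W'.baseChange_nonsingular σ.toAlgHom.injective ..).mpr h) hx hy ((hσA x).2 hx)
      (hσ x hx) (hσ y hy) hD with h' | h'
  · left; exact sub_eq_zero.2 h'
  · right; exact h'

/-- unit derivative case. -/
theorem S05_fix_of_unit (hW : S05_Integral (W'⁄K) A) (h2 : v (2 : K) = 1)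
    {n : ℕ} (hn : v (n : K) = 1) (σ : K ≃ₐ[S] K)
    (hσ : ∀ x ∈ A, σ x - x ∈ A.nonunits) (hσA : ∀ x, σ x ∈ A ↔ x ∈ A)
    {x y : K} (h : (W'⁄K).Nonsingular x y) (hx : x ∈ A) (hy : y ∈ A)
    (hD : 2 * y + (W'⁄K).a₁ * x + (W'⁄K).a₃ ∉ A.nonunits)
    (hQ : n • (Point.some x y h : (W'⁄K).Point) = 0) :
    σ • (Point.some x y h : (W'⁄K).Point) = Point.some x y h :=
  S05_fix_of_inE1 A hW h2 hn σ hQ (S05_sub_inE1_of_unit A hW σ hσ hσA h hx hy hD)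

/-- an odd-order torsion point is not killed by `2` unless it is `0`. -/
theorem S05_two_nsmul_ne_zero {p : ℕ} (hp : Odd p) {Q : (W'⁄K).Point} (hQ : p • Q = 0)
    (hQ0 : Q ≠ 0) : Q + Q ≠ 0 := by
  intro h2
  obtain ⟨m, rfl⟩ := hp
  apply hQ0
  have : (2 * m + 1) • Q = m • (Q + Q) + Q := by
    rw [add_nsmul, one_nsmul, mul_comm, mul_nsmul, two_nsmul, nsmul_add]
  rw [this, h2, smul_zero, zero_add] at hQ
  exact hQ

/-- the double of an integral torsion point of odd order is a nonzero integral point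
(no hypothesis on the residue characteristic besides `2 ∈ Aˣ`). -/
theorem S05_double_isX_mem (hW : S05_Integral (W'⁄K) A) (h2 : v (2 : K) = 1)
    {p : ℕ} (hp : Odd p) {Q : (W'⁄K).Point} (hQ : p • Q = 0) {x : K} (hx : S51_c_IsX Q x)
    (hxA : x ∈ A) : ∃ x₂, S51_c_IsX (Q + Q) x₂ ∧ x₂ ∈ A := by
  have hQ0 : Q ≠ 0 := hx.ne_zero
  have h2Q := S05_two_nsmul_ne_zero hp hQ hQ0
  obtain ⟨x₂, hx₂⟩ := S51_c_exists_isX_of_ne_zero h2Q
  refine ⟨x₂, hx₂, ?_⟩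
  by_contra hx₂A
  have hE : S05_InE1 A (Q + Q) := Or.inr ⟨x₂, hx₂, hx₂A⟩
  obtain ⟨m, rfl⟩ := hp
  have hE' := S05_inE1_nsmul A hW h2 hE (m + 1)
  have hQ' : (m + 1) • (Q + Q) = Q := by
    have : (m + 1) • (Q + Q) = (2 * m + 1) • Q + Q := by
      module
    rw [this, hQ, zero_add]
  rw [hQ'] at hE'
  rcases hE' with h0 | ⟨x', hx', hx'A⟩
  · exact hQ0 h0
  · exact hx'A (by rw [hx'.unique hx]; exact hxA)

/-- the Galois action fixes the coefficients of a base-changed curve. -/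
theorem S05_sigma_a₁ (σ : K ≃ₐ[S] K) : σ (W'⁄K).a₁ = (W'⁄K).a₁ := by
  show σ (algebraMap R K W'.a₁) = algebraMap R K W'.a₁
  rw [IsScalarTower.algebraMap_apply R S K, σ.commutes]

theorem S05_sigma_a₃ (σ : K ≃ₐ[S] K) : σ (W'⁄K).a₃ = (W'⁄K).a₃ := by
  show σ (algebraMap R K W'.a₃) = algebraMap R K W'.a₃
  rw [IsScalarTower.algebraMap_apply R S K, σ.commutes]

/-- **Good reduction case**, general form: for an integral torsion point `Q` of odd order,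
`σ Q - Q` lies in the kernel of reduction (no hypothesis on the residue characteristic besides
`2 ∈ Aˣ`). -/
theorem S05_sub_inE1_good (hW : S05_Integral (W'⁄K) A) (h2 : v (2 : K) = 1)
    (hΔ : (W'⁄K).Δ ∉ A.nonunits)
    {p : ℕ} (hp : Odd p) (σ : K ≃ₐ[S] K)
    (hσ : ∀ x ∈ A, σ x - x ∈ A.nonunits) (hσA : ∀ x, σ x ∈ A ↔ x ∈ A)
    {x y : K} (h : (W'⁄K).Nonsingular x y) (hx : x ∈ A)
    (hQ : p • (Point.some x y h : (W'⁄K).Point) = 0) :
    S05_InE1 A (σ • (Point.some x y h : (W'⁄K).Point) - Point.some x y h) := by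
  have hy : y ∈ A := S05_y_mem A hW.a₁ hW.a₂ hW.a₃ hW.a₄ hW.a₆ h.1 hx
  obtain ⟨x₂, hx₂, hx₂A⟩ := S05_double_isX_mem A hW h2 hp hQ ⟨y, h, rfl⟩ hx
  have hD := S05_unit_of_double_integral A hW.a₁ hW.a₂ hW.a₃ hW.a₄ hW.a₆ hΔ h hx hx₂ hx₂A
  exact S05_sub_inE1_of_unit A hW σ hσ hσA h hx hy hD

/-- **Good reduction case.** -/
theorem S05_fix_good (hW : S05_Integral (W'⁄K) A) (h2 : v (2 : K) = 1)
    (hΔ : (W'⁄K).Δ ∉ A.nonunits)
    {p : ℕ} (hp : Odd p) (hvp : v (p : K) = 1) (σ : K ≃ₐ[S] K)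
    (hσ : ∀ x ∈ A, σ x - x ∈ A.nonunits) (hσA : ∀ x, σ x ∈ A ↔ x ∈ A)
    (Q : (W'⁄K).Point) (hQ : p • Q = 0) : σ • Q = Q := by
  rcases Q with _ | ⟨x, y, h⟩
  · rfl
  obtain ⟨hx, hy⟩ := S05_integral_of_torsion A hW h2 h hvp hQ
  exact S05_fix_of_inE1 A hW h2 hvp σ hQ (S05_sub_inE1_good A hW h2 hΔ hp σ hσ hσA h hx hQ)

/-- away from the node, the derivative `2y + a₁x + a₃` of an integral torsion point of odd order
is a unit. -/
theorem S05_unit_away_from_node {x₀ : K} (hN : S05_Node (W'⁄K) A x₀)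
    {p : ℕ} (hp : Odd p)
    {x y : K} (h : (W'⁄K).Nonsingular x y) (hx : x ∈ A)
    (hQ : p • (Point.some x y h : (W'⁄K).Point) = 0) (hX : v (x - x₀) = 1) :
    2 * y + (W'⁄K).a₁ * x + (W'⁄K).a₃ ∉ A.nonunits := by
  intro hD
  have hW := hN.int
  have h2 := hN.two
  obtain ⟨x₂, hx₂, hx₂A⟩ := S05_double_isX_mem A hW h2 hp hQ ⟨y, h, rfl⟩ hx
  have hPsi : (W'⁄K).Ψ₂Sq.eval x = (2 * y + (W'⁄K).a₁ * x + (W'⁄K).a₃) ^ 2 := by
    rw [S51_c_eval_Ψ₂Sq_eq h.1]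
    simp only [Affine.negY]
    ring
  have hPsiN : v ((W'⁄K).Ψ₂Sq.eval x) < 1 := by
    rw [hPsi]
    exact S05_v_pow_lt A (A.mem_nonunits_iff.1 hD) (by norm_num)
  have hdup := S05_dup_identity_shift (P := Point.some x y h) ⟨y, h, rfl⟩ hx₂ hN.root
  have h4 := S05_v_four h2
  have hx₂x₀ : v (x₂ - x₀) ≤ 1 :=
    S05_v_sub_le A ((A.valuation_le_one_iff _).2 hx₂A) ((A.valuation_le_one_iff _).2 hN.x₀_mem)
  have hlt : v ((2 * (x - x₀) ^ 2 -
      ((W'⁄K).b₄ + (W'⁄K).b₂ * x₀ + 6 * x₀ ^ 2)) ^ 2) < 1 := by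
    rw [← hdup]
    exact S05_v_mul_lt_of_le_of_lt A h4.le (S05_v_mul_lt_of_le_of_lt A hx₂x₀ hPsiN)
  have hlt' : v (2 * (x - x₀) ^ 2 - ((W'⁄K).b₄ + (W'⁄K).b₂ * x₀ + 6 * x₀ ^ 2)) < 1 := by
    by_contra hcon
    rw [not_lt] at hcon
    rw [map_pow] at hlt
    exact absurd hlt (not_lt.2 (one_le_pow_of_one_le' hcon 2))
  have h2X : v (2 * (x - x₀) ^ 2) = 1 := by
    rw [map_mul, map_pow, h2, hX, one_pow, one_mul]
  have : v (2 * (x - x₀) ^ 2 - ((W'⁄K).b₄ + (W'⁄K).b₂ * x₀ + 6 * x₀ ^ 2)) = 1 := by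
    rw [sub_eq_add_neg, Valuation.map_add_eq_of_lt_left _
      (by rw [Valuation.map_neg, h2X]; exact hN.β_lt), h2X]
  rw [this] at hlt'
  exact lt_irrefl _ hlt'

/-- **Node case**, general form, from the level lemma (P5b) and the near-node lemma (P5c):
for an integral `p`-torsion point `Q` (`p` an odd prime, possibly the residue characteristic),
`σ Q - Q` lies in the kernel of reduction. -/
theorem S05_sub_inE1_node_of {x₀ : K} (hN : S05_Node (W'⁄K) A x₀)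
    {p : ℕ} (hp : p.Prime) (hp2 : p ≠ 2) (σ : K ≃ₐ[S] K)
    (hσ : ∀ x ∈ A, σ x - x ∈ A.nonunits) (hσA : ∀ x, σ x ∈ A ↔ x ∈ A)
    (hσx₀ : σ x₀ = x₀) {r : K} (hr : σ r = r)
    (hβr : v ((W'⁄K).b₄ + (W'⁄K).b₂ * x₀ + 6 * x₀ ^ 2) = v r ^ p)
    (hlevel : ∀ {x y : K} (h : (W'⁄K).Nonsingular x y),
      p • (Point.some x y h : (W'⁄K).Point) = 0 → v (x - x₀) < 1 →
      v ((W'⁄K).b₄ + (W'⁄K).b₂ * x₀ + 6 * x₀ ^ 2) < v (x - x₀) ∧
        ∃ k : ℤ, v (x - x₀) ^ p = v ((W'⁄K).b₄ + (W'⁄K).b₂ * x₀ + 6 * x₀ ^ 2) ^ (2 * k))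
    (hnear : ∀ {x y x' y' : K} (h : (W'⁄K).Nonsingular x y) (h' : (W'⁄K).Nonsingular x' y'),
      v (x - x₀) < 1 →
      v ((W'⁄K).b₄ + (W'⁄K).b₂ * x₀ + 6 * x₀ ^ 2) < v (x - x₀) →
      v (x' - x) < v (x - x₀) →
      v ((2 * y' + (W'⁄K).a₁ * x' + (W'⁄K).a₃) * (x - x₀) -
        (2 * y + (W'⁄K).a₁ * x + (W'⁄K).a₃) * (x' - x₀)) < v (x - x₀) ^ 2 →
      S05_InE1 A ((Point.some x' y' h' : (W'⁄K).Point) - Point.some x y h))
    {x y : K} (h : (W'⁄K).Nonsingular x y) (hx : x ∈ A)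
    (hQ : p • (Point.some x y h : (W'⁄K).Point) = 0) :
    S05_InE1 A (σ • (Point.some x y h : (W'⁄K).Point) - Point.some x y h) := by
  have hW := hN.int
  have h2 := hN.two
  have hpodd : Odd p := hp.odd_of_ne_two hp2
  have hy : y ∈ A := S05_y_mem A hW.a₁ hW.a₂ hW.a₃ hW.a₄ hW.a₆ h.1 hx
  have hXle : v (x - x₀) ≤ 1 :=
    S05_v_sub_le A ((A.valuation_le_one_iff _).2 hx) ((A.valuation_le_one_iff _).2 hN.x₀_mem)
  rcases hXle.eq_or_lt with hX1 | hXlt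
  · -- away from the node
    exact S05_sub_inE1_of_unit A hW σ hσ hσA h hx hy
      (S05_unit_away_from_node A hN hpodd h hx hQ hX1)
  -- at the node
  obtain ⟨hβX, k, hk⟩ := hlevel h hQ hXlt
  set β : K := (W'⁄K).b₄ + (W'⁄K).b₂ * x₀ + 6 * x₀ ^ 2 with hβdef
  set X : K := x - x₀ with hXdef
  have hβ0 : v β ≠ 0 := by
    rw [ne_eq, map_eq_zero]; exact hN.β_ne
  have hX0 : v X ≠ 0 := ne_of_gt (lt_of_le_of_lt zero_le hβX)
  have hXne : X ≠ 0 := by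
    intro h0; rw [h0, _root_.map_zero] at hX0; exact hX0 rfl
  have hr0 : r ≠ 0 := by
    rintro rfl
    rw [_root_.map_zero, zero_pow hp.ne_zero] at hβr
    exact hβ0 hβr
  -- `v X = v (r ^ (2k))`
  set ρ : K := r ^ (2 * k) with hρdef
  have hρ0 : ρ ≠ 0 := zpow_ne_zero _ hr0
  have hvρ : v ρ = v X := by
    have h1 : v X ^ p = (v r ^ (2 * k)) ^ p := by
      rw [hk, hβr, ← zpow_natCast, ← zpow_natCast, ← zpow_mul, ← zpow_mul, mul_comm]
    rw [hρdef, map_zpow₀]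
    exact ((pow_left_inj₀ zero_le zero_le hp.ne_zero).1 h1).symm
  have hσρ : σ ρ = ρ := by rw [hρdef, map_zpow₀, hr]
  -- the unit `u = X / ρ`
  set u : K := X / ρ with hudef
  have hvu : v u = 1 := by
    rw [hudef, map_div₀, hvρ, div_self hX0]
  have huA : u ∈ A := (A.valuation_le_one_iff _).1 hvu.le
  have hXu : X = u * ρ := by rw [hudef, div_mul_cancel₀ _ hρ0]
  have hσX : σ X - X = (σ u - u) * ρ := by
    rw [hXu, map_mul, hσρ]; ring
  have hσXlt : v (σ X - X) < v X := by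
    rw [hσX, map_mul, hvρ]
    exact mul_lt_of_lt_one_left (zero_lt_iff.2 hX0) (A.mem_nonunits_iff.1 (hσ u huA))
  have hvσX : v (σ X) = v X := by
    have : σ X = X + (σ X - X) := by ring
    rw [this, Valuation.map_add_eq_of_lt_left _ hσXlt]
  have hσXx : σ x - x = σ X - X := by
    rw [hXdef, map_sub, hσx₀]; ring
  have hσXx₀ : σ x - x₀ = σ X := by
    rw [hXdef, map_sub, hσx₀]
  -- the unit `τ = η / X`
  set η : K := 2 * y + (W'⁄K).a₁ * x + (W'⁄K).a₃ with hηdef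
  have hPsi : (W'⁄K).Ψ₂Sq.eval x = η ^ 2 := by
    rw [S51_c_eval_Ψ₂Sq_eq h.1]
    simp only [Affine.negY]
    ring
  have hPsi' := S05_eval_Ψ₂Sq_shift (W'⁄K) hN.root x
  set τ : K := η / X with hτdef
  have hτ2 : τ ^ 2 = 4 * X + ((W'⁄K).b₂ + 12 * x₀) + 2 * β / X := by
    rw [hτdef, div_pow, ← hPsi, hPsi']
    field_simp
    rw [hXdef, hβdef]
    ring
  have h4 := S05_v_four h2
  have hvτ2 : v (τ ^ 2) = 1 := by
    have e1 : v (4 * X) < 1 := by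
      rw [map_mul, h4, one_mul]; exact hXlt
    have e2 : v (2 * β / X) < 1 := by
      rw [map_div₀, map_mul, h2, one_mul]
      exact (div_lt_one₀ (zero_lt_iff.2 hX0)).2 hβX
    have e3 : v (4 * X + 2 * β / X) < 1 := S05_v_add_lt A e1 e2
    have : τ ^ 2 = ((W'⁄K).b₂ + 12 * x₀) + (4 * X + 2 * β / X) := by rw [hτ2]; ring
    rw [this, Valuation.map_add_eq_of_lt_left _ (by rw [hN.b₂_unit]; exact e3), hN.b₂_unit]
  have hvτ : v τ = 1 := by
    rw [map_pow] at hvτ2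
    have : v τ ^ 2 = 1 ^ 2 := by rw [hvτ2, one_pow]
    exact (pow_left_inj₀ zero_le zero_le (by norm_num)).1 this
  have hτA : τ ∈ A := (A.valuation_le_one_iff _).1 hvτ.le
  have hητ : η = τ * X := by rw [hτdef, div_mul_cancel₀ _ hXne]
  have hση : 2 * σ y + (W'⁄K).a₁ * σ x + (W'⁄K).a₃ = σ η := by
    rw [hηdef, map_add, map_add, map_mul, map_mul, S05_sigma_a₁, S05_sigma_a₃, map_ofNat]
  have hbr : v ((2 * σ y + (W'⁄K).a₁ * σ x + (W'⁄K).a₃) * (x - x₀) -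
      (2 * y + (W'⁄K).a₁ * x + (W'⁄K).a₃) * (σ x - x₀)) < v (x - x₀) ^ 2 := by
    rw [hση, hσXx₀]
    have : σ η * X - η * σ X = (σ τ - τ) * (X * σ X) := by
      rw [hητ, map_mul]; ring
    rw [this, map_mul, map_mul, hvσX, ← pow_two]
    exact mul_lt_of_lt_one_left (zero_lt_iff.2 (pow_ne_zero 2 hX0))
      (A.mem_nonunits_iff.1 (hσ τ hτA))
  have hXX : v (σ x - x) < v (x - x₀) := by rw [hσXx]; exact hσXlt
  rw [S05_smul_some]
  exact hnear h _ hXlt hβX hXX hbr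

/-- **Node case**, from the level lemma (P5b) and the near-node lemma (P5c). -/
theorem S05_fix_node_of {x₀ : K} (hN : S05_Node (W'⁄K) A x₀)
    {p : ℕ} (hp : p.Prime) (hp2 : p ≠ 2) (hvp : v (p : K) = 1) (σ : K ≃ₐ[S] K)
    (hσ : ∀ x ∈ A, σ x - x ∈ A.nonunits) (hσA : ∀ x, σ x ∈ A ↔ x ∈ A)
    (hσx₀ : σ x₀ = x₀) {r : K} (hr : σ r = r)
    (hβr : v ((W'⁄K).b₄ + (W'⁄K).b₂ * x₀ + 6 * x₀ ^ 2) = v r ^ p)
    (hlevel : ∀ {x y : K} (h : (W'⁄K).Nonsingular x y),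
      p • (Point.some x y h : (W'⁄K).Point) = 0 → v (x - x₀) < 1 →
      v ((W'⁄K).b₄ + (W'⁄K).b₂ * x₀ + 6 * x₀ ^ 2) < v (x - x₀) ∧
        ∃ k : ℤ, v (x - x₀) ^ p = v ((W'⁄K).b₄ + (W'⁄K).b₂ * x₀ + 6 * x₀ ^ 2) ^ (2 * k))
    (hnear : ∀ {x y x' y' : K} (h : (W'⁄K).Nonsingular x y) (h' : (W'⁄K).Nonsingular x' y'),
      v (x - x₀) < 1 →
      v ((W'⁄K).b₄ + (W'⁄K).b₂ * x₀ + 6 * x₀ ^ 2) < v (x - x₀) →
      v (x' - x) < v (x - x₀) →
      v ((2 * y' + (W'⁄K).a₁ * x' + (W'⁄K).a₃) * (x - x₀) -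
        (2 * y + (W'⁄K).a₁ * x + (W'⁄K).a₃) * (x' - x₀)) < v (x - x₀) ^ 2 →
      S05_InE1 A ((Point.some x' y' h' : (W'⁄K).Point) - Point.some x y h))
    (Q : (W'⁄K).Point) (hQ : p • Q = 0) : σ • Q = Q := by
  rcases Q with _ | ⟨x, y, h⟩
  · rfl
  obtain ⟨hx, hy⟩ := S05_integral_of_torsion A hN.int hN.two h hvp hQ
  exact S05_fix_of_inE1 A hN.int hN.two hvp σ hQ
    (S05_sub_inE1_node_of A hN hp hp2 σ hσ hσA hσx₀ hr hβr hlevel hnear h hx hQ)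

end general

end Fermat.Agent.S05
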