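import Mathlib
import Fermat.Agent.S05.Interface
import Fermat.Agent.S05.NodeDefs
import Fermat.Agent.S05.Identities

/-!
# S05 package P6n: the node data of the Frey curve

For an odd prime `q` and a valuation ring `A` of `ℚbar` over `q`:

* if `q ∣ ab`, then `x₀ = 0` is a node abscissa of the Frey curve, with `β = b₄ = -(ab)^p/8`;
* if `q ∣ c`, then `x₀ = a^p/4` is a node abscissa, with `β = (ac)^p/8`.
-/

set_option autoImplicit false

namespace Fermat.Agent.S05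

open WeierstrassCurve

local notation "ℚbar" => AlgebraicClosure ℚ

variable {P : FreyPackage} {q : ℕ} {A : ValuationSubring ℚbar}

/-- `8` is a unit of a valuation ring over an odd prime. -/
theorem S05_fn_valuation_eight (hq : q.Prime) (hq2 : q ≠ 2) (hA : (q : ℚbar) ∈ A.nonunits) :
    A.valuation (8 : ℚbar) = 1 := by
  have h2 := S05_valuation_two hq hq2 hA
  have : (8 : ℚbar) = 2 * 2 * 2 := by norm_num
  rw [this, map_mul, map_mul, h2]
  simp

/-- `4` is a unit of a valuation ring over an odd prime. -/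
theorem S05_fn_valuation_four (hq : q.Prime) (hq2 : q ≠ 2) (hA : (q : ℚbar) ∈ A.nonunits) :
    A.valuation (4 : ℚbar) = 1 := by
  have h2 := S05_valuation_two hq hq2 hA
  have : (4 : ℚbar) = 2 * 2 := by norm_num
  rw [this, map_mul, h2]
  simp

/-- valuation of an integer is at most one -/
theorem S05_fn_valuation_intCast_le (A : ValuationSubring ℚbar) (n : ℤ) :
    A.valuation (n : ℚbar) ≤ 1 :=
  (A.valuation_le_one_iff _).mpr (S05_intCast_mem A n)

/-- `v (x + y) = 1` if `v x < 1` and `v y = 1`. -/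
theorem S05_fn_valuation_add_eq_one {x y : ℚbar} (hx : A.valuation x < 1)
    (hy : A.valuation y = 1) : A.valuation (x + y) = 1 := by
  have h := Valuation.map_add_eq_of_lt_right A.valuation (x := x) (y := y) (by rw [hy]; exact hx)
  rw [h, hy]

theorem S05_frey_node_ab (hq : q.Prime) (hq2 : q ≠ 2) (hA : (q : ℚbar) ∈ A.nonunits)
    (hab : (q : ℤ) ∣ P.a * P.b) :
    S05_Node (P.freyCurve⁄ℚbar) A 0 ∧
      A.valuation ((P.freyCurve⁄ℚbar).b₄ + (P.freyCurve⁄ℚbar).b₂ * 0 + 6 * (0:ℚbar) ^ 2)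
        = A.valuation (((P.a * P.b : ℤ) : ℚbar)) ^ P.p := by
  have h8 := S05_fn_valuation_eight hq hq2 hA
  have hβ : (P.freyCurve⁄ℚbar).b₄ + (P.freyCurve⁄ℚbar).b₂ * 0 + 6 * (0:ℚbar) ^ 2
      = -(((P.a * P.b : ℤ) : ℚbar) ^ P.p) / 8 := by
    rw [S05_freyQbar_b₄]
    push_cast
    ring
  have hv : A.valuation ((P.freyCurve⁄ℚbar).b₄ + (P.freyCurve⁄ℚbar).b₂ * 0 + 6 * (0:ℚbar) ^ 2)
        = A.valuation (((P.a * P.b : ℤ) : ℚbar)) ^ P.p := by
    rw [hβ, map_div₀, h8, div_one, Valuation.map_neg, map_pow]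
  have hab' : A.valuation (((P.a * P.b : ℤ) : ℚbar)) < 1 := by
    rw [← ValuationSubring.mem_nonunits_iff]
    exact (S05_intCast_mem_nonunits_iff hq hA _).mpr hab
  have hqZ : Prime (q : ℤ) := Int.prime_iff_natAbs_prime.mpr (by simpa using hq)
  refine ⟨⟨S05_freyQbar_integral hq hq2 hA, S05_valuation_two hq hq2 hA, zero_mem A, ?_, ?_, ?_, ?_⟩,
    hv⟩
  · rw [S05_eval_Ψ₂Sq, S05_freyQbar_b₆]
    ring
  · rw [hβ]
    have h1 : ((P.a * P.b : ℤ) : ℚbar) ≠ 0 := by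
      exact_mod_cast mul_ne_zero P.ha0 P.hb0
    exact div_ne_zero (neg_ne_zero.mpr (pow_ne_zero _ h1)) (by norm_num)
  · rw [hv]
    exact pow_lt_one₀ zero_le hab' P.hp0
  · have hb₂ : (P.freyCurve⁄ℚbar).b₂ + 12 * 0 = (P.b : ℚbar) ^ P.p - (P.a : ℚbar) ^ P.p := by
      rw [S05_freyQbar_b₂]; ring
    rw [hb₂]
    rcases hqZ.dvd_or_dvd hab with ha | hb
    · -- `q ∣ a`, so `q ∤ b`
      have ha' : (P.a : ℚbar) ∈ A.nonunits := (S05_intCast_mem_nonunits_iff hq hA _).mpr ha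
      have hb' : (P.b : ℚbar) ∉ A.nonunits := S05_frey_not_both_ab hq hA ha'
      have hvb : A.valuation (P.b : ℚbar) = 1 :=
        S05_valuation_eq_one A (S05_intCast_mem A _) hb'
      have hva : A.valuation (-(P.a : ℚbar) ^ P.p) < 1 := by
        rw [Valuation.map_neg, map_pow]
        exact pow_lt_one₀ zero_le (A.mem_nonunits_iff.mp ha') P.hp0
      have := S05_fn_valuation_add_eq_one hva (y := (P.b : ℚbar) ^ P.p)
        (by rw [map_pow, hvb, one_pow])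
      rw [sub_eq_neg_add]
      exact this
    · have hb' : (P.b : ℚbar) ∈ A.nonunits := (S05_intCast_mem_nonunits_iff hq hA _).mpr hb
      have ha' : (P.a : ℚbar) ∉ A.nonunits := fun ha' => S05_frey_not_both_ab hq hA ha' hb'
      have hva : A.valuation (P.a : ℚbar) = 1 :=
        S05_valuation_eq_one A (S05_intCast_mem A _) ha'
      have hvb : A.valuation ((P.b : ℚbar) ^ P.p) < 1 := by
        rw [map_pow]
        exact pow_lt_one₀ zero_le (A.mem_nonunits_iff.mp hb') P.hp0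
      have := S05_fn_valuation_add_eq_one hvb (y := -(P.a : ℚbar) ^ P.p)
        (by rw [Valuation.map_neg, map_pow, hva, one_pow])
      rw [sub_eq_add_neg]
      exact this

theorem S05_frey_node_c (hq : q.Prime) (hq2 : q ≠ 2) (hA : (q : ℚbar) ∈ A.nonunits)
    (hc : (q : ℤ) ∣ P.c) :
    S05_Node (P.freyCurve⁄ℚbar) A ((P.a : ℚbar) ^ P.p / 4) ∧
      A.valuation ((P.freyCurve⁄ℚbar).b₄ + (P.freyCurve⁄ℚbar).b₂ * ((P.a : ℚbar) ^ P.p / 4)
          + 6 * ((P.a : ℚbar) ^ P.p / 4) ^ 2)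
        = A.valuation (((P.a * P.c : ℤ) : ℚbar)) ^ P.p := by
  have h8 := S05_fn_valuation_eight hq hq2 hA
  have h4 := S05_fn_valuation_four hq hq2 hA
  have hβ : (P.freyCurve⁄ℚbar).b₄ + (P.freyCurve⁄ℚbar).b₂ * ((P.a : ℚbar) ^ P.p / 4)
          + 6 * ((P.a : ℚbar) ^ P.p / 4) ^ 2
      = (((P.a * P.c : ℤ) : ℚbar) ^ P.p) / 8 := by
    rw [S05_freyQbar_b₄, S05_freyQbar_b₂]
    push_cast
    rw [mul_pow, ← S05_frey_eq P]
    ring
  have hv : A.valuation ((P.freyCurve⁄ℚbar).b₄ + (P.freyCurve⁄ℚbar).b₂ * ((P.a : ℚbar) ^ P.p / 4)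
          + 6 * ((P.a : ℚbar) ^ P.p / 4) ^ 2)
        = A.valuation (((P.a * P.c : ℤ) : ℚbar)) ^ P.p := by
    rw [hβ, map_div₀, h8, div_one, map_pow]
  have hc' : (P.c : ℚbar) ∈ A.nonunits := (S05_intCast_mem_nonunits_iff hq hA _).mpr hc
  have ha' : (P.a : ℚbar) ∉ A.nonunits := fun ha' => S05_frey_not_both_ac hq hA ha' hc'
  have hva : A.valuation (P.a : ℚbar) = 1 :=
    S05_valuation_eq_one A (S05_intCast_mem A _) ha'
  have hac' : A.valuation (((P.a * P.c : ℤ) : ℚbar)) < 1 := by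
    rw [← ValuationSubring.mem_nonunits_iff]
    exact (S05_intCast_mem_nonunits_iff hq hA _).mpr (Dvd.dvd.mul_left hc _)
  refine ⟨⟨S05_freyQbar_integral hq hq2 hA, S05_valuation_two hq hq2 hA, ?_, ?_, ?_, ?_, ?_⟩,
    hv⟩
  · rw [← A.valuation_le_one_iff, map_div₀, h4, div_one, map_pow, hva, one_pow]
  · rw [S05_eval_Ψ₂Sq, S05_freyQbar_b₆, S05_freyQbar_b₄, S05_freyQbar_b₂]
    ring
  · rw [hβ]
    have h1 : ((P.a * P.c : ℤ) : ℚbar) ≠ 0 := by
      exact_mod_cast mul_ne_zero P.ha0 P.hc0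
    exact div_ne_zero (pow_ne_zero _ h1) (by norm_num)
  · rw [hv]
    exact pow_lt_one₀ zero_le hac' P.hp0
  · have hb₂ : (P.freyCurve⁄ℚbar).b₂ + 12 * ((P.a : ℚbar) ^ P.p / 4)
        = (P.c : ℚbar) ^ P.p + (P.a : ℚbar) ^ P.p := by
      rw [S05_freyQbar_b₂, ← S05_frey_eq P]; ring
    rw [hb₂]
    have hvc : A.valuation ((P.c : ℚbar) ^ P.p) < 1 := by
      rw [map_pow]
      exact pow_lt_one₀ zero_le (A.mem_nonunits_iff.mp hc') P.hp0
    exact S05_fn_valuation_add_eq_one hvc (by rw [map_pow, hva, one_pow])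

end Fermat.Agent.S05
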