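import Mathlib
import Fermat.Agent.S05.Final
import Fermat.Agent.S05.FreyNode

/-!
# S05, final assembly for the Frey curve (modulo the node lemmas P5b, P5c)
-/

set_option autoImplicit false
set_option linter.unusedSectionVars false
set_option linter.unusedVariables false

namespace Fermat.Agent.S05

open WeierstrassCurve WeierstrassCurve.Affine WeierstrassCurve.Affine.Point Fermat.Agent.S51

local notation "ℚbar" => AlgebraicClosure ℚ

/-- The core of S05 for the Frey curve, from the level lemma (P5b) and the near-node lemma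
(P5c) for the Frey curve. -/
theorem S05_frey_core_of (P : FreyPackage) {q : ℕ} (hq : q.Prime) (hq2 : q ≠ 2)
    (hqp : q ≠ P.p) (A : ValuationSubring ℚbar) (hA : (q : ℚbar) ∈ A.nonunits)
    (hlevel : ∀ (x₀ : ℚbar), S05_Node (P.freyCurve⁄ℚbar) A x₀ →
      ∀ {x y : ℚbar} (h : (P.freyCurve⁄ℚbar).Nonsingular x y),
      P.p • (Point.some x y h : (P.freyCurve⁄ℚbar).Point) = 0 → A.valuation (x - x₀) < 1 →
      A.valuation ((P.freyCurve⁄ℚbar).b₄ + (P.freyCurve⁄ℚbar).b₂ * x₀ + 6 * x₀ ^ 2) <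
          A.valuation (x - x₀) ∧
        ∃ k : ℤ, A.valuation (x - x₀) ^ P.p =
          A.valuation ((P.freyCurve⁄ℚbar).b₄ + (P.freyCurve⁄ℚbar).b₂ * x₀ + 6 * x₀ ^ 2) ^ (2 * k))
    (hnear : ∀ (x₀ : ℚbar), S05_Node (P.freyCurve⁄ℚbar) A x₀ →
      ∀ {x y x' y' : ℚbar} (h : (P.freyCurve⁄ℚbar).Nonsingular x y)
        (h' : (P.freyCurve⁄ℚbar).Nonsingular x' y'),
      A.valuation (x - x₀) < 1 →
      A.valuation ((P.freyCurve⁄ℚbar).b₄ + (P.freyCurve⁄ℚbar).b₂ * x₀ + 6 * x₀ ^ 2) <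
        A.valuation (x - x₀) →
      A.valuation (x' - x) < A.valuation (x - x₀) →
      A.valuation ((2 * y' + (P.freyCurve⁄ℚbar).a₁ * x' + (P.freyCurve⁄ℚbar).a₃) * (x - x₀) -
        (2 * y + (P.freyCurve⁄ℚbar).a₁ * x + (P.freyCurve⁄ℚbar).a₃) * (x' - x₀)) <
          A.valuation (x - x₀) ^ 2 →
      S05_InE1 A ((Point.some x' y' h' : (P.freyCurve⁄ℚbar).Point) - Point.some x y h))
    (σ : ℚbar ≃ₐ[ℚ] ℚbar) (hσA : ∀ x, σ x ∈ A ↔ x ∈ A) (hσ : ∀ x ∈ A, σ x - x ∈ A.nonunits)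
    (Q : (P.freyCurve⁄ℚbar).Point) (hQ : P.p • Q = 0) : σ • Q = Q := by
  have hW : S05_Integral (P.freyCurve⁄ℚbar) A := S05_freyQbar_integral hq hq2 hA
  have h2 : A.valuation (2 : ℚbar) = 1 := S05_valuation_two hq hq2 hA
  have hvp : A.valuation (P.p : ℚbar) = 1 := S05_valuation_prime hq hA P.pp hqp
  have hp2 : P.p ≠ 2 := by have := P.hp5; omega
  have hqZ : Prime (q : ℤ) := Int.prime_iff_natAbs_prime.mpr (by simpa using hq)
  by_cases habc : (q : ℤ) ∣ P.a * P.b * P.c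
  · rcases hqZ.dvd_or_dvd habc with hab | hc
    · obtain ⟨hN, hβ⟩ := S05_frey_node_ab (P := P) hq hq2 hA hab
      exact S05_fix_node_of A hN P.pp hp2 hvp σ hσ hσA (map_zero σ)
        (r := ((P.a * P.b : ℤ) : ℚbar)) (map_intCast σ _) hβ (hlevel 0 hN) (hnear 0 hN) Q hQ
    · obtain ⟨hN, hβ⟩ := S05_frey_node_c (P := P) hq hq2 hA hc
      have hσx₀ : σ ((P.a : ℚbar) ^ P.p / 4) = (P.a : ℚbar) ^ P.p / 4 := by
        rw [map_div₀, map_pow, map_intCast, map_ofNat]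
      exact S05_fix_node_of A hN P.pp hp2 hvp σ hσ hσA hσx₀
        (r := ((P.a * P.c : ℤ) : ℚbar)) (map_intCast σ _) hβ (hlevel _ hN) (hnear _ hN) Q hQ
  · have hΔ := S05_frey_Δ_not_mem_nonunits A P hq hq2 hA habc
    exact S05_fix_good A hW h2 hΔ P.hp_odd hvp σ hσ hσA Q hQ

end Fermat.Agent.S05
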