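import Mathlib

/-!
# S05, package P2: the two roots of a quadratic over a valued field

`z₁ + z₂ = S`, `z₁ * z₂ = Π`.
* `S05_quad_eq`   : `v S ^ 2 ≤ v Π` ⇒ `v z₁ = v z₂` and `v z₁ ^ 2 = v Π`.
* `S05_quad_split`: `v Π < v S ^ 2` ⇒ one root has valuation `v S`, the other `v Π / v S`.
-/

set_option autoImplicit false

namespace Fermat.Agent.S05

variable {K : Type*} [Field K] {Γ₀ : Type*} [LinearOrderedCommGroupWithZero Γ₀]
  (v : Valuation K Γ₀)

/-- If the valuations of the two roots differ, the sum has the bigger valuation. -/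
theorem S05_quad_of_lt {z₁ z₂ : K} (h : v z₂ < v z₁) :
    v (z₁ + z₂) = v z₁ ∧ v (z₁ * z₂) < v (z₁ + z₂) ^ 2 := by
  have hs : v (z₁ + z₂) = v z₁ := Valuation.map_add_eq_of_lt_left v h
  refine ⟨hs, ?_⟩
  rw [hs, map_mul, pow_two]
  have h0 : 0 < v z₁ := lt_of_le_of_lt zero_le h
  exact mul_lt_mul_of_pos_left h h0

/-- **Quadratic lemma, equal case.** -/
theorem S05_quad_eq {z₁ z₂ S P : K} (hS : z₁ + z₂ = S) (hP : z₁ * z₂ = P)
    (h : v S ^ 2 ≤ v P) : v z₁ = v z₂ ∧ v z₁ ^ 2 = v P ∧ v z₂ ^ 2 = v P := by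
  have heq : v z₁ = v z₂ := by
    by_contra hne
    rcases lt_or_gt_of_ne hne with h1 | h1
    · have := S05_quad_of_lt v h1
      rw [add_comm, mul_comm, hS, hP] at this
      exact absurd this.2 (not_lt.2 h)
    · have := S05_quad_of_lt v h1
      rw [hS, hP] at this
      exact absurd this.2 (not_lt.2 h)
  refine ⟨heq, ?_, ?_⟩
  · rw [← hP, map_mul, ← heq, pow_two]
  · rw [← hP, map_mul, heq, pow_two]

/-- **Quadratic lemma, split case.** -/
theorem S05_quad_split {z₁ z₂ S P : K} (hS : z₁ + z₂ = S) (hP : z₁ * z₂ = P)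
    (h : v P < v S ^ 2) :
    (v z₁ = v S ∧ v z₂ * v S = v P) ∨ (v z₂ = v S ∧ v z₁ * v S = v P) := by
  have hne : v z₁ ≠ v z₂ := by
    intro heq
    have h1 : v S ≤ v z₁ := by
      rw [← hS]
      exact (Valuation.map_add v z₁ z₂).trans (by rw [heq, max_self])
    have h2 : v P = v z₁ ^ 2 := by rw [← hP, map_mul, ← heq, pow_two]
    rw [h2] at h
    have : v S ^ 2 ≤ v z₁ ^ 2 := pow_le_pow_left₀ zero_le h1 2
    exact absurd h (not_lt.2 this)
  rcases lt_or_gt_of_ne hne with h1 | h1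
  · right
    have := (S05_quad_of_lt v h1).1
    rw [add_comm, hS] at this
    refine ⟨this.symm, ?_⟩
    rw [this, ← hP, map_mul]
  · left
    have := (S05_quad_of_lt v h1).1
    rw [hS] at this
    refine ⟨this.symm, ?_⟩
    rw [this, ← hP, map_mul, mul_comm]

/-- Skeleton form (P2): dominant case. -/
theorem S05_quad_dominant {z₁ z₂ : K} (h : v (z₁ * z₂) < v (z₁ + z₂) ^ 2) :
    (v z₁ = v (z₁ + z₂) ∧ v z₂ * v (z₁ + z₂) = v (z₁ * z₂)) ∨
      (v z₂ = v (z₁ + z₂) ∧ v z₁ * v (z₁ + z₂) = v (z₁ * z₂)) :=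
  S05_quad_split v rfl rfl h

/-- Skeleton form (P2): balanced case. -/
theorem S05_quad_balanced {z₁ z₂ : K} (h : v (z₁ + z₂) ^ 2 ≤ v (z₁ * z₂)) :
    v z₁ = v z₂ ∧ v z₁ ^ 2 = v (z₁ * z₂) :=
  ⟨(S05_quad_eq v rfl rfl h).1, (S05_quad_eq v rfl rfl h).2.1⟩

end Fermat.Agent.S05
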