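import Mathlib
import Fermat.Agent.S05.Quad
import Fermat.Agent.S05.NodeDefs

/-!
# S05, package P5a (field level tools): clipped valuations and scaled quadratic lemmas

`v : Valuation K Γ`, `μ = v β`, `0 < μ < 1`, `S05_clip μ g = max μ (min 1 g)`.

* `S05_clip_of_one_le`, `S05_clip_of_le`, `S05_clip_of_mem` : computing the clip.
* `S05_la_rel_refl`, `S05_la_rel_inv`, `S05_la_rel_inv_mul_sq`, `S05_la_rel_of_inv`,
  `S05_la_rel_sq_one` : the relation `S05_Rel`.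
* scaled quadratic lemmas for `v (z₁ z₂) d² = n²`, `v (z₁ + z₂) d² = s`:
  `S05_la_quad_dom` (`n d < s`), `S05_la_quad_bal` (`s ≤ n d`), `S05_la_quad_le`, `S05_la_quad_ge`.
* `S05_la_val_sub_le`, `S05_la_val_add_le`, `S05_la_val_sub_of_lt`, `S05_la_val_sub_of_gt` :
  the valuation of `2Y ∓ β`.
* `S05_la_fold` : `v R * v Y = v (2Y - β)²`, `μ² ≤ v Y ≤ 1` ⇒ `S05_Rel μ (v Y) (clip (v R))`.
-/

set_option autoImplicit false

namespace Fermat.Agent.S05

variable {K : Type*} [Field K] {Γ : Type*} [LinearOrderedCommGroupWithZero Γ]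

/-- clip to `[μ, 1]`. -/
def S05_clip (μ g : Γ) : Γ := max μ (min 1 g)

section clip

variable {μ g : Γ}

lemma S05_clip_of_one_le (hμ : μ ≤ 1) (h : 1 ≤ g) : S05_clip μ g = 1 := by
  simp [S05_clip, min_eq_left h, max_eq_right hμ]

lemma S05_clip_of_le (hμ : μ ≤ 1) (h : g ≤ μ) : S05_clip μ g = μ := by
  simp [S05_clip, min_eq_right (h.trans hμ), max_eq_left h]

lemma S05_clip_of_mem (h1 : μ ≤ g) (h2 : g ≤ 1) : S05_clip μ g = g := by
  simp [S05_clip, min_eq_right h2, max_eq_right h1]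

end clip

section rel

lemma S05_la_rel_refl (μ g : Γ) : S05_Rel μ g g := ⟨0, Or.inl (by simp)⟩

lemma S05_la_rel_inv (μ g : Γ) : S05_Rel μ g g⁻¹ := ⟨0, Or.inr (by simp)⟩

lemma S05_la_rel_inv_mul_sq (μ g : Γ) : S05_Rel μ g (g⁻¹ * μ ^ 2) :=
  ⟨1, Or.inr (by norm_num [zpow_ofNat])⟩

lemma S05_la_rel_of_inv {μ g h : Γ} (H : S05_Rel μ g⁻¹ h) : S05_Rel μ g h := by
  obtain ⟨k, hk | hk⟩ := H
  · exact ⟨k, Or.inr hk⟩
  · exact ⟨k, Or.inl (by rw [hk, inv_inv])⟩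

lemma S05_la_rel_sq_one {μ : Γ} (hμ : μ ≠ 0) : S05_Rel μ (μ * μ) 1 := by
  refine ⟨1, Or.inr ?_⟩
  have : μ ^ (2 * (1 : ℤ)) = μ * μ := by norm_num [zpow_ofNat, pow_two]
  rw [this, inv_mul_cancel₀ (mul_ne_zero hμ hμ)]

end rel

section quad

variable (v : Valuation K Γ) {z₁ z₂ : K} {d n s : Γ}

/-- scaled dominant case. -/
theorem S05_la_quad_dom (hd : 0 < d)
    (hP : v (z₁ * z₂) * d ^ 2 = n ^ 2) (hS : v (z₁ + z₂) * d ^ 2 = s) (h : n * d < s) :
    (v z₁ * d ^ 2 = s ∧ v z₂ * s = n ^ 2) ∨ (v z₂ * d ^ 2 = s ∧ v z₁ * s = n ^ 2) := by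
  have hd2 : 0 < d ^ 2 := pow_pos hd 2
  have key : v (z₁ * z₂) < v (z₁ + z₂) ^ 2 := by
    have h1 : v (z₁ * z₂) * (d ^ 2 * d ^ 2) < v (z₁ + z₂) ^ 2 * (d ^ 2 * d ^ 2) := by
      have e1 : v (z₁ * z₂) * (d ^ 2 * d ^ 2) = (n * d) ^ 2 := by
        rw [← mul_assoc, hP, mul_pow]
      have e2 : v (z₁ + z₂) ^ 2 * (d ^ 2 * d ^ 2) = s ^ 2 := by
        rw [← hS, mul_pow, pow_two (d ^ 2)]
      rw [e1, e2]
      exact pow_lt_pow_left₀ h zero_le two_ne_zero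
    exact lt_of_mul_lt_mul_right h1 zero_le
  rcases S05_quad_dominant v key with ⟨h1, h2⟩ | ⟨h1, h2⟩
  · left
    refine ⟨by rw [h1, hS], ?_⟩
    rw [← hS, ← mul_assoc, h2, hP]
  · right
    refine ⟨by rw [h1, hS], ?_⟩
    rw [← hS, ← mul_assoc, h2, hP]

/-- scaled balanced case. -/
theorem S05_la_quad_bal (hd : 0 < d)
    (hP : v (z₁ * z₂) * d ^ 2 = n ^ 2) (hS : v (z₁ + z₂) * d ^ 2 = s) (h : s ≤ n * d) :
    v z₁ * d = n ∧ v z₂ * d = n := by
  have hd2 : 0 < d ^ 2 := pow_pos hd 2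
  have key : v (z₁ + z₂) ^ 2 ≤ v (z₁ * z₂) := by
    have h1 : v (z₁ + z₂) ^ 2 * (d ^ 2 * d ^ 2) ≤ v (z₁ * z₂) * (d ^ 2 * d ^ 2) := by
      have e1 : v (z₁ * z₂) * (d ^ 2 * d ^ 2) = (n * d) ^ 2 := by
        rw [← mul_assoc, hP, mul_pow]
      have e2 : v (z₁ + z₂) ^ 2 * (d ^ 2 * d ^ 2) = s ^ 2 := by
        rw [← hS, mul_pow, pow_two (d ^ 2)]
      rw [e1, e2]
      exact pow_le_pow_left₀ zero_le h 2
    exact le_of_mul_le_mul_right h1 (mul_pos hd2 hd2)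
  obtain ⟨h1, h2⟩ := S05_quad_balanced v key
  have e : v z₁ * d = n := by
    have : (v z₁ * d) ^ 2 = n ^ 2 := by rw [mul_pow, h2, hP]
    exact (pow_left_inj₀ zero_le zero_le two_ne_zero).1 this
  exact ⟨e, by rw [← h1]; exact e⟩

/-- both roots are small. -/
theorem S05_la_quad_le {c : Γ} (hd : 0 < d)
    (hP : v (z₁ * z₂) * d ^ 2 = n ^ 2) (hS : v (z₁ + z₂) * d ^ 2 = s)
    (hs : s ≤ c * d ^ 2) (hn : n ≤ c * d) : v z₁ ≤ c ∧ v z₂ ≤ c := by
  have hd2 : 0 < d ^ 2 := pow_pos hd 2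
  have hσ : v (z₁ + z₂) ≤ c := by
    rw [← hS] at hs
    exact le_of_mul_le_mul_right hs hd2
  have hπ : v (z₁ * z₂) ≤ c * c := by
    have : v (z₁ * z₂) * d ^ 2 ≤ c * c * d ^ 2 := by
      rw [hP]
      calc n ^ 2 ≤ (c * d) ^ 2 := pow_le_pow_left₀ zero_le hn 2
        _ = c * c * d ^ 2 := by rw [mul_pow, pow_two c]
    exact le_of_mul_le_mul_right this hd2
  have aux : ∀ a b : K, v (a + b) ≤ c → v (a * b) ≤ c * c → v a ≤ c := by
    intro a b h1 h2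
    by_contra hc
    rw [not_le] at hc
    rcases lt_or_ge (v b) (v a) with hlt | hge
    · rw [Valuation.map_add_eq_of_lt_left v hlt] at h1
      exact absurd h1 (not_le.2 hc)
    · have : c * c < v a * v b := mul_lt_mul'' hc (hc.trans_le hge) zero_le zero_le
      rw [map_mul] at h2
      exact absurd h2 (not_le.2 this)
  refine ⟨aux z₁ z₂ hσ hπ, aux z₂ z₁ ?_ ?_⟩
  · rwa [add_comm]
  · rwa [mul_comm]

/-- both roots are big. -/
theorem S05_la_quad_ge (hd : 0 < d)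
    (hP : v (z₁ * z₂) * d ^ 2 = n ^ 2) (hS : v (z₁ + z₂) * d ^ 2 = s)
    (hdn : d ≤ n) (hs : s ≤ n ^ 2) : 1 ≤ v z₁ ∧ 1 ≤ v z₂ := by
  have hd2 : 0 < d ^ 2 := pow_pos hd 2
  have hπ : 1 ≤ v (z₁ * z₂) := by
    have : 1 * d ^ 2 ≤ v (z₁ * z₂) * d ^ 2 := by
      rw [hP, one_mul]
      exact pow_le_pow_left₀ zero_le hdn 2
    exact le_of_mul_le_mul_right this hd2
  have hσ : v (z₁ + z₂) ≤ v (z₁ * z₂) := by
    have : v (z₁ + z₂) * d ^ 2 ≤ v (z₁ * z₂) * d ^ 2 := by rw [hP, hS]; exact hs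
    exact le_of_mul_le_mul_right this hd2
  have aux : ∀ a b : K, 1 ≤ v (a * b) → v (a + b) ≤ v (a * b) → 1 ≤ v a := by
    intro a b h1 h2
    by_contra hc
    rw [not_le] at hc
    have hb0 : 0 < v b := by
      rw [zero_lt_iff]
      intro h0
      rw [map_mul, h0, mul_zero] at h1
      exact absurd h1 (not_le.2 zero_lt_one)
    have hlt : v (a * b) < v b := by
      rw [map_mul]
      exact mul_lt_of_lt_one_left hb0 hc
    have hab : v a < v b := hc.trans_le (h1.trans hlt.le)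
    rw [Valuation.map_add_eq_of_lt_right v hab] at h2
    exact absurd h2 (not_le.2 hlt)
  refine ⟨aux z₁ z₂ hπ hσ, aux z₂ z₁ ?_ ?_⟩
  · rwa [mul_comm]
  · rwa [add_comm, mul_comm]

end quad

section num

variable (v : Valuation K Γ) {Y β : K}

lemma S05_la_val_two_mul (h2 : v 2 = 1) (Y : K) : v (2 * Y) = v Y := by
  rw [map_mul, h2, one_mul]

lemma S05_la_val_four (h2 : v 2 = 1) : v (4 : K) = 1 := by
  have : (4 : K) = 2 * 2 := by norm_num
  rw [this, map_mul, h2, one_mul]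

lemma S05_la_val_sub_le (h2 : v 2 = 1) : v (2 * Y - β) ≤ max (v Y) (v β) := by
  have := Valuation.map_sub v (2 * Y) β
  rwa [S05_la_val_two_mul v h2] at this

lemma S05_la_val_add_le (h2 : v 2 = 1) : v (2 * Y + β) ≤ max (v Y) (v β) := by
  have := Valuation.map_add v (2 * Y) β
  rwa [S05_la_val_two_mul v h2] at this

lemma S05_la_val_sub_of_lt (h2 : v 2 = 1) (h : v Y < v β) : v (2 * Y - β) = v β := by
  rw [← S05_la_val_two_mul v h2] at h
  exact Valuation.map_sub_eq_of_lt_right v h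

lemma S05_la_val_sub_of_gt (h2 : v 2 = 1) (h : v β < v Y) : v (2 * Y - β) = v Y := by
  rw [← S05_la_val_two_mul v h2 Y] at h
  rw [Valuation.map_sub_eq_of_lt_left v h, S05_la_val_two_mul v h2]

/-- the "fold" lemma: the second root in the dominant case. -/
lemma S05_la_fold {R : K} (h2 : v 2 = 1) (hβ0 : β ≠ 0) (hβ1 : v β < 1)
    (hw1 : v Y ≤ 1) (hw2 : v β ^ 2 ≤ v Y) (hR : v R * v Y = v (2 * Y - β) ^ 2) :
    S05_Rel (v β) (v Y) (S05_clip (v β) (v R)) := by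
  have hμ0 : 0 < v β := zero_lt_iff.2 ((Valuation.ne_zero_iff v).2 hβ0)
  have hw0 : 0 < v Y := lt_of_lt_of_le (pow_pos hμ0 2) hw2
  rcases lt_trichotomy (v Y) (v β) with hlt | heq | hgt
  · rw [S05_la_val_sub_of_lt v h2 hlt] at hR
    have e : v R = (v Y)⁻¹ * v β ^ 2 := by
      rw [← hR, mul_comm (v R), inv_mul_cancel_left₀ hw0.ne']
    have hc : S05_clip (v β) (v R) = v R := by
      apply S05_clip_of_mem
      · rw [e, ← mul_le_mul_iff_right₀ hw0, mul_inv_cancel_left₀ hw0.ne', pow_two]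
        exact mul_le_mul' hlt.le le_rfl
      · rw [e, ← mul_le_mul_iff_right₀ hw0, mul_inv_cancel_left₀ hw0.ne', mul_one]
        exact hw2
    rw [hc, e]
    exact S05_la_rel_inv_mul_sq _ _
  · have hn : v (2 * Y - β) ≤ v β := by
      have := S05_la_val_sub_le v (Y := Y) (β := β) h2
      rwa [heq, max_self] at this
    have hle : v R ≤ v β := by
      have : v R * v β ≤ v β * v β := by
        rw [← heq, hR, heq, pow_two]
        exact mul_le_mul' hn hn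
      exact le_of_mul_le_mul_right this hμ0
    rw [S05_clip_of_le hβ1.le hle, heq]
    exact S05_la_rel_refl _ _
  · rw [S05_la_val_sub_of_gt v h2 hgt] at hR
    have e : v R = v Y := by
      have : v R * v Y = v Y * v Y := by rw [hR, pow_two]
      exact mul_right_cancel₀ hw0.ne' this
    rw [S05_clip_of_mem (e ▸ hgt.le) (e ▸ hw1), e]
    exact S05_la_rel_refl _ _

end num

end Fermat.Agent.S05
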