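import Mathlib
import Fermat.Agent.S05.Quad
import Fermat.Agent.S05.NodeDefs
import Fermat.Agent.S05.LvlQuad

/-!
# S05, package P5a (field level core): the multiset identity for clipped valuations

`S05_la_core` : from the shifted identities `(Π')`, `(Σ')` the multiset identity
`{clip Z₁, clip Z₂} ~ {clip X₁ * clip X₂, clip X₁ / clip X₂}`.
-/

set_option autoImplicit false

namespace Fermat.Agent.S05

variable {K : Type*} [Field K] {Γ : Type*} [LinearOrderedCommGroupWithZero Γ]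

section gamma

variable {μ g₁ g₂ d r : Γ}

/-- first root in the dominant case. -/
lemma S05_la_root1 (hμ1 : μ < 1) (h : r * d ^ 2 = g₁ * g₂) (hd0 : 0 < d) (hdle : d ≤ g₁)
    (hdeq : g₂ < g₁ → d = g₁) (hle : g₂ ≤ g₁) (h4 : μ < g₂) (h1 : g₁ < 1) :
    S05_Rel μ (g₁ / g₂) (S05_clip μ r) := by
  have hg₁0 : 0 < g₁ := hd0.trans_le hdle
  rcases hle.lt_or_eq with hlt | heq
  · rw [hdeq hlt] at h
    have e : r * g₁ = g₂ := by
      have : r * g₁ * g₁ = g₂ * g₁ := by rw [mul_assoc, ← pow_two, h, mul_comm]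
      exact mul_right_cancel₀ hg₁0.ne' this
    have er : r = (g₁ / g₂)⁻¹ := by
      rw [inv_div, ← e, mul_div_assoc, div_self hg₁0.ne', mul_one]
    have hc : S05_clip μ r = r := by
      apply S05_clip_of_mem
      · have : μ * g₁ ≤ r * g₁ := by
          rw [e]
          exact (mul_le_of_le_one_right' h1.le).trans h4.le
        exact le_of_mul_le_mul_right this hg₁0
      · have : r * g₁ ≤ 1 * g₁ := by rw [e, one_mul]; exact hle
        exact le_of_mul_le_mul_right this hg₁0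
    rw [hc, er]
    exact S05_la_rel_inv _ _
  · have hr : 1 ≤ r := by
      have : 1 * d ^ 2 ≤ r * d ^ 2 := by
        rw [h, one_mul, heq, ← pow_two]
        exact pow_le_pow_left₀ zero_le hdle 2
      exact le_of_mul_le_mul_right this (pow_pos hd0 2)
    rw [S05_clip_of_one_le hμ1.le hr, heq, div_self hg₁0.ne']
    exact S05_la_rel_refl _ _

end gamma

section core

variable (v : Valuation K Γ) {X₁ X₂ Z₁ Z₂ β b : K}

/-- the core under the normalisation `v X₂ ≤ v X₁`. -/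
theorem S05_la_core_aux (h2 : v 2 = 1) (hb : v b = 1) (hβ0 : β ≠ 0) (hβ1 : v β < 1)
    (hne : X₁ ≠ X₂)
    (hPi : 4 * (Z₁ * Z₂) * (X₁ - X₂) ^ 2 = (2 * (X₁ * X₂) - β) ^ 2)
    (hSi : (Z₁ + Z₂) * (X₁ - X₂) ^ 2 = (X₁ + X₂) * (2 * (X₁ * X₂) + β) + b * (X₁ * X₂))
    (hle : v X₂ ≤ v X₁) :
    (S05_Rel (v β) (S05_clip (v β) (v X₁) * S05_clip (v β) (v X₂)) (S05_clip (v β) (v Z₁)) ∧
      S05_Rel (v β) (S05_clip (v β) (v X₁) / S05_clip (v β) (v X₂))
        (S05_clip (v β) (v Z₂))) ∨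
    (S05_Rel (v β) (S05_clip (v β) (v X₁) / S05_clip (v β) (v X₂)) (S05_clip (v β) (v Z₁)) ∧
      S05_Rel (v β) (S05_clip (v β) (v X₁) * S05_clip (v β) (v X₂))
        (S05_clip (v β) (v Z₂))) := by
  have hμ0 : 0 < v β := zero_lt_iff.2 ((Valuation.ne_zero_iff v).2 hβ0)
  have hd0 : 0 < v (X₁ - X₂) := zero_lt_iff.2 ((Valuation.ne_zero_iff v).2 (sub_ne_zero.2 hne))
  have hdle : v (X₁ - X₂) ≤ v X₁ := (Valuation.map_sub v X₁ X₂).trans (max_le le_rfl hle)
  have hdeq : v X₂ < v X₁ → v (X₁ - X₂) = v X₁ := fun h => Valuation.map_sub_eq_of_lt_left v h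
  have hg₁0 : 0 < v X₁ := hd0.trans_le hdle
  have hP : v (Z₁ * Z₂) * v (X₁ - X₂) ^ 2 = v (2 * (X₁ * X₂) - β) ^ 2 := by
    have := congrArg v hPi
    rwa [map_mul, map_mul, map_pow, map_pow, S05_la_val_four v h2, one_mul] at this
  have hS : v (Z₁ + Z₂) * v (X₁ - X₂) ^ 2 =
      v ((X₁ + X₂) * (2 * (X₁ * X₂) + β) + b * (X₁ * X₂)) := by
    have := congrArg v hSi
    rwa [map_mul, map_pow] at this
  have ht : v (X₁ + X₂) ≤ v X₁ := (Valuation.map_add v X₁ X₂).trans (max_le le_rfl hle)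
  have hY : v (X₁ * X₂) = v X₁ * v X₂ := map_mul v _ _
  have hbY : v (b * (X₁ * X₂)) = v X₁ * v X₂ := by rw [map_mul, hb, one_mul, map_mul]
  have hn_le : v (2 * (X₁ * X₂) - β) ≤ max (v X₁ * v X₂) (v β) := by
    rw [← hY]; exact S05_la_val_sub_le v h2
  have hnp_le : v (2 * (X₁ * X₂) + β) ≤ max (v X₁ * v X₂) (v β) := by
    rw [← hY]; exact S05_la_val_add_le v h2
  have hn_lt : v X₁ * v X₂ < v β → v (2 * (X₁ * X₂) - β) = v β := fun h =>
    S05_la_val_sub_of_lt v h2 (by rwa [hY])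
  have hn_gt : v β < v X₁ * v X₂ → v (2 * (X₁ * X₂) - β) = v X₁ * v X₂ := fun h => by
    rw [S05_la_val_sub_of_gt v h2 (by rwa [hY]), hY]
  -- bound for `s`
  have hs_le : ∀ c : Γ, v (2 * (X₁ * X₂) + β) ≤ c → v X₁ * v X₂ ≤ v X₁ * c →
      v ((X₁ + X₂) * (2 * (X₁ * X₂) + β) + b * (X₁ * X₂)) ≤ v X₁ * c := by
    intro c hc hc'
    refine (Valuation.map_add v _ _).trans (max_le ?_ ?_)
    · rw [map_mul]; exact mul_le_mul' ht hc
    · rw [hbY]; exact hc'
  rcases lt_or_ge (v X₁) 1 with h1 | h1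
  · rcases le_or_gt (v X₁) (v β) with h3 | h3
    · -- Case C : g₂ ≤ g₁ ≤ μ
      have hY_lt : v X₁ * v X₂ < v β :=
        (mul_le_mul' h3 (hle.trans h3)).trans_lt (mul_lt_of_lt_one_left hμ0 hβ1)
      have hn := hn_lt hY_lt
      have hnp : v (2 * (X₁ * X₂) + β) ≤ v β := hnp_le.trans (max_le hY_lt.le le_rfl)
      have hs := hs_le (v β) hnp (mul_le_mul' le_rfl (hle.trans h3))
      have hs' : v ((X₁ + X₂) * (2 * (X₁ * X₂) + β) + b * (X₁ * X₂)) ≤
          v (2 * (X₁ * X₂) - β) ^ 2 := by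
        rw [hn, pow_two]
        exact hs.trans (mul_le_mul' h3 le_rfl)
      obtain ⟨hz₁, hz₂⟩ := S05_la_quad_ge v hd0 hP hS (by rw [hn]; exact hdle.trans h3) hs'
      rw [S05_clip_of_le hβ1.le h3, S05_clip_of_le hβ1.le (hle.trans h3),
        S05_clip_of_one_le hβ1.le hz₁, S05_clip_of_one_le hβ1.le hz₂, div_self hμ0.ne']
      exact Or.inl ⟨S05_la_rel_sq_one hμ0.ne', S05_la_rel_refl _ _⟩
    · rcases le_or_gt (v X₂) (v β) with h4 | h4
      · -- Case B : g₂ ≤ μ < g₁ < 1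
        have hd := hdeq (h4.trans_lt h3)
        have hY_lt : v X₁ * v X₂ < v β :=
          (mul_le_mul' le_rfl h4).trans_lt (mul_lt_of_lt_one_left hμ0 h1)
        have hn := hn_lt hY_lt
        have hnp : v (2 * (X₁ * X₂) + β) ≤ v β := hnp_le.trans (max_le hY_lt.le le_rfl)
        have hs := hs_le (v β) hnp (mul_le_mul' le_rfl h4)
        have hs' : v ((X₁ + X₂) * (2 * (X₁ * X₂) + β) + b * (X₁ * X₂)) ≤
            v (2 * (X₁ * X₂) - β) * v (X₁ - X₂) := by
          rw [hn, hd, mul_comm (v β) (v X₁)]; exact hs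
        obtain ⟨hz₁, hz₂⟩ := S05_la_quad_bal v hd0 hP hS hs'
        rw [hn, hd] at hz₁ hz₂
        have key : ∀ z : Γ, z * v X₁ = v β → S05_clip (v β) z = (v X₁)⁻¹ * v β := by
          intro z hz
          have ez : z = (v X₁)⁻¹ * v β := by
            rw [← hz, mul_comm z, inv_mul_cancel_left₀ hg₁0.ne']
          rw [← ez]
          apply S05_clip_of_mem
          · have : v β * v X₁ ≤ z * v X₁ := by
              rw [hz]; exact mul_le_of_le_one_right' h1.le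
            exact le_of_mul_le_mul_right this hg₁0
          · have : z * v X₁ ≤ 1 * v X₁ := by rw [hz, one_mul]; exact h3.le
            exact le_of_mul_le_mul_right this hg₁0
        rw [S05_clip_of_mem h3.le h1.le, S05_clip_of_le hβ1.le h4, key _ hz₁, key _ hz₂]
        left
        constructor
        · have := S05_la_rel_inv_mul_sq (v β) (v X₁ * v β)
          rwa [mul_inv, pow_two, mul_assoc, inv_mul_cancel_left₀ hμ0.ne'] at this
        · have e : (v X₁ / v β)⁻¹ = (v X₁)⁻¹ * v β := by rw [inv_div, div_eq_inv_mul]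
          rw [← e]
          exact S05_la_rel_inv _ _
      · -- Case AF : μ < g₂ ≤ g₁ < 1
        have hg₂0 : 0 < v X₂ := hμ0.trans h4
        have hM : max (v X₁ * v X₂) (v β) < v X₂ :=
          max_lt (mul_lt_of_lt_one_left hg₂0 h1) h4
        have hn_lt' : v (2 * (X₁ * X₂) - β) < v X₂ := hn_le.trans_lt hM
        have hnp_lt : v (2 * (X₁ * X₂) + β) < v X₂ := hnp_le.trans_lt hM
        have hs : v ((X₁ + X₂) * (2 * (X₁ * X₂) + β) + b * (X₁ * X₂)) = v X₁ * v X₂ := by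
          rw [← hbY]
          apply Valuation.map_add_eq_of_lt_right
          rw [hbY, map_mul]
          exact (mul_le_mul' ht le_rfl).trans_lt (mul_lt_mul_of_pos_left hnp_lt hg₁0)
        rw [hs] at hS
        have hdom : v (2 * (X₁ * X₂) - β) * v (X₁ - X₂) < v X₁ * v X₂ := by
          rw [mul_comm (v X₁)]
          exact (mul_le_mul' le_rfl hdle).trans_lt (mul_lt_mul_of_pos_right hn_lt' hg₁0)
        have hw1 : v (X₁ * X₂) ≤ 1 := by
          rw [hY]; exact (mul_le_mul' h1.le (hle.trans h1.le)).trans (by rw [one_mul])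
        have hw2 : v β ^ 2 ≤ v (X₁ * X₂) := by
          rw [hY, pow_two]; exact mul_le_mul' h3.le h4.le
        rw [S05_clip_of_mem h3.le h1.le, S05_clip_of_mem h4.le (hle.trans h1.le)]
        rcases S05_la_quad_dom v hd0 hP hS hdom with ⟨hr, hr'⟩ | ⟨hr, hr'⟩
        · right
          refine ⟨S05_la_root1 hβ1 hr hd0 hdle hdeq hle h4 h1, ?_⟩
          rw [← hY] at hr' ⊢
          exact S05_la_fold v h2 hβ0 hβ1 hw1 hw2 hr'
        · left
          refine ⟨?_, S05_la_root1 hβ1 hr hd0 hdle hdeq hle h4 h1⟩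
          rw [← hY] at hr' ⊢
          exact S05_la_fold v h2 hβ0 hβ1 hw1 hw2 hr'
  · have h1' : v X₁ ≤ v X₁ * v X₁ := le_mul_of_one_le_right' h1
    rcases lt_or_ge (v X₂) 1 with h5 | h5
    · -- Case D : g₂ < 1 ≤ g₁
      have hd := hdeq (h5.trans_le h1)
      rw [S05_clip_of_one_le hβ1.le h1, one_mul, one_div]
      have fin : S05_clip (v β) (v Z₁) = S05_clip (v β) (v X₂) ∧
          S05_clip (v β) (v Z₂) = S05_clip (v β) (v X₂) := by
        rcases le_or_gt (v X₁ * v X₂) (v β) with h6 | h6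
        · -- D1
          have hg₂ : v X₂ ≤ v β := (le_mul_of_one_le_left' h1).trans h6
          have hn : v (2 * (X₁ * X₂) - β) ≤ v β * v (X₁ - X₂) := by
            rw [hd]
            exact (hn_le.trans (max_le h6 le_rfl)).trans (le_mul_of_one_le_right' h1)
          have hnp : v (2 * (X₁ * X₂) + β) ≤ v β := hnp_le.trans (max_le h6 le_rfl)
          have hs := hs_le (v β) hnp (h6.trans (le_mul_of_one_le_left' h1))
          have hs' : v ((X₁ + X₂) * (2 * (X₁ * X₂) + β) + b * (X₁ * X₂)) ≤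
              v β * v (X₁ - X₂) ^ 2 := by
            rw [hd, pow_two, mul_comm (v β)]
            exact hs.trans (mul_le_mul' h1' le_rfl)
          obtain ⟨hz₁, hz₂⟩ := S05_la_quad_le v hd0 hP hS hs' hn
          rw [S05_clip_of_le hβ1.le hz₁, S05_clip_of_le hβ1.le hz₂, S05_clip_of_le hβ1.le hg₂]
          exact ⟨rfl, rfl⟩
        · -- D2
          have hn := hn_gt h6
          have hnp : v (2 * (X₁ * X₂) + β) ≤ v X₁ * v X₂ := hnp_le.trans (max_le le_rfl h6.le)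
          have hs := hs_le (v X₁ * v X₂) hnp (le_mul_of_one_le_left' h1)
          have hs' : v ((X₁ + X₂) * (2 * (X₁ * X₂) + β) + b * (X₁ * X₂)) ≤
              v (2 * (X₁ * X₂) - β) * v (X₁ - X₂) := by
            rw [hn, hd, mul_comm (v X₁ * v X₂) (v X₁)]; exact hs
          obtain ⟨hz₁, hz₂⟩ := S05_la_quad_bal v hd0 hP hS hs'
          rw [hn, hd, mul_comm (v X₁)] at hz₁ hz₂
          rw [mul_right_cancel₀ hg₁0.ne' hz₁, mul_right_cancel₀ hg₁0.ne' hz₂]
          exact ⟨rfl, rfl⟩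
      rw [fin.1, fin.2]
      exact Or.inl ⟨S05_la_rel_refl _ _,
        S05_la_rel_of_inv (by rw [inv_inv]; exact S05_la_rel_refl _ _)⟩
    · -- Case E : 1 ≤ g₂ ≤ g₁
      have hY1 : 1 ≤ v X₁ * v X₂ := (mul_le_mul' h1 h5).trans' (by rw [one_mul])
      have hn := hn_gt (hβ1.trans_le hY1)
      have hnp : v (2 * (X₁ * X₂) + β) ≤ v X₁ * v X₂ :=
        hnp_le.trans (max_le le_rfl (hβ1.le.trans hY1))
      have hs := hs_le (v X₁ * v X₂) hnp (le_mul_of_one_le_left' h1)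
      have hs' : v ((X₁ + X₂) * (2 * (X₁ * X₂) + β) + b * (X₁ * X₂)) ≤
          v (2 * (X₁ * X₂) - β) ^ 2 := by
        rw [hn, pow_two]
        exact hs.trans (mul_le_mul' (le_mul_of_one_le_right' h5) le_rfl)
      obtain ⟨hz₁, hz₂⟩ := S05_la_quad_ge v hd0 hP hS
        (by rw [hn]; exact hdle.trans (le_mul_of_one_le_right' h5)) hs'
      rw [S05_clip_of_one_le hβ1.le h1, S05_clip_of_one_le hβ1.le h5,
        S05_clip_of_one_le hβ1.le hz₁, S05_clip_of_one_le hβ1.le hz₂, one_mul, div_one]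
      exact Or.inl ⟨S05_la_rel_refl _ _, S05_la_rel_refl _ _⟩

/-- **Field-level core of the multiset identity.** -/
theorem S05_la_core (h2 : v 2 = 1) (hb : v b = 1) (hβ0 : β ≠ 0) (hβ1 : v β < 1)
    (hne : X₁ ≠ X₂)
    (hPi : 4 * (Z₁ * Z₂) * (X₁ - X₂) ^ 2 = (2 * (X₁ * X₂) - β) ^ 2)
    (hSi : (Z₁ + Z₂) * (X₁ - X₂) ^ 2 = (X₁ + X₂) * (2 * (X₁ * X₂) + β) + b * (X₁ * X₂)) :
    (S05_Rel (v β) (S05_clip (v β) (v X₁) * S05_clip (v β) (v X₂)) (S05_clip (v β) (v Z₁)) ∧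
      S05_Rel (v β) (S05_clip (v β) (v X₁) / S05_clip (v β) (v X₂))
        (S05_clip (v β) (v Z₂))) ∨
    (S05_Rel (v β) (S05_clip (v β) (v X₁) / S05_clip (v β) (v X₂)) (S05_clip (v β) (v Z₁)) ∧
      S05_Rel (v β) (S05_clip (v β) (v X₁) * S05_clip (v β) (v X₂))
        (S05_clip (v β) (v Z₂))) := by
  rcases le_total (v X₂) (v X₁) with hle | hle
  · exact S05_la_core_aux v h2 hb hβ0 hβ1 hne hPi hSi hle
  · have hPi' : 4 * (Z₁ * Z₂) * (X₂ - X₁) ^ 2 = (2 * (X₂ * X₁) - β) ^ 2 := by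
      rw [mul_comm X₂ X₁, ← hPi]; ring
    have hSi' : (Z₁ + Z₂) * (X₂ - X₁) ^ 2 =
        (X₂ + X₁) * (2 * (X₂ * X₁) + β) + b * (X₂ * X₁) := by
      rw [mul_comm X₂ X₁, add_comm X₂ X₁, ← hSi]; ring
    have key := S05_la_core_aux v h2 hb hβ0 hβ1 hne.symm hPi' hSi' hle
    have e : (S05_clip (v β) (v X₁) / S05_clip (v β) (v X₂))⁻¹ =
        S05_clip (v β) (v X₂) / S05_clip (v β) (v X₁) := inv_div _ _
    rw [mul_comm (S05_clip (v β) (v X₂)), ← e] at key
    rcases key with ⟨k1, k2⟩ | ⟨k1, k2⟩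
    · exact Or.inl ⟨k1, S05_la_rel_of_inv k2⟩
    · exact Or.inr ⟨S05_la_rel_of_inv k1, k2⟩

end core

end Fermat.Agent.S05
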