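import Mathlib
import Fermat.Agent.S51.TorsCommon
import Fermat.Agent.S05.Defs
import Fermat.Agent.S05.Identities
import Fermat.Agent.S05.NodeDefs

/-!
# S05, package P5a (doubling part): `lvl (2P) ~ lvl (P) ^ 2`
-/

set_option autoImplicit false
set_option linter.unusedSectionVars false
set_option linter.unusedVariables false

namespace Fermat.Agent.S05

open WeierstrassCurve Fermat.Agent.S51

section core

variable {K : Type*} [Field K] {Γ : Type*} [LinearOrderedCommGroupWithZero Γ]
  (v : Valuation K Γ)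

lemma S05_Rel_refl (μ g : Γ) : S05_Rel μ g g :=
  ⟨0, Or.inl (by simp)⟩

lemma S05_Rel_sq_one {μ : Γ} (hμ : μ ≠ 0) : S05_Rel μ (μ ^ 2) 1 :=
  ⟨1, Or.inr (by
    rw [mul_one, zpow_ofNat]
    exact (inv_mul_cancel₀ (pow_ne_zero 2 hμ)).symm)⟩

/-- the level of the double, when the double is `0`. -/
theorem S05_double_core_zero {X β b : K}
    (h2 : v 2 = 1) (hb : v b = 1) (hβ0 : β ≠ 0) (hβ1 : v β < 1)
    (hΨ : X * (4 * X ^ 2 + b * X + 2 * β) = 0) :
    S05_Rel (v β) ((max (v β) (min 1 (v X))) ^ 2) 1 := by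
  have hm0 : v β ≠ 0 := by rwa [ne_eq, map_eq_zero]
  have h4 : v (4 : K) = 1 := by
    have : (4 : K) = 2 * 2 := by norm_num
    rw [this, map_mul, h2, one_mul]
  rcases mul_eq_zero.1 hΨ with hX | hT
  · rw [hX, map_zero, min_eq_right zero_le, max_eq_left zero_le]
    exact S05_Rel_sq_one hm0
  · have hX0 : X ≠ 0 := by
      rintro rfl
      apply hβ0
      have : (2 : K) ≠ 0 := by intro h; rw [h, map_zero] at h2; exact zero_ne_one h2
      simpa [this] using hT
    have ha0 : v X ≠ 0 := by rwa [ne_eq, map_eq_zero]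
    have hprod : v X * v (4 * X + b) = v β := by
      have : X * (4 * X + b) = -(2 * β) := by linear_combination hT
      rw [← map_mul, this, Valuation.map_neg, map_mul, h2, one_mul]
    rcases lt_trichotomy (v X) 1 with hlt | heq | hgt
    · have h4X : v (4 * X) < v b := by rw [map_mul, h4, one_mul, hb]; exact hlt
      have : v (4 * X + b) = 1 := by
        rw [Valuation.map_add_eq_of_lt_right v h4X, hb]
      rw [this, mul_one] at hprod
      rw [hprod, min_eq_right hβ1.le, max_self]
      exact S05_Rel_sq_one hm0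
    · rw [heq, min_self, max_eq_right hβ1.le, one_pow]
      exact S05_Rel_refl _ _
    · exfalso
      have h4X : v b < v (4 * X) := by rw [map_mul, h4, one_mul, hb]; exact hgt
      have : v (4 * X + b) = v X := by
        rw [Valuation.map_add_eq_of_lt_left v h4X, map_mul, h4, one_mul]
      rw [this] at hprod
      have : (1 : Γ) < v X * v X := one_lt_mul_of_lt_of_le' hgt hgt.le
      rw [hprod] at this
      exact absurd hβ1 (not_lt.2 this.le)


/-- the level of the double, when the double is an affine point. -/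
theorem S05_double_core {X X₂ β b : K}
    (h2 : v 2 = 1) (hb : v b = 1) (hβ0 : β ≠ 0) (hβ1 : v β < 1)
    (hΨ : X * (4 * X ^ 2 + b * X + 2 * β) ≠ 0)
    (hD : 4 * (X₂ * (X * (4 * X ^ 2 + b * X + 2 * β))) = (2 * X ^ 2 - β) ^ 2) :
    S05_Rel (v β) ((max (v β) (min 1 (v X))) ^ 2) (max (v β) (min 1 (v X₂))) := by
  have hm0 : v β ≠ 0 := by rwa [ne_eq, map_eq_zero]
  have hmpos : 0 < v β := zero_lt_iff.2 hm0
  have h4 : v (4 : K) = 1 := by
    have : (4 : K) = 2 * 2 := by norm_num
    rw [this, map_mul, h2, one_mul]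
  have hX0 : X ≠ 0 := left_ne_zero_of_mul hΨ
  have hT0 : 4 * X ^ 2 + b * X + 2 * β ≠ 0 := right_ne_zero_of_mul hΨ
  have ha0 : v X ≠ 0 := by rwa [ne_eq, map_eq_zero]
  have hapos : 0 < v X := zero_lt_iff.2 ha0
  have hvT0 : v (4 * X ^ 2 + b * X + 2 * β) ≠ 0 := by rwa [ne_eq, map_eq_zero]
  -- the basic relation between valuations
  have hrel : v X₂ * (v X * v (4 * X ^ 2 + b * X + 2 * β)) = v (2 * X ^ 2 - β) ^ 2 := by
    have := congrArg v hD
    rwa [map_mul, h4, one_mul, map_mul, map_mul, map_pow] at this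
  have e4X2 : v (4 * X ^ 2) = v X ^ 2 := by rw [map_mul, h4, one_mul, map_pow]
  have e2X2 : v (2 * X ^ 2) = v X ^ 2 := by rw [map_mul, h2, one_mul, map_pow]
  have ebX : v (b * X) = v X := by rw [map_mul, hb, one_mul]
  have e2β : v (2 * β) = v β := by rw [map_mul, h2, one_mul]
  rcases lt_trichotomy (v X) 1 with hlt | heq | hgt
  · -- `v X < 1`
    have hsq_lt : v X ^ 2 < v X := by
      rw [pow_two]; exact mul_lt_of_lt_one_left hapos hlt
    rcases lt_or_ge (v β) (v X) with hβX | hXβ
    · -- `μ < v X < 1`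
      have hL : max (v β) (min 1 (v X)) = v X := by
        rw [min_eq_right hlt.le, max_eq_right hβX.le]
      have hvT : v (4 * X ^ 2 + b * X + 2 * β) = v X := by
        have e1 : v (4 * X ^ 2 + b * X) = v X := by
          rw [Valuation.map_add_eq_of_lt_right v (by rw [e4X2, ebX]; exact hsq_lt), ebX]
        rw [Valuation.map_add_eq_of_lt_left v (by rw [e2β, e1]; exact hβX), e1]
      rw [hvT] at hrel
      rw [hL]
      rcases lt_trichotomy (v X ^ 2) (v β) with h1 | h1 | h1
      · -- `v X ^ 2 < μ`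
        have hvN : v (2 * X ^ 2 - β) = v β := by
          rw [sub_eq_add_neg, Valuation.map_add_eq_of_lt_right v
            (by rw [Valuation.map_neg, e2X2]; exact h1), Valuation.map_neg]
        rw [hvN] at hrel
        have hc : v X₂ = (v X ^ 2)⁻¹ * v β ^ 2 := by
          rw [← hrel, ← pow_two, mul_comm (v X₂), inv_mul_cancel_left₀ (pow_ne_zero 2 ha0)]
        have hc1 : v X₂ < 1 := by
          rw [hc, inv_mul_lt_iff₀ (pow_pos hapos 2), mul_one]
          exact pow_lt_pow_left₀ hβX zero_le (by norm_num)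
        have hc2 : v β < v X₂ := by
          rw [hc, lt_inv_mul_iff₀ (pow_pos hapos 2), pow_two (v β)]
          exact mul_lt_mul_of_pos_right h1 hmpos
        rw [min_eq_right hc1.le, max_eq_right hc2.le, hc]
        exact ⟨1, Or.inr (by rw [mul_one, zpow_ofNat])⟩
      · -- `v X ^ 2 = μ`
        have hvN : v (2 * X ^ 2 - β) ≤ v β := by
          refine (Valuation.map_sub v _ _).trans ?_
          rw [e2X2, h1, max_self]
        have hc : v X₂ ≤ v β := by
          have h3 : v X₂ * v β ≤ v β * v β := by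
            calc v X₂ * v β = v X₂ * (v X * v X) := by rw [← h1, pow_two]
              _ = v (2 * X ^ 2 - β) ^ 2 := hrel
              _ ≤ v β ^ 2 := pow_le_pow_left₀ zero_le hvN 2
              _ = v β * v β := pow_two _
          exact le_of_mul_le_mul_right h3 hmpos
        rw [max_eq_left ((min_le_right _ _).trans hc), h1]
        exact S05_Rel_refl _ _
      · -- `μ < v X ^ 2`
        have hvN : v (2 * X ^ 2 - β) = v X ^ 2 := by
          rw [sub_eq_add_neg, Valuation.map_add_eq_of_lt_left v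
            (by rw [Valuation.map_neg, e2X2]; exact h1), e2X2]
        rw [hvN] at hrel
        have hc : v X₂ = v X ^ 2 := by
          have : v X₂ * v X ^ 2 = v X ^ 2 * v X ^ 2 := by
            simp only [pow_two, mul_assoc] at hrel ⊢
            exact hrel
          exact mul_right_cancel₀ (pow_ne_zero 2 ha0) this
        rw [hc, min_eq_right (hsq_lt.trans hlt).le, max_eq_right h1.le]
        exact S05_Rel_refl _ _
    · -- `v X ≤ μ`
      have hL : max (v β) (min 1 (v X)) = v β := by
        rw [min_eq_right hlt.le, max_eq_left hXβ]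
      have hvN : v (2 * X ^ 2 - β) = v β := by
        rw [sub_eq_add_neg, Valuation.map_add_eq_of_lt_right v
          (by rw [Valuation.map_neg, e2X2]; exact lt_of_lt_of_le hsq_lt hXβ), Valuation.map_neg]
      have hvT : v (4 * X ^ 2 + b * X + 2 * β) ≤ v β := by
        refine (Valuation.map_add v _ _).trans (max_le ?_ e2β.le)
        refine (Valuation.map_add v _ _).trans (max_le ?_ ?_)
        · rw [e4X2]; exact hsq_lt.le.trans hXβ
        · rw [ebX]; exact hXβ
      rw [hvN] at hrel
      have hc : 1 ≤ v X₂ := by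
        by_contra hcon
        rw [not_le] at hcon
        have h3 : v X₂ * (v X * v (4 * X ^ 2 + b * X + 2 * β)) < v β ^ 2 := by
          calc v X₂ * (v X * v (4 * X ^ 2 + b * X + 2 * β))
              < 1 * (v X * v (4 * X ^ 2 + b * X + 2 * β)) :=
                mul_lt_mul_of_pos_right hcon (mul_pos hapos (zero_lt_iff.2 hvT0))
            _ = v X * v (4 * X ^ 2 + b * X + 2 * β) := one_mul _
            _ ≤ v β * v β := mul_le_mul' hXβ hvT
            _ = v β ^ 2 := (pow_two _).symm
        rw [hrel] at h3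
        exact lt_irrefl _ h3
      rw [hL, min_eq_left hc, max_eq_right hβ1.le]
      exact S05_Rel_sq_one hm0
  · -- `v X = 1`
    have hvN : v (2 * X ^ 2 - β) = 1 := by
      rw [sub_eq_add_neg, Valuation.map_add_eq_of_lt_left v
        (by rw [Valuation.map_neg, e2X2, heq, one_pow]; exact hβ1), e2X2, heq, one_pow]
    have hvT : v (4 * X ^ 2 + b * X + 2 * β) ≤ 1 := by
      refine (Valuation.map_add v _ _).trans (max_le ?_ (e2β.le.trans hβ1.le))
      refine (Valuation.map_add v _ _).trans (max_le ?_ ?_)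
      · rw [e4X2, heq, one_pow]
      · rw [ebX, heq]
    rw [hvN, heq, one_mul, one_pow] at hrel
    have hc : 1 ≤ v X₂ := by
      by_contra hcon
      rw [not_le] at hcon
      have : v X₂ * v (4 * X ^ 2 + b * X + 2 * β) < 1 := by
        calc v X₂ * v (4 * X ^ 2 + b * X + 2 * β)
            < 1 * v (4 * X ^ 2 + b * X + 2 * β) :=
              mul_lt_mul_of_pos_right hcon (zero_lt_iff.2 hvT0)
          _ = v (4 * X ^ 2 + b * X + 2 * β) := one_mul _
          _ ≤ 1 := hvT
      rw [hrel] at this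
      exact lt_irrefl _ this
    rw [heq, min_self, min_eq_left hc, max_eq_right hβ1.le, one_pow]
    exact S05_Rel_refl _ _
  · -- `1 < v X`
    have hsq_gt : v X < v X ^ 2 := by
      rw [pow_two]; exact lt_mul_of_one_lt_left hapos hgt
    have hvT : v (4 * X ^ 2 + b * X + 2 * β) = v X ^ 2 := by
      have e1 : v (4 * X ^ 2 + b * X) = v X ^ 2 := by
        rw [Valuation.map_add_eq_of_lt_left v (by rw [e4X2, ebX]; exact hsq_gt), e4X2]
      rw [Valuation.map_add_eq_of_lt_left v
        (by rw [e2β, e1]; exact (hβ1.trans hgt).trans hsq_gt), e1]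
    have hvN : v (2 * X ^ 2 - β) = v X ^ 2 := by
      rw [sub_eq_add_neg, Valuation.map_add_eq_of_lt_left v
        (by rw [Valuation.map_neg, e2X2]; exact (hβ1.trans hgt).trans hsq_gt), e2X2]
    rw [hvT, hvN] at hrel
    have hc : v X₂ = v X := by
      have : v X₂ * (v X * v X ^ 2) = v X * (v X * v X ^ 2) := by
        simp only [pow_two, mul_assoc] at hrel ⊢
        exact hrel
      exact mul_right_cancel₀ (mul_ne_zero ha0 (pow_ne_zero 2 ha0)) this
    rw [hc, min_eq_left hgt.le, max_eq_right hβ1.le, one_pow]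
    exact S05_Rel_refl _ _

end core

section points

variable {K : Type*} [Field K] [DecidableEq K] {W : WeierstrassCurve.Affine K}
  (A : ValuationSubring K)

lemma S05_lvl_zero (x₀ : K) : S05_lvl W A x₀ (0 : W.Point) = 1 := rfl

lemma S05_lvl_of_isX (x₀ : K) {P : W.Point} {x : K} (h : S51_c_IsX P x) :
    S05_lvl W A x₀ P =
      max (A.valuation (W.b₄ + W.b₂ * x₀ + 6 * x₀ ^ 2)) (min 1 (A.valuation (x - x₀))) := by
  obtain ⟨y, hy, rfl⟩ := h
  rfl

/-- **Doubling**: `lvl (2P) ~ lvl (P) ^ 2`. -/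
theorem S05_lvl_double {x₀ : K} (hN : S05_Node W A x₀) (P : W.Point) :
    S05_Rel (A.valuation (W.b₄ + W.b₂ * x₀ + 6 * x₀ ^ 2)) (S05_lvl W A x₀ P ^ 2)
      (S05_lvl W A x₀ (P + P)) := by
  by_cases hP0 : P = 0
  · subst hP0
    rw [add_zero, S05_lvl_zero, one_pow]
    exact S05_Rel_refl _ _
  obtain ⟨x, hx⟩ := S51_c_exists_isX_of_ne_zero hP0
  have hΨ := S05_eval_Ψ₂Sq_shift W hN.root x
  have hb : A.valuation (W.b₂ + 12 * x₀) = 1 := hN.b₂_unit
  rw [S05_lvl_of_isX A x₀ hx]
  by_cases h2P : P + P = 0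
  · rw [h2P, S05_lvl_zero]
    have h0 : W.Ψ₂Sq.eval x = 0 := hx.add_self_eq_zero_iff.1 h2P
    refine S05_double_core_zero A.valuation hN.two hb hN.β_ne hN.β_lt ?_
    rw [← h0, hΨ]
  · obtain ⟨x₂, hx₂, hne, -⟩ := hx.exists_add_self h2P
    rw [S05_lvl_of_isX A x₀ hx₂]
    have hdup := S05_dup_identity_shift hx hx₂ hN.root
    refine S05_double_core A.valuation hN.two hb hN.β_ne hN.β_lt ?_ ?_
    · rw [← hΨ]; exact hne
    · rw [← hΨ]; exact hdup

end points

end Fermat.Agent.S05
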