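import Mathlib
import Fermat.Agent.S51.TorsCommon
import Fermat.Agent.S05.Defs
import Fermat.Agent.S05.Identities
import Fermat.Agent.S05.NodeDefs
import Fermat.Agent.S05.LvlQuad
import Fermat.Agent.S05.LvlDouble

/-!
# S05, package P5a (glue): the multiset identity `S05_lvl_add_sub` from the field-level core

`S05_lvl_add_sub_of_core` : the exact skeleton statement of `S05_lvl_add_sub`, with the
field-level core (generic case `x₁ ≠ x₂`) as a hypothesis.  The degenerate cases `P₁ = 0`,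
`P₂ = 0`, `P₁ = ± P₂` are done here (the last one by the doubling lemma `S05_lvl_double`).
-/

set_option autoImplicit false

namespace Fermat.Agent.S05

open WeierstrassCurve Fermat.Agent.S51

variable {K : Type*} [Field K] [DecidableEq K] {W : WeierstrassCurve.Affine K}
  (A : ValuationSubring K)

/-- the level only depends on `±P`. -/
lemma S05_lvl_neg (x₀ : K) (P : W.Point) : S05_lvl W A x₀ (-P) = S05_lvl W A x₀ P := by
  by_cases hP : P = 0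
  · subst hP; rw [neg_zero]
  · obtain ⟨x, hx⟩ := S51_c_exists_isX_of_ne_zero hP
    rw [S05_lvl_of_isX A x₀ hx, S05_lvl_of_isX A x₀ hx.neg]

/-- the level is nonzero. -/
lemma S05_lvl_ne_zero {x₀ : K} (hβ : W.b₄ + W.b₂ * x₀ + 6 * x₀ ^ 2 ≠ 0) (P : W.Point) :
    S05_lvl W A x₀ P ≠ 0 := by
  by_cases hP : P = 0
  · subst hP; rw [S05_lvl_zero]; exact one_ne_zero
  · obtain ⟨x, hx⟩ := S51_c_exists_isX_of_ne_zero hP
    rw [S05_lvl_of_isX A x₀ hx]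
    have h0 : 0 < A.valuation (W.b₄ + W.b₂ * x₀ + 6 * x₀ ^ 2) :=
      zero_lt_iff.2 ((Valuation.ne_zero_iff _).2 hβ)
    exact (lt_of_lt_of_le h0 (le_max_left _ _)).ne'

/-- **Glue**: the multiset identity from the field-level core. -/
theorem S05_lvl_add_sub_of_core {x₀ : K} (hN : S05_Node W A x₀)
    (hcore : ∀ X₁ X₂ Z₁ Z₂ : K, X₁ ≠ X₂ →
      4 * (Z₁ * Z₂) * (X₁ - X₂) ^ 2 =
        (2 * (X₁ * X₂) - (W.b₄ + W.b₂ * x₀ + 6 * x₀ ^ 2)) ^ 2 →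
      (Z₁ + Z₂) * (X₁ - X₂) ^ 2 =
        (X₁ + X₂) * (2 * (X₁ * X₂) + (W.b₄ + W.b₂ * x₀ + 6 * x₀ ^ 2)) +
          (W.b₂ + 12 * x₀) * (X₁ * X₂) →
      (S05_Rel (A.valuation (W.b₄ + W.b₂ * x₀ + 6 * x₀ ^ 2))
          (S05_clip (A.valuation (W.b₄ + W.b₂ * x₀ + 6 * x₀ ^ 2)) (A.valuation X₁) *
            S05_clip (A.valuation (W.b₄ + W.b₂ * x₀ + 6 * x₀ ^ 2)) (A.valuation X₂))
          (S05_clip (A.valuation (W.b₄ + W.b₂ * x₀ + 6 * x₀ ^ 2)) (A.valuation Z₁)) ∧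
        S05_Rel (A.valuation (W.b₄ + W.b₂ * x₀ + 6 * x₀ ^ 2))
          (S05_clip (A.valuation (W.b₄ + W.b₂ * x₀ + 6 * x₀ ^ 2)) (A.valuation X₁) /
            S05_clip (A.valuation (W.b₄ + W.b₂ * x₀ + 6 * x₀ ^ 2)) (A.valuation X₂))
          (S05_clip (A.valuation (W.b₄ + W.b₂ * x₀ + 6 * x₀ ^ 2)) (A.valuation Z₂))) ∨
      (S05_Rel (A.valuation (W.b₄ + W.b₂ * x₀ + 6 * x₀ ^ 2))
          (S05_clip (A.valuation (W.b₄ + W.b₂ * x₀ + 6 * x₀ ^ 2)) (A.valuation X₁) /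
            S05_clip (A.valuation (W.b₄ + W.b₂ * x₀ + 6 * x₀ ^ 2)) (A.valuation X₂))
          (S05_clip (A.valuation (W.b₄ + W.b₂ * x₀ + 6 * x₀ ^ 2)) (A.valuation Z₁)) ∧
        S05_Rel (A.valuation (W.b₄ + W.b₂ * x₀ + 6 * x₀ ^ 2))
          (S05_clip (A.valuation (W.b₄ + W.b₂ * x₀ + 6 * x₀ ^ 2)) (A.valuation X₁) *
            S05_clip (A.valuation (W.b₄ + W.b₂ * x₀ + 6 * x₀ ^ 2)) (A.valuation X₂))
          (S05_clip (A.valuation (W.b₄ + W.b₂ * x₀ + 6 * x₀ ^ 2)) (A.valuation Z₂))))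
    (P₁ P₂ : W.Point) :
    let μ := A.valuation (W.b₄ + W.b₂ * x₀ + 6 * x₀ ^ 2)
    (S05_Rel μ (S05_lvl W A x₀ P₁ * S05_lvl W A x₀ P₂) (S05_lvl W A x₀ (P₁ + P₂)) ∧
        S05_Rel μ (S05_lvl W A x₀ P₁ / S05_lvl W A x₀ P₂) (S05_lvl W A x₀ (P₁ - P₂))) ∨
      (S05_Rel μ (S05_lvl W A x₀ P₁ / S05_lvl W A x₀ P₂) (S05_lvl W A x₀ (P₁ + P₂)) ∧
        S05_Rel μ (S05_lvl W A x₀ P₁ * S05_lvl W A x₀ P₂) (S05_lvl W A x₀ (P₁ - P₂))) := by
  intro μ
  by_cases h1 : P₁ = 0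
  · subst h1
    left
    rw [zero_add, zero_sub, S05_lvl_neg, S05_lvl_zero, one_mul, one_div]
    exact ⟨S05_la_rel_refl _ _, S05_la_rel_of_inv (by rw [inv_inv]; exact S05_la_rel_refl _ _)⟩
  by_cases h2 : P₂ = 0
  · subst h2
    left
    rw [add_zero, sub_zero, S05_lvl_zero, mul_one, div_one]
    exact ⟨S05_la_rel_refl _ _, S05_la_rel_refl _ _⟩
  obtain ⟨x₁, hx₁⟩ := S51_c_exists_isX_of_ne_zero h1
  obtain ⟨x₂, hx₂⟩ := S51_c_exists_isX_of_ne_zero h2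
  by_cases hne : x₁ = x₂
  · subst hne
    have hl : S05_lvl W A x₀ P₁ = S05_lvl W A x₀ P₂ := by
      rw [S05_lvl_of_isX A x₀ hx₁, S05_lvl_of_isX A x₀ hx₂]
    have hl0 := S05_lvl_ne_zero A hN.β_ne P₂
    have hdbl : ∀ P : W.Point, S05_Rel μ (S05_lvl W A x₀ P * S05_lvl W A x₀ P)
        (S05_lvl W A x₀ (P + P)) := fun P => by
      have := S05_lvl_double A hN P
      rwa [pow_two (S05_lvl W A x₀ P)] at this
    rcases hx₁.eq_or_eq_neg hx₂ with h | h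
    · subst h
      left
      rw [sub_self, S05_lvl_zero, div_self hl0]
      exact ⟨hdbl _, S05_la_rel_refl _ _⟩
    · subst h
      right
      rw [neg_add_cancel, S05_lvl_zero, hl, div_self hl0]
      refine ⟨S05_la_rel_refl _ _, ?_⟩
      have e : -P₂ - P₂ = -(P₂ + P₂) := by abel
      rw [e, S05_lvl_neg]
      exact hdbl _
  · obtain ⟨xs, xd, hs, hd⟩ := S05_exists_isX_add_sub hx₁ hx₂ hne
    have hPi := S05_mul_identity_shift hx₁ hx₂ hne hs hd hN.root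
    have hSi := S05_add_identity_shift hx₁ hx₂ hne hs hd hN.root
    have e : x₁ - x₂ = (x₁ - x₀) - (x₂ - x₀) := by ring
    rw [e] at hPi hSi
    have key := hcore (x₁ - x₀) (x₂ - x₀) (xs - x₀) (xd - x₀)
      (fun h => hne (sub_left_inj.1 h)) hPi hSi
    rw [S05_lvl_of_isX A x₀ hx₁, S05_lvl_of_isX A x₀ hx₂, S05_lvl_of_isX A x₀ hs,
      S05_lvl_of_isX A x₀ hd]
    exact key

end Fermat.Agent.S05
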