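import Mathlib
import Fermat.Agent.S51.TorsCommon
import Fermat.Agent.S05.Defs
import Fermat.Agent.S05.Identities
import Fermat.Agent.S05.NodeDefs
import Fermat.Agent.S05.LvlQuad
import Fermat.Agent.S05.LvlDouble
import Fermat.Agent.S05.LvlGlue
import Fermat.Agent.S05.LvlCoreM

/-!
# S05, package P5a: the multiset identity `S05_lvl_add_sub` (exact skeleton statement)
-/

set_option autoImplicit false

namespace Fermat.Agent.S05

open WeierstrassCurve Fermat.Agent.S51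

variable {K : Type*} [Field K] [DecidableEq K] {W : WeierstrassCurve.Affine K}
  (A : ValuationSubring K)

/-- MULTISET IDENTITY (P5a). -/
theorem S05_lvl_add_sub {x₀ : K} (hN : S05_Node W A x₀) (P₁ P₂ : W.Point) :
    let μ := A.valuation (W.b₄ + W.b₂ * x₀ + 6 * x₀ ^ 2)
    (S05_Rel μ (S05_lvl W A x₀ P₁ * S05_lvl W A x₀ P₂) (S05_lvl W A x₀ (P₁ + P₂)) ∧
        S05_Rel μ (S05_lvl W A x₀ P₁ / S05_lvl W A x₀ P₂) (S05_lvl W A x₀ (P₁ - P₂))) ∨
      (S05_Rel μ (S05_lvl W A x₀ P₁ / S05_lvl W A x₀ P₂) (S05_lvl W A x₀ (P₁ + P₂)) ∧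
        S05_Rel μ (S05_lvl W A x₀ P₁ * S05_lvl W A x₀ P₂) (S05_lvl W A x₀ (P₁ - P₂))) :=
  S05_lvl_add_sub_of_core A hN
    (fun _ _ _ _ hne hPi hSi =>
      S05_la_core A.valuation hN.two hN.b₂_unit hN.β_ne hN.β_lt hne hPi hSi) P₁ P₂

end Fermat.Agent.S05
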