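/-
S05 packages P4 (skeleton-exact statements) and P5c (helper12).

* `S05_near_unit`               : integral points congruent mod `𝔪` at a point with unit derivative
                                  differ by an element of `E₁`
* `S05_inE1_two_nsmul_of_unit`  : halving: `Ψ₂²(x)` non-unit, `Φ₂(x)` unit ⇒ `2P ∈ E₁`
* `S05_near_node_raw`           : two points on the same branch at the node differ by an element
                                  of `E₁` (P5c, with the node datum as explicit hypotheses)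
-/
import Mathlib
import Fermat.Agent.S05.Defs
import Fermat.Agent.S05.Identities
import Fermat.Agent.S05.UnitDeriv
import Fermat.Agent.S05.NodeDefs

set_option autoImplicit false

open WeierstrassCurve Polynomial

namespace Fermat.Agent.S05

open Fermat.Agent.S51

variable {K : Type*} [Field K] [DecidableEq K] {W : WeierstrassCurve.Affine K}
  (A : ValuationSubring K)

/-- `P = (x,y)`, `Q = (x',y')` integral, `Q ≡ P mod 𝔪`, `2y + a₁x + a₃` a unit ⇒ `Q - P ∈ E₁`. -/
theorem S05_near_unit (hW : S05_Integral W A) {x y x' y' : K}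
    (h : W.Nonsingular x y) (h' : W.Nonsingular x' y') (hx : x ∈ A) (hy : y ∈ A)
    (hxx : A.valuation (x' - x) < 1) (hyy : A.valuation (y' - y) < 1)
    (hD : A.valuation (2 * y + W.a₁ * x + W.a₃) = 1) :
    S05_InE1 A (Affine.Point.some x' y' h' - Affine.Point.some x y h) := by
  have hx' : x' ∈ A := by
    have : x' = (x' - x) + x := by ring
    rw [this]
    exact add_mem ((A.valuation_le_one_iff _).mp hxx.le) hx
  rcases S05_sub_isX_not_mem A hW.a₁ hW.a₂ hW.a₃ h h' hx hy hx' (A.mem_nonunits_iff.mpr hxx)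
    (A.mem_nonunits_iff.mpr hyy) (by rw [A.mem_nonunits_iff, hD]; exact lt_irrefl _) with he | he
  · left
    rw [he, sub_self]
  · right
    exact he

/-- halving: `P' = (x', y')` integral with `ψ₂²(x')` a non-unit and `φ₂(x')` a unit ⇒ `2P' ∈ E₁`. -/
theorem S05_inE1_two_nsmul_of_unit (_hW : S05_Integral W A) {x y : K} (h : W.Nonsingular x y)
    (_hx : x ∈ A) (hψ : A.valuation (W.Ψ₂Sq.eval x) < 1) (hφ : A.valuation ((W.Φ 2).eval x) = 1) :
    S05_InE1 A (2 • Affine.Point.some x y h) := by
  rw [two_nsmul]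
  by_cases h0 : (Affine.Point.some x y h : W.Point) + Affine.Point.some x y h = 0
  · left
    exact h0
  · right
    obtain ⟨x₂, hx₂, -, hmul⟩ :=
      S51_c_IsX.exists_add_self (P := Affine.Point.some x y h) ⟨y, h, rfl⟩ h0
    refine ⟨x₂, hx₂, fun hmem => ?_⟩
    have h1 : A.valuation x₂ * A.valuation (W.Ψ₂Sq.eval x) = 1 := by
      rw [← map_mul, hmul, hφ]
    have h2 : A.valuation x₂ * A.valuation (W.Ψ₂Sq.eval x) < 1 :=
      lt_of_le_of_lt (mul_le_of_le_one_left' ((A.valuation_le_one_iff _).mpr hmem)) hψ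
    rw [h1] at h2
    exact lt_irrefl _ h2

section Node

/-- squares are injective in a linearly ordered group with zero -/
theorem S05_sq_inj {Γ : Type*} [LinearOrderedCommGroupWithZero Γ] {a b : Γ}
    (h : a ^ 2 = b ^ 2) : a = b := by
  rcases lt_trichotomy a b with hlt | heq | hgt
  · exfalso
    have : a ^ 2 < b ^ 2 := pow_lt_pow_left₀ hlt zero_le two_ne_zero
    rw [h] at this
    exact lt_irrefl _ this
  · exact heq
  · exfalso
    have : b ^ 2 < a ^ 2 := pow_lt_pow_left₀ hgt zero_le two_ne_zero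
    rw [h] at this
    exact lt_irrefl _ this

/-- At a point reducing to the node (with `v β < v (x - x₀) < 1`), `v (2y + a₁x + a₃) = v (x - x₀)`. -/
theorem S05_val_D_eq (h2 : A.valuation (2 : K) = 1) {x₀ : K}
    (root : W.Ψ₂Sq.eval x₀ = 0) (b₂_unit : A.valuation (W.b₂ + 12 * x₀) = 1)
    {x y : K} (h : W.Nonsingular x y)
    (hX : A.valuation (x - x₀) < 1)
    (hβ : A.valuation (W.b₄ + W.b₂ * x₀ + 6 * x₀ ^ 2) < A.valuation (x - x₀)) :
    A.valuation (2 * y + W.a₁ * x + W.a₃) = A.valuation (x - x₀) := by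
  set v := A.valuation with hv
  set X := x - x₀ with hXdef
  set β := W.b₄ + W.b₂ * x₀ + 6 * x₀ ^ 2 with hβdef
  have hX0 : 0 < v X := lt_of_le_of_lt zero_le hβ
  have hD2 : (2 * y + W.a₁ * x + W.a₃) ^ 2 = X * (4 * X ^ 2 + (W.b₂ + 12 * x₀) * X + 2 * β) := by
    rw [← S05_eval_Ψ₂Sq_shift W root x, S51_c_eval_Ψ₂Sq_eq h.1]
    simp only [Affine.negY]
    ring
  have h4 : v (4 : K) ≤ 1 := (A.valuation_le_one_iff _).mpr (S05_four_mem A)
  have hbX : v ((W.b₂ + 12 * x₀) * X) = v X := by rw [map_mul, b₂_unit, one_mul]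
  have h4X : v (4 * X ^ 2) < v X := by
    rw [map_mul, map_pow, pow_two]
    calc v 4 * (v X * v X) ≤ v X * v X := mul_le_of_le_one_left' h4
      _ < v X * 1 := by
        exact mul_lt_mul_of_pos_left hX hX0
      _ = v X := mul_one _
  have h2β : v (2 * β) < v X := by rw [map_mul, h2, one_mul]; exact hβ
  have hsum : v (4 * X ^ 2 + (W.b₂ + 12 * x₀) * X + 2 * β) = v X := by
    have e : 4 * X ^ 2 + (W.b₂ + 12 * x₀) * X + 2 * β =
        (W.b₂ + 12 * x₀) * X + (4 * X ^ 2 + 2 * β) := by ring
    rw [e, Valuation.map_add_eq_of_lt_left, hbX]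
    rw [hbX]
    exact Valuation.map_add_lt v h4X h2β
  have := congrArg v hD2
  rw [map_pow, map_mul, hsum, ← pow_two] at this
  exact S05_sq_inj this

/-- **P5c** (raw form). Two points near the node, on the same branch, with `x' - x₀ ≈ x - x₀`,
differ by an element of the kernel of reduction. -/
theorem S05_near_node_raw (hW : S05_Integral W A) (h2 : A.valuation (2 : K) = 1) {x₀ : K}
    (x₀_mem : x₀ ∈ A) (root : W.Ψ₂Sq.eval x₀ = 0) (b₂_unit : A.valuation (W.b₂ + 12 * x₀) = 1)
    {x y x' y' : K}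
    (h : W.Nonsingular x y) (h' : W.Nonsingular x' y')
    (hX : A.valuation (x - x₀) < 1)
    (hβ : A.valuation (W.b₄ + W.b₂ * x₀ + 6 * x₀ ^ 2) < A.valuation (x - x₀))
    (hXX : A.valuation (x' - x) < A.valuation (x - x₀))
    (hbr : A.valuation ((2 * y' + W.a₁ * x' + W.a₃) * (x - x₀) -
      (2 * y + W.a₁ * x + W.a₃) * (x' - x₀)) < A.valuation (x - x₀) ^ 2) :
    S05_InE1 A (Affine.Point.some x' y' h' - Affine.Point.some x y h) := by
  set v := A.valuation with hv
  have hX0 : 0 < v (x - x₀) := lt_of_le_of_lt zero_le hβ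
  have hD := S05_val_D_eq A h2 root b₂_unit h hX hβ
  have hxA : x ∈ A := by
    have : x = (x - x₀) + x₀ := by ring
    rw [this]
    exact add_mem ((A.valuation_le_one_iff _).mp hX.le) x₀_mem
  have hx'A : x' ∈ A := by
    have : x' = (x' - x) + x := by ring
    rw [this]
    exact add_mem ((A.valuation_le_one_iff _).mp (hXX.trans hX).le) hxA
  by_cases hxe : x' = x
  · subst hxe
    left
    rcases Affine.Y_eq_of_X_eq h'.1 h.1 rfl with hyy' | hyy'
    · subst hyy'
      rw [sub_self]
    · exfalso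
      have e : (2 * y' + W.a₁ * x' + W.a₃) * (x' - x₀) - (2 * y + W.a₁ * x' + W.a₃) * (x' - x₀) =
          -(2 * ((2 * y + W.a₁ * x' + W.a₃) * (x' - x₀))) := by
        rw [hyy']
        simp only [Affine.negY]
        ring
      rw [e, Valuation.map_neg, map_mul, map_mul, h2, one_mul, hD, ← pow_two] at hbr
      exact lt_irrefl _ hbr
  · right
    apply S05_sub_isX_not_mem_of_val_lt A hW.a₁ hW.a₂ h h' hxA hx'A hxe
    -- `v (x' - x) < v N`, `N = y' - negY x y`
    set N := y' - W.negY x y with hN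
    set D := 2 * y + W.a₁ * x + W.a₃ with hDdef
    set D' := 2 * y' + W.a₁ * x' + W.a₃ with hD'def
    set X := x - x₀ with hXdef
    have key : 2 * N * X = 2 * D * X + ((D' * X - D * (x' - x₀)) + D * (x' - x) -
        W.a₁ * (x' - x) * X) := by
      simp only [hN, hDdef, hD'def, hXdef, Affine.negY]
      ring
    have hsq : v (2 * D * X) = v X ^ 2 := by
      rw [map_mul, map_mul, h2, one_mul, hD, pow_two]
    have ht2 : v (D * (x' - x)) < v X ^ 2 := by
      rw [map_mul, hD, pow_two]
      exact mul_lt_mul_of_pos_left hXX hX0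
    have ht3 : v (W.a₁ * (x' - x) * X) < v X ^ 2 := by
      rw [map_mul, map_mul, pow_two]
      have ha1 : v W.a₁ ≤ 1 := (A.valuation_le_one_iff _).mpr hW.a₁
      calc v W.a₁ * v (x' - x) * v X = v W.a₁ * (v (x' - x) * v X) := mul_assoc _ _ _
        _ ≤ v (x' - x) * v X := mul_le_of_le_one_left' ha1
        _ < v X * v X := mul_lt_mul_of_pos_right hXX hX0
    have hrest : v ((D' * X - D * (x' - x₀)) + D * (x' - x) - W.a₁ * (x' - x) * X) < v X ^ 2 := by
      refine lt_of_le_of_lt (Valuation.map_sub v _ _) (max_lt ?_ ht3)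
      exact Valuation.map_add_lt v hbr ht2
    have hNX : v (2 * N * X) = v X ^ 2 := by
      rw [key, Valuation.map_add_eq_of_lt_left, hsq]
      rw [hsq]
      exact hrest
    have hNv : v N = v X := by
      rw [map_mul, map_mul, h2, one_mul, pow_two] at hNX
      exact mul_right_cancel₀ hX0.ne' hNX
    rw [hNv]
    exact hXX

end Node

/-- P5c (exact skeleton shape): two integral points on the same branch at the node with
`x' - x₀ ≈ x - x₀`. -/
theorem S05_near_node {x₀ : K} (hN : S05_Node W A x₀) {x y x' y' : K}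
    (h : W.Nonsingular x y) (h' : W.Nonsingular x' y')
    (hX : A.valuation (x - x₀) < 1)
    (hβ : A.valuation (W.b₄ + W.b₂ * x₀ + 6 * x₀ ^ 2) < A.valuation (x - x₀))
    (hXX : A.valuation (x' - x) < A.valuation (x - x₀))
    (hbr : A.valuation ((2 * y' + W.a₁ * x' + W.a₃) * (x - x₀) -
      (2 * y + W.a₁ * x + W.a₃) * (x' - x₀)) < A.valuation (x - x₀) ^ 2) :
    S05_InE1 A (Affine.Point.some x' y' h' - Affine.Point.some x y h) :=
  S05_near_node_raw A hN.int hN.two hN.x₀_mem hN.root hN.b₂_unit h h' hX hβ hXX hbr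

end Fermat.Agent.S05
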