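import Mathlib
import Fermat.Agent.S51.TorsCommon
import Fermat.Agent.S05.Defs
import Fermat.Agent.S05.NodeDefs

/-!
# S05 package P5b: the level of a multiple (`S05_lvl_nsmul`) and of a torsion point at the node

Everything here is pure group theory on top of the multiset identity P5a (`S05_lvl_add_sub`),
which enters as the hypothesis `hAS`:

* `S05_nl_rel_refl/symm/trans/...` : `S05_Rel μ` is an equivalence relation (`μ ≠ 0`);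
* `S05_nl_rel_nsmul` : abstract induction, `lvl (j • P) ~ lvl P ^ j`;
* `S05_lvl_nsmul_of`, `S05_lvl_nsmul_of_node` : P5b for `S05_lvl`;
* `S05_node_level_of`, `S05_node_level_of_node` : a `p`-torsion point (`p` odd) reducing to the
  node has `v β < v (x - x₀)` and `v (x - x₀) ^ p ∈ ⟨(v β)²⟩`.
-/

set_option autoImplicit false

namespace Fermat.Agent.S05

open WeierstrassCurve Fermat.Agent.S51

section Rel

variable {Γ : Type*} [LinearOrderedCommGroupWithZero Γ] {μ g h l : Γ}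

lemma S05_nl_rel_refl (μ g : Γ) : S05_Rel μ g g := ⟨0, Or.inl (by simp)⟩

lemma S05_nl_rel_symm (hμ : μ ≠ 0) (H : S05_Rel μ g h) : S05_Rel μ h g := by
  obtain ⟨k, rfl | rfl⟩ := H
  · refine ⟨-k, Or.inl ?_⟩
    rw [mul_assoc, ← zpow_add₀ hμ]
    simp
  · refine ⟨k, Or.inr ?_⟩
    rw [mul_inv, inv_inv, mul_assoc, ← zpow_neg, ← zpow_add₀ hμ]
    simp

lemma S05_nl_rel_ne_zero (hμ : μ ≠ 0) (hg : g ≠ 0) (H : S05_Rel μ g h) : h ≠ 0 := by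
  obtain ⟨k, rfl | rfl⟩ := H
  · exact mul_ne_zero hg (zpow_ne_zero _ hμ)
  · exact mul_ne_zero (inv_ne_zero hg) (zpow_ne_zero _ hμ)

lemma S05_nl_rel_inv_left (H : S05_Rel μ g h) : S05_Rel μ g⁻¹ h := by
  obtain ⟨k, rfl | rfl⟩ := H
  · exact ⟨k, Or.inr (by rw [inv_inv])⟩
  · exact ⟨k, Or.inl rfl⟩

lemma S05_nl_rel_trans (hμ : μ ≠ 0) {a b c : Γ} (H₁ : S05_Rel μ a b) (H₂ : S05_Rel μ b c) :
    S05_Rel μ a c := by
  obtain ⟨k, rfl | rfl⟩ := H₁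
  · obtain ⟨k', rfl | rfl⟩ := H₂
    · refine ⟨k + k', Or.inl ?_⟩
      rw [mul_assoc, ← zpow_add₀ hμ]
      congr 2
      ring
    · refine ⟨k' - k, Or.inr ?_⟩
      rw [mul_inv, mul_assoc, ← zpow_neg, ← zpow_add₀ hμ]
      congr 2
      ring
  · obtain ⟨k', rfl | rfl⟩ := H₂
    · refine ⟨k + k', Or.inr ?_⟩
      rw [mul_assoc, ← zpow_add₀ hμ]
      congr 2
      ring
    · refine ⟨k' - k, Or.inl ?_⟩
      rw [mul_inv, inv_inv, mul_assoc, ← zpow_neg, ← zpow_add₀ hμ]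
      congr 2
      ring

/-- the pair `{a l, a / l}` for `a ~ l ^ (j + 1)` is `{l ^ (j + 2), l ^ j}` up to `~`. -/
lemma S05_nl_rel_pair (hl : l ≠ 0) {a : Γ} (j : ℕ) (Ha : S05_Rel μ (l ^ (j + 1)) a) :
    (S05_Rel μ (l ^ (j + 2)) (a * l) ∧ S05_Rel μ (l ^ j) (a / l)) ∨
      (S05_Rel μ (l ^ j) (a * l) ∧ S05_Rel μ (l ^ (j + 2)) (a / l)) := by
  obtain ⟨k, rfl | rfl⟩ := Ha
  · refine Or.inl ⟨⟨k, Or.inl ?_⟩, ⟨k, Or.inl ?_⟩⟩
    · rw [pow_succ l (j + 1)]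
      exact mul_right_comm _ _ _
    · rw [pow_succ l j, mul_right_comm, mul_div_assoc, div_self hl, mul_one]
  · refine Or.inr ⟨⟨k, Or.inr ?_⟩, ⟨k, Or.inr ?_⟩⟩
    · rw [pow_succ l j, mul_inv, mul_right_comm, mul_right_comm (l ^ j)⁻¹,
        mul_assoc (l ^ j)⁻¹, mul_inv_cancel₀ hl, mul_one]
    · rw [pow_succ l (j + 1), mul_inv, div_eq_mul_inv, mul_right_comm]

/-- abstract induction: the multiset identity implies `lvl (j • P) ~ lvl P ^ j`. -/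
theorem S05_nl_rel_nsmul {G : Type*} [AddCommGroup G] (hμ : μ ≠ 0) (lvl : G → Γ)
    (h0 : lvl 0 = 1) (hne : ∀ P, lvl P ≠ 0)
    (H : ∀ P₁ P₂ : G,
      (S05_Rel μ (lvl P₁ * lvl P₂) (lvl (P₁ + P₂)) ∧
          S05_Rel μ (lvl P₁ / lvl P₂) (lvl (P₁ - P₂))) ∨
        (S05_Rel μ (lvl P₁ / lvl P₂) (lvl (P₁ + P₂)) ∧
          S05_Rel μ (lvl P₁ * lvl P₂) (lvl (P₁ - P₂))))
    (P : G) (j : ℕ) : S05_Rel μ (lvl P ^ j) (lvl (j • P)) := by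
  suffices key : ∀ j : ℕ, S05_Rel μ (lvl P ^ j) (lvl (j • P)) ∧
      S05_Rel μ (lvl P ^ (j + 1)) (lvl ((j + 1) • P)) from (key j).1
  intro j
  induction j with
  | zero =>
    refine ⟨?_, ?_⟩
    · rw [zero_smul, h0, pow_zero]
      exact S05_nl_rel_refl _ _
    · rw [zero_add, one_smul, pow_one]
      exact S05_nl_rel_refl _ _
  | succ j ih =>
    refine ⟨ih.2, ?_⟩
    obtain ⟨ih0, ih1⟩ := ih
    have e1 : (j + 1) • P + P = (j + 1 + 1) • P := (succ_nsmul P (j + 1)).symm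
    have e2 : (j + 1) • P - P = j • P := by rw [succ_nsmul, add_sub_cancel_right]
    have HH := H ((j + 1) • P) P
    rw [e1, e2] at HH
    rcases S05_nl_rel_pair (hne P) j ih1 with ⟨p1, p2⟩ | ⟨p1, p2⟩
    · rcases HH with ⟨q1, q2⟩ | ⟨q1, q2⟩
      · exact S05_nl_rel_trans hμ p1 q1
      · -- `l^(j+2) ~ a_j ~ l^j ~ a_(j+2)`
        have t1 := S05_nl_rel_trans hμ p1 q2
        have t2 := S05_nl_rel_trans hμ p2 q1
        exact S05_nl_rel_trans hμ t1 (S05_nl_rel_trans hμ (S05_nl_rel_symm hμ ih0) t2)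
    · rcases HH with ⟨q1, q2⟩ | ⟨q1, q2⟩
      · have t1 := S05_nl_rel_trans hμ p1 q1
        have t2 := S05_nl_rel_trans hμ p2 q2
        exact S05_nl_rel_trans hμ t2 (S05_nl_rel_trans hμ (S05_nl_rel_symm hμ ih0) t1)
      · exact S05_nl_rel_trans hμ p2 q1

end Rel

section Curve

variable {K : Type*} [Field K] [DecidableEq K] {W : WeierstrassCurve.Affine K}
  (A : ValuationSubring K)

omit [DecidableEq K] in
lemma S05_nl_lvl_zero (x₀ : K) : S05_lvl W A x₀ 0 = 1 := rfl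

omit [DecidableEq K] in
lemma S05_nl_lvl_some (x₀ : K) {x y : K} (h : W.Nonsingular x y) :
    S05_lvl W A x₀ (Affine.Point.some x y h) =
      max (A.valuation (W.b₄ + W.b₂ * x₀ + 6 * x₀ ^ 2)) (min 1 (A.valuation (x - x₀))) := rfl

omit [DecidableEq K] in
lemma S05_nl_lvl_ne_zero {x₀ : K} (hβ : W.b₄ + W.b₂ * x₀ + 6 * x₀ ^ 2 ≠ 0) (P : W.Point) :
    S05_lvl W A x₀ P ≠ 0 := by
  have hμ : A.valuation (W.b₄ + W.b₂ * x₀ + 6 * x₀ ^ 2) ≠ 0 := (Valuation.ne_zero_iff _).2 hβ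
  rcases P with _ | ⟨x, y, h⟩
  · exact one_ne_zero
  · intro h0
    have : A.valuation (W.b₄ + W.b₂ * x₀ + 6 * x₀ ^ 2) ≤ 0 := by
      rw [← h0]
      exact le_max_left _ _
    exact hμ (le_antisymm this zero_le)

/-- P5b, from the multiset identity `hAS` (= the statement of `S05_lvl_add_sub`):
`lvl (j • P) ~ lvl P ^ j`. -/
theorem S05_lvl_nsmul_of {x₀ : K} (hβ : W.b₄ + W.b₂ * x₀ + 6 * x₀ ^ 2 ≠ 0)
    (hAS : ∀ P₁ P₂ : W.Point,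
      (S05_Rel (A.valuation (W.b₄ + W.b₂ * x₀ + 6 * x₀ ^ 2))
            (S05_lvl W A x₀ P₁ * S05_lvl W A x₀ P₂) (S05_lvl W A x₀ (P₁ + P₂)) ∧
          S05_Rel (A.valuation (W.b₄ + W.b₂ * x₀ + 6 * x₀ ^ 2))
            (S05_lvl W A x₀ P₁ / S05_lvl W A x₀ P₂) (S05_lvl W A x₀ (P₁ - P₂))) ∨
        (S05_Rel (A.valuation (W.b₄ + W.b₂ * x₀ + 6 * x₀ ^ 2))
            (S05_lvl W A x₀ P₁ / S05_lvl W A x₀ P₂) (S05_lvl W A x₀ (P₁ + P₂)) ∧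
          S05_Rel (A.valuation (W.b₄ + W.b₂ * x₀ + 6 * x₀ ^ 2))
            (S05_lvl W A x₀ P₁ * S05_lvl W A x₀ P₂) (S05_lvl W A x₀ (P₁ - P₂))))
    (P : W.Point) (j : ℕ) :
    S05_Rel (A.valuation (W.b₄ + W.b₂ * x₀ + 6 * x₀ ^ 2)) (S05_lvl W A x₀ P ^ j)
      (S05_lvl W A x₀ (j • P)) :=
  S05_nl_rel_nsmul ((Valuation.ne_zero_iff _).2 hβ) (S05_lvl W A x₀) (S05_nl_lvl_zero A x₀)
    (S05_nl_lvl_ne_zero A hβ) hAS P j

/-- in a linearly ordered group with zero, `μ < 1`, `μ ≠ 0`: `μ ^ a = μ ^ b → a = b`. -/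
lemma S05_nl_zpow_inj {Γ : Type*} [LinearOrderedCommGroupWithZero Γ] {μ : Γ} (hμ : μ ≠ 0)
    (hμ1 : μ < 1) {a b : ℤ} (h : μ ^ a = μ ^ b) : a = b :=
  zpow_right_injective₀ (zero_lt_iff.2 hμ) hμ1.ne h

/-- P5b output, from the multiset identity `hAS`: a `p`-torsion point reducing to the node has
`v β < v (x - x₀)` and `v (x - x₀) ^ p ∈ ⟨(v β)²⟩`. -/
theorem S05_node_level_of {x₀ : K} (hβ : W.b₄ + W.b₂ * x₀ + 6 * x₀ ^ 2 ≠ 0)
    (hβ1 : A.valuation (W.b₄ + W.b₂ * x₀ + 6 * x₀ ^ 2) < 1)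
    (hAS : ∀ P₁ P₂ : W.Point,
      (S05_Rel (A.valuation (W.b₄ + W.b₂ * x₀ + 6 * x₀ ^ 2))
            (S05_lvl W A x₀ P₁ * S05_lvl W A x₀ P₂) (S05_lvl W A x₀ (P₁ + P₂)) ∧
          S05_Rel (A.valuation (W.b₄ + W.b₂ * x₀ + 6 * x₀ ^ 2))
            (S05_lvl W A x₀ P₁ / S05_lvl W A x₀ P₂) (S05_lvl W A x₀ (P₁ - P₂))) ∨
        (S05_Rel (A.valuation (W.b₄ + W.b₂ * x₀ + 6 * x₀ ^ 2))
            (S05_lvl W A x₀ P₁ / S05_lvl W A x₀ P₂) (S05_lvl W A x₀ (P₁ + P₂)) ∧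
          S05_Rel (A.valuation (W.b₄ + W.b₂ * x₀ + 6 * x₀ ^ 2))
            (S05_lvl W A x₀ P₁ * S05_lvl W A x₀ P₂) (S05_lvl W A x₀ (P₁ - P₂))))
    {x y : K} (h : W.Nonsingular x y) {p : ℕ} (hp2 : ¬ 2 ∣ p)
    (hP : p • Affine.Point.some x y h = 0) (hX : A.valuation (x - x₀) < 1) :
    A.valuation (W.b₄ + W.b₂ * x₀ + 6 * x₀ ^ 2) < A.valuation (x - x₀) ∧
      ∃ k : ℤ, A.valuation (x - x₀) ^ p =
        A.valuation (W.b₄ + W.b₂ * x₀ + 6 * x₀ ^ 2) ^ (2 * k) := by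
  set μ := A.valuation (W.b₄ + W.b₂ * x₀ + 6 * x₀ ^ 2) with hμdef
  have hμ : μ ≠ 0 := (Valuation.ne_zero_iff _).2 hβ
  have hrel := S05_lvl_nsmul_of A hβ hAS (Affine.Point.some x y h) p
  rw [hP, S05_nl_lvl_zero, S05_nl_lvl_some, min_eq_right hX.le] at hrel
  -- `L ^ p = μ ^ (2 k')`, `L = max μ (v X)`
  have hL : ∃ k : ℤ, (max μ (A.valuation (x - x₀))) ^ p = μ ^ (2 * k) := by
    obtain ⟨k, hk | hk⟩ := hrel
    · refine ⟨-k, ?_⟩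
      have h1 : μ ^ (2 * k) ≠ 0 := zpow_ne_zero _ hμ
      rw [mul_neg, zpow_neg]
      exact eq_inv_of_mul_eq_one_left hk.symm
    · refine ⟨k, ?_⟩
      have h2 : (max μ (A.valuation (x - x₀))) ^ p ≠ 0 :=
        pow_ne_zero _ (ne_of_gt (lt_of_lt_of_le (zero_lt_iff.2 hμ) (le_max_left _ _)))
      have h3 := hk.symm
      rw [inv_mul_eq_one₀ h2] at h3
      exact h3
  have hlt : μ < A.valuation (x - x₀) := by
    by_contra hcon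
    rw [not_lt] at hcon
    rw [max_eq_left hcon] at hL
    obtain ⟨k, hk⟩ := hL
    rw [← zpow_natCast] at hk
    have := S05_nl_zpow_inj hμ hβ1 hk
    exact hp2 ⟨k.toNat, by omega⟩
  refine ⟨hlt, ?_⟩
  rw [max_eq_right hlt.le] at hL
  exact hL

/-- P5b in skeleton shape, with the multiset identity (P5a) as hypothesis `hAS`. -/
theorem S05_lvl_nsmul_of_node {x₀ : K} (hN : S05_Node W A x₀)
    (hAS : ∀ P₁ P₂ : W.Point,
      (S05_Rel (A.valuation (W.b₄ + W.b₂ * x₀ + 6 * x₀ ^ 2))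
            (S05_lvl W A x₀ P₁ * S05_lvl W A x₀ P₂) (S05_lvl W A x₀ (P₁ + P₂)) ∧
          S05_Rel (A.valuation (W.b₄ + W.b₂ * x₀ + 6 * x₀ ^ 2))
            (S05_lvl W A x₀ P₁ / S05_lvl W A x₀ P₂) (S05_lvl W A x₀ (P₁ - P₂))) ∨
        (S05_Rel (A.valuation (W.b₄ + W.b₂ * x₀ + 6 * x₀ ^ 2))
            (S05_lvl W A x₀ P₁ / S05_lvl W A x₀ P₂) (S05_lvl W A x₀ (P₁ + P₂)) ∧
          S05_Rel (A.valuation (W.b₄ + W.b₂ * x₀ + 6 * x₀ ^ 2))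
            (S05_lvl W A x₀ P₁ * S05_lvl W A x₀ P₂) (S05_lvl W A x₀ (P₁ - P₂))))
    (P : W.Point) (j : ℕ) :
    S05_Rel (A.valuation (W.b₄ + W.b₂ * x₀ + 6 * x₀ ^ 2)) (S05_lvl W A x₀ P ^ j)
      (S05_lvl W A x₀ (j • P)) :=
  S05_lvl_nsmul_of A hN.β_ne hAS P j

/-- P5b output in skeleton shape, with the multiset identity (P5a) as hypothesis `hAS`. -/
theorem S05_node_level_of_node {x₀ : K} (hN : S05_Node W A x₀)
    (hAS : ∀ P₁ P₂ : W.Point,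
      (S05_Rel (A.valuation (W.b₄ + W.b₂ * x₀ + 6 * x₀ ^ 2))
            (S05_lvl W A x₀ P₁ * S05_lvl W A x₀ P₂) (S05_lvl W A x₀ (P₁ + P₂)) ∧
          S05_Rel (A.valuation (W.b₄ + W.b₂ * x₀ + 6 * x₀ ^ 2))
            (S05_lvl W A x₀ P₁ / S05_lvl W A x₀ P₂) (S05_lvl W A x₀ (P₁ - P₂))) ∨
        (S05_Rel (A.valuation (W.b₄ + W.b₂ * x₀ + 6 * x₀ ^ 2))
            (S05_lvl W A x₀ P₁ / S05_lvl W A x₀ P₂) (S05_lvl W A x₀ (P₁ + P₂)) ∧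
          S05_Rel (A.valuation (W.b₄ + W.b₂ * x₀ + 6 * x₀ ^ 2))
            (S05_lvl W A x₀ P₁ * S05_lvl W A x₀ P₂) (S05_lvl W A x₀ (P₁ - P₂))))
    {x y : K} (h : W.Nonsingular x y)
    {p : ℕ} (hp : p.Prime) (hp2 : p ≠ 2) (hP : p • Affine.Point.some x y h = 0)
    (hX : A.valuation (x - x₀) < 1) :
    A.valuation (W.b₄ + W.b₂ * x₀ + 6 * x₀ ^ 2) < A.valuation (x - x₀) ∧
      ∃ k : ℤ, A.valuation (x - x₀) ^ p =
        A.valuation (W.b₄ + W.b₂ * x₀ + 6 * x₀ ^ 2) ^ (2 * k) := by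
  refine S05_node_level_of A hN.β_ne hN.β_lt hAS h ?_ hP hX
  intro h2
  exact hp2 ((Nat.prime_dvd_prime_iff_eq Nat.prime_two hp).1 h2).symm

end Curve

end Fermat.Agent.S05
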