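import Mathlib
import Fermat.Agent.S05.Kernel

/-!
# Kernel of reduction, any residue characteristic (generalisation of `S05/Kernel.lean`)

`W` an integral Weierstrass curve over a valuation ring `A ⊂ K` (no hypothesis on `2`).
If `x(P) ∉ A` and `t = x(P)⁻¹`, then for every `j` the point `j • P` has a parameter `c_j ∈ A`
relative to `t` with `c_j ≡ j² mod 𝔪`.  Consequences: the kernel of reduction is stable under
multiples and has no torsion of order a unit of `A`.

Even `j` are treated by duplication, odd `j` by the step lemma `S05_Par.step`.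
-/

set_option autoImplicit false
set_option linter.unusedSectionVars false
set_option linter.unusedVariables false

namespace Fermat.Agent.S05

open WeierstrassCurve Fermat.Agent.S51

variable {K : Type*} [Field K] [DecidableEq K] {W : WeierstrassCurve.Affine K}
  {A : ValuationSubring K}

local notation "v" => ValuationSubring.valuation A

lemma S05_v_ofNat_le_two : v (2 : K) ≤ 1 :=
  (A.valuation_le_one_iff _).2 (S05_two_mem A)

lemma S05_v_ofNat_le_four : v (4 : K) ≤ 1 :=
  (A.valuation_le_one_iff _).2 (S05_four_mem A)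

/-- general duplication in the kernel of reduction: `c(2Q) ≡ 4 c(Q)`. -/
lemma S05_Par.double (hW : S05_Integral W A) {t : K} (ht : v t < 1) {Q : W.Point} {c : K}
    (h : S05_Par A t Q c) :
    ∃ c', S05_Par A t (Q + Q) c' ∧ v (c' - 4 * c) < 1 := by
  obtain ⟨hc, h | ⟨x, hQ, he⟩⟩ := h
  · obtain ⟨rfl, rfl⟩ := h
    exact ⟨0, by simpa using S05_Par.zero (A := A) (W := W) t, by simp⟩
  have hx0 : x ≠ 0 := by rintro rfl; simp at he
  have hc0 : c ≠ 0 := by rintro rfl; simp at he
  have ht0 : t ≠ 0 := by rintro rfl; simp at he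
  set s : K := c * t with hs
  have hxs : x * s = 1 := he
  have hsv : v s < 1 := S05_v_mul_lt_of_le_of_lt A hc ht
  have hb₂ := (A.valuation_le_one_iff _).2 hW.b₂
  have hb₄ := (A.valuation_le_one_iff _).2 hW.b₄
  have hb₆ := (A.valuation_le_one_iff _).2 hW.b₆
  have hb₈ := (A.valuation_le_one_iff _).2 hW.b₈
  have h2le : v (2 : K) ≤ 1 := S05_v_ofNat_le_two
  have h4le : v (4 : K) ≤ 1 := S05_v_ofNat_le_four
  set e₁ : K := W.b₂ * s + 2 * W.b₄ * s ^ 2 + W.b₆ * s ^ 3 with he₁
  set e₂ : K := W.b₄ * s ^ 2 + 2 * W.b₆ * s ^ 3 + W.b₈ * s ^ 4 with he₂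
  have he₁lt : v e₁ < 1 := by
    refine S05_v_add_lt A (S05_v_add_lt A ?_ ?_) ?_
    · exact S05_v_mul_lt_of_le_of_lt A hb₂ hsv
    · exact S05_v_mul_lt_of_le_of_lt A (S05_v_mul_le A h2le hb₄) (S05_v_pow_lt A hsv (by norm_num))
    · exact S05_v_mul_lt_of_le_of_lt A hb₆ (S05_v_pow_lt A hsv (by norm_num))
  have he₂lt : v e₂ < 1 := by
    refine S05_v_add_lt A (S05_v_add_lt A ?_ ?_) ?_
    · exact S05_v_mul_lt_of_le_of_lt A hb₄ (S05_v_pow_lt A hsv (by norm_num))
    · exact S05_v_mul_lt_of_le_of_lt A (S05_v_mul_le A h2le hb₆) (S05_v_pow_lt A hsv (by norm_num))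
    · exact S05_v_mul_lt_of_le_of_lt A hb₈ (S05_v_pow_lt A hsv (by norm_num))
  have hu₂ : v (1 - e₂) = 1 := Valuation.map_one_sub_of_lt _ he₂lt
  have hu₂0 : 1 - e₂ ≠ 0 := by intro h; rw [h] at hu₂; simp at hu₂
  have hu₁le : v (4 + e₁) ≤ 1 := S05_v_add_le A h4le he₁lt.le
  have hΨ : W.Ψ₂Sq.eval x * s ^ 3 = 4 + e₁ := by
    rw [S05_eval_Ψ₂Sq, he₁]
    have : (4 * x ^ 3 + W.b₂ * x ^ 2 + 2 * W.b₄ * x + W.b₆) * s ^ 3 =
        4 * (x * s) ^ 3 + W.b₂ * (x * s) ^ 2 * s + 2 * W.b₄ * (x * s) * s ^ 2 + W.b₆ * s ^ 3 := by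
      ring
    rw [this, hxs]; ring
  have hΦ : (W.Φ 2).eval x * s ^ 4 = 1 - e₂ := by
    rw [S05_eval_Φ_two, he₂]
    have : (x ^ 4 - W.b₄ * x ^ 2 - 2 * W.b₆ * x - W.b₈) * s ^ 4 =
        (x * s) ^ 4 - W.b₄ * (x * s) ^ 2 * s ^ 2 - 2 * W.b₆ * (x * s) * s ^ 3 - W.b₈ * s ^ 4 := by
      ring
    rw [this, hxs]; ring
  have hs0 : s ≠ 0 := mul_ne_zero hc0 ht0
  by_cases hΨ0 : W.Ψ₂Sq.eval x = 0
  · -- `2Q = 0`
    have h2Q : Q + Q = 0 := hQ.add_self_eq_zero_iff.2 hΨ0
    refine ⟨0, ⟨by simp, Or.inl ⟨h2Q, rfl⟩⟩, ?_⟩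
    have h4 : (4 : K) = -e₁ := by
      rw [hΨ0, zero_mul] at hΨ
      linear_combination -hΨ
    rw [zero_sub, Valuation.map_neg, h4, map_mul, Valuation.map_neg]
    exact mul_lt_one_of_nonneg_of_lt_one_left zero_le he₁lt hc
  · have h2P := hQ.add_self hΨ0
    have hu₁0 : 4 + e₁ ≠ 0 := by
      rw [← hΨ]; exact mul_ne_zero hΨ0 (pow_ne_zero 3 hs0)
    refine ⟨c * ((4 + e₁) * (1 - e₂)⁻¹), ⟨?_, Or.inr ⟨_, h2P, ?_⟩⟩, ?_⟩
    · rw [map_mul, map_mul, map_inv₀, hu₂, inv_one, mul_one]
      exact mul_le_one' hc hu₁le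
    · rw [← hΨ, ← hΦ]
      have hΦ0 : (W.Φ 2).eval x * s ^ 4 ≠ 0 := by rw [hΦ]; exact hu₂0
      have hΦ0' : (W.Φ 2).eval x ≠ 0 := left_ne_zero_of_mul hΦ0
      rw [hs]
      field_simp
    · have : c * ((4 + e₁) * (1 - e₂)⁻¹) - 4 * c = c * ((e₁ + 4 * e₂) * (1 - e₂)⁻¹) := by
        field_simp
        ring
      rw [this, map_mul, map_mul, map_inv₀, hu₂, inv_one, mul_one]
      exact S05_v_mul_lt_of_le_of_lt A hc
        (S05_v_add_lt A he₁lt (S05_v_mul_lt_of_le_of_lt A h4le he₂lt))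

/-- an odd natural number is a unit of `A` if `2` is not. -/
lemma S05_v_odd_of_two_lt (h2 : v (2 : K) < 1) (k : ℕ) : v ((2 * k + 1 : ℕ) : K) = 1 := by
  have h : v ((2 : K) * (k : K)) < v (1 : K) := by
    rw [map_one]
    exact S05_v_mul_lt_of_lt_of_le A h2 (S05_v_natCast_le A k)
  have : ((2 * k + 1 : ℕ) : K) = (2 : K) * (k : K) + 1 := by push_cast; ring
  rw [this, Valuation.map_add_eq_of_lt_right _ h, map_one]

/-- **Parameters of multiples, any residue characteristic**: if `x(P) ∉ A` and `t = x(P)⁻¹` then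
`j • P` has a parameter `c_j ∈ A` relative to `t` with `c_j ≡ j² mod 𝔪`. -/
theorem S05_par_nsmul_gen (hW : S05_Integral W A) {P : W.Point} {x : K}
    (hP : S51_c_IsX P x) (hx : x ∉ A) (j : ℕ) :
    ∃ c, S05_Par A x⁻¹ (j • P) c ∧ v (c - (j : K) ^ 2) < 1 := by
  obtain ⟨hx0, ht⟩ := S05_inv_lt_of_not_mem hx
  have h2le : v (2 : K) ≤ 1 := S05_v_ofNat_le_two
  have h4le : v (4 : K) ≤ 1 := S05_v_ofNat_le_four
  induction j using Nat.strong_induction_on with
  | _ j ih =>
    rcases Nat.even_or_odd j with ⟨k, hk⟩ | ⟨k, hk⟩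
    · -- `j = k + k`: duplication
      by_cases hk0 : k = 0
      · subst hk0
        subst hk
        exact ⟨0, by simpa using S05_Par.zero (A := A) (W := W) x⁻¹, by simp⟩
      obtain ⟨c, hc, hc'⟩ := ih k (by omega)
      obtain ⟨c', hc2, hc2'⟩ := S05_Par.double hW ht hc
      refine ⟨c', by rw [hk, add_nsmul]; exact hc2, ?_⟩
      have : c' - ((j : ℕ) : K) ^ 2 = (c' - 4 * c) + 4 * (c - (k : K) ^ 2) := by
        rw [hk]; push_cast; ring
      rw [this]
      exact S05_v_add_lt A hc2' (S05_v_mul_lt_of_le_of_lt A h4le hc')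
    · -- `j = 2k + 1`
      match k, hk with
      | 0, hk =>
        subst hk
        exact ⟨1, by simpa using S05_Par.self (A := A) hP hx0, by simp⟩
      | n' + 1, hk =>
        have hj : j = 2 * n' + 3 := by omega
        subst hj
        by_cases hn1 : v ((2 * n' + 1 : ℕ) : K) = 1
        · -- `(n+3)P = (n+2)P + P`, difference `(n+1)P`, `n = 2n'`
          obtain ⟨c₁, hc₁, hc₁'⟩ := ih (2 * n' + 2) (by omega)
          obtain ⟨cd, hcd, hcd'⟩ := ih (2 * n' + 1) (by omega)
          have hpar1 : S05_Par A x⁻¹ P 1 := S05_Par.self (A := A) hP hx0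
          have hvcd : v cd = 1 :=
            S05_v_eq_one_of_sub_lt A hcd' (by rw [map_pow, hn1, one_pow])
          have hD : (2 * n' + 2) • P - P = (2 * n' + 1) • P := by
            rw [succ_nsmul P (2 * n' + 1)]; abel
          have hS : (2 * n' + 2) • P + P = (2 * n' + 3) • P := by
            rw [succ_nsmul P (2 * n' + 2)]
          obtain ⟨cs, hcs, hcs'⟩ := S05_Par.step hW ht hc₁ hpar1 (by rw [hD]; exact hcd) hvcd
          rw [hS] at hcs
          refine ⟨cs, hcs, ?_⟩
          have hc₁le := hc₁.1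
          have hcdle := hcd.1
          have key : cd * (cs - ((2 * n' + 3 : ℕ) : K) ^ 2) =
              (cs * cd - (c₁ - 1) ^ 2) +
                (c₁ - ((2 * n' + 2 : ℕ) : K) ^ 2) * (c₁ + ((2 * n' + 2 : ℕ) : K) ^ 2 - 2) -
                ((2 * n' + 3 : ℕ) : K) ^ 2 * (cd - ((2 * n' + 1 : ℕ) : K) ^ 2) := by
            push_cast; ring
          have hlt : v (cd * (cs - ((2 * n' + 3 : ℕ) : K) ^ 2)) < 1 := by
            rw [key]
            refine S05_v_sub_lt A (S05_v_add_lt A hcs' ?_) ?_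
            · refine S05_v_mul_lt_of_lt_of_le A hc₁' ?_
              exact S05_v_sub_le A
                (S05_v_add_le A hc₁le (S05_v_pow_le A (S05_v_natCast_le A _) 2)) h2le
            · exact S05_v_mul_lt_of_le_of_lt A (S05_v_pow_le A (S05_v_natCast_le A _) 2) hcd'
          rwa [map_mul, hvcd, one_mul] at hlt
        · -- `v (2n'+1) < 1`: then `n' ≥ 1` and `v (2n'-1) = 1`
          match n', ih, hn1 with
          | 0, _, hn1 => exact absurd (by simp) hn1
          | m + 1, ih, hn1 =>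
            have hlt3 : v ((2 * (m + 1) + 1 : ℕ) : K) < 1 :=
              lt_of_le_of_ne (S05_v_natCast_le A _) hn1
            have hm1 : v ((2 * m + 1 : ℕ) : K) = 1 := by
              rcases h2le.eq_or_lt with h2 | h2
              · have : ((2 * m + 1 : ℕ) : K) = -2 + ((2 * (m + 1) + 1 : ℕ) : K) := by
                  push_cast; ring
                rw [this, Valuation.map_add_eq_of_lt_left _
                  (by rw [Valuation.map_neg, h2]; exact hlt3), Valuation.map_neg, h2]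
              · exact S05_v_odd_of_two_lt h2 m
            obtain ⟨c₁, hc₁, hc₁'⟩ := ih (2 * m + 3) (by omega)
            obtain ⟨c₂, hc₂, hc₂'⟩ := ih 2 (by omega)
            obtain ⟨cd, hcd, hcd'⟩ := ih (2 * m + 1) (by omega)
            have hvcd : v cd = 1 :=
              S05_v_eq_one_of_sub_lt A hcd' (by rw [map_pow, hm1, one_pow])
            have hD : (2 * m + 3) • P - 2 • P = (2 * m + 1) • P := by
              rw [show 2 * m + 3 = (2 * m + 1) + 2 by omega, add_nsmul]; abel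
            have hS : (2 * m + 3) • P + 2 • P = (2 * (m + 1) + 3) • P := by
              rw [← add_nsmul]
              congr 1
            obtain ⟨cs, hcs, hcs'⟩ :=
              S05_Par.step hW ht hc₁ hc₂ (by rw [hD]; exact hcd) hvcd
            rw [hS] at hcs
            refine ⟨cs, hcs, ?_⟩
            have hc₁le := hc₁.1
            have hc₂le := hc₂.1
            have key : cd * (cs - ((2 * (m + 1) + 3 : ℕ) : K) ^ 2) =
                (cs * cd - (c₁ - c₂) ^ 2) +
                  ((c₁ - ((2 * m + 3 : ℕ) : K) ^ 2) - (c₂ - ((2 : ℕ) : K) ^ 2)) *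
                    ((c₁ - c₂) + (((2 * m + 3 : ℕ) : K) ^ 2 - 4)) -
                  ((2 * (m + 1) + 3 : ℕ) : K) ^ 2 * (cd - ((2 * m + 1 : ℕ) : K) ^ 2) := by
              push_cast; ring
            have hlt : v (cd * (cs - ((2 * (m + 1) + 3 : ℕ) : K) ^ 2)) < 1 := by
              rw [key]
              refine S05_v_sub_lt A (S05_v_add_lt A hcs' ?_) ?_
              · refine S05_v_mul_lt_of_lt_of_le A (S05_v_sub_lt A hc₁' hc₂') ?_
                exact S05_v_add_le A (S05_v_sub_le A hc₁le hc₂le)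
                  (S05_v_sub_le A (S05_v_pow_le A (S05_v_natCast_le A _) 2) h4le)
              · exact S05_v_mul_lt_of_le_of_lt A (S05_v_pow_le A (S05_v_natCast_le A _) 2) hcd'
            rwa [map_mul, hvcd, one_mul] at hlt

variable (A)

/-- `x(P) ∉ A`, `n` a unit of `A` ⇒ `n • P ≠ 0` (any residue characteristic). -/
theorem S05_nsmul_ne_zero_gen (hW : S05_Integral W A)
    {P : W.Point} {x : K} (hP : S51_c_IsX P x) (hx : x ∉ A) {n : ℕ}
    (hn : A.valuation (n : K) = 1) : n • P ≠ 0 := by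
  intro h0
  obtain ⟨c, hc, hc'⟩ := S05_par_nsmul_gen hW hP hx n
  have hc0 : c = 0 := hc.eq_zero_iff.1 h0
  rw [hc0, zero_sub, Valuation.map_neg, map_pow, hn, one_pow] at hc'
  exact lt_irrefl _ hc'

/-- the kernel of reduction is stable under multiplication by `j` (any residue characteristic). -/
theorem S05_inE1_nsmul_gen (hW : S05_Integral W A)
    {P : W.Point} (hP : S05_InE1 A P) (j : ℕ) : S05_InE1 A (j • P) := by
  rcases hP with rfl | ⟨x, hP, hx⟩
  · left; simp
  · obtain ⟨c, hc, -⟩ := S05_par_nsmul_gen hW hP hx j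
    exact hc.inE1 (S05_inv_lt_of_not_mem hx).2

/-- the kernel of reduction has no nonzero `n`-torsion for `n` a unit of `A`
(any residue characteristic). -/
theorem S05_eq_zero_of_inE1_gen (hW : S05_Integral W A)
    {P : W.Point} (hP : S05_InE1 A P) {n : ℕ} (hn : A.valuation (n : K) = 1)
    (h : n • P = 0) : P = 0 := by
  rcases hP with rfl | ⟨x, hP, hx⟩
  · rfl
  · exact absurd h (S05_nsmul_ne_zero_gen A hW hP hx hn)

/-- `X`-coordinates of torsion points of order a unit of `A` are integral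
(any residue characteristic). -/
theorem S05_isX_mem_of_torsion_gen (hW : S05_Integral W A)
    {P : W.Point} {n : ℕ} (hn : A.valuation (n : K) = 1) (hP : n • P = 0)
    {x : K} (hx : S51_c_IsX P x) : x ∈ A := by
  by_contra hxA
  exact S05_nsmul_ne_zero_gen A hW hx hxA hn hP

end Fermat.Agent.S05
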