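import Mathlib
import Fermat.Agent.S05.LvlAddSub
import Fermat.Agent.S05.NodeLevel

/-!
# S05 package P5b, final form (skeleton statements `S05_lvl_nsmul`, `S05_node_level`)
-/

set_option autoImplicit false

namespace Fermat.Agent.S05

open WeierstrassCurve Fermat.Agent.S51

variable {K : Type*} [Field K] [DecidableEq K] {W : WeierstrassCurve.Affine K}
  (A : ValuationSubring K)

/-- P5b: `lvl (j • P) ~ lvl P ^ j`. -/
theorem S05_lvl_nsmul {x₀ : K} (hN : S05_Node W A x₀) (P : W.Point) (j : ℕ) :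
    S05_Rel (A.valuation (W.b₄ + W.b₂ * x₀ + 6 * x₀ ^ 2)) (S05_lvl W A x₀ P ^ j)
      (S05_lvl W A x₀ (j • P)) :=
  S05_lvl_nsmul_of_node A hN (fun P₁ P₂ => S05_lvl_add_sub A hN P₁ P₂) P j

/-- P5b output: a `p`-torsion point reducing to the node has `v β < v (x - x₀)` and
`v (x - x₀) ^ p ∈ ⟨(v β)²⟩`. -/
theorem S05_node_level {x₀ : K} (hN : S05_Node W A x₀) {x y : K} (h : W.Nonsingular x y)
    {p : ℕ} (hp : p.Prime) (hp2 : p ≠ 2) (hP : p • Affine.Point.some x y h = 0)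
    (hX : A.valuation (x - x₀) < 1) :
    A.valuation (W.b₄ + W.b₂ * x₀ + 6 * x₀ ^ 2) < A.valuation (x - x₀) ∧
      ∃ k : ℤ, A.valuation (x - x₀) ^ p =
        A.valuation (W.b₄ + W.b₂ * x₀ + 6 * x₀ ^ 2) ^ (2 * k) :=
  S05_node_level_of_node A hN (fun P₁ P₂ => S05_lvl_add_sub A hN P₁ P₂) h hp hp2 hP hX

end Fermat.Agent.S05
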